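import Fermat.Agent.Global.CFT.Tate
import Fermat.Agent.Global.Semilocal.UnitSubgroup

/-!
The Herbrand quotient of the idele units of a layer of prime degree is one.
-/

set_option autoImplicit false
set_option linter.unusedSectionVars false

noncomputable section

namespace FLTAgent.Global

/-- An idele from its components. -/
def mkIdele (L : Level) (y : ∀ q : Nat.Primes, Semi q)
    (hy : ∀ q, y q ∈ fixSub (A := Semi q) L.grp) (hu : {q | y q ∉ semiUnit q}.Finite) : Idele :=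
  ⟨y, ⟨L, fun q t ht => hy q t ht⟩, hu⟩

@[simp] lemma comp_mkIdele (L : Level) (y : ∀ q : Nat.Primes, Semi q)
    (hy : ∀ q, y q ∈ fixSub (A := Semi q) L.grp) (hu : {q | y q ∉ semiUnit q}.Finite)
    (q : Nat.Primes) : comp q (mkIdele L y hy hu) = y q := rfl

lemma mkIdele_mem_fixSub (L : Level) (y : ∀ q : Nat.Primes, Semi q)
    (hy : ∀ q, y q ∈ fixSub (A := Semi q) L.grp) (hu : {q | y q ∉ semiUnit q}.Finite)
    {K : Subgroup GQ} (h : ∀ q, y q ∈ fixSub (A := Semi q) K) :
    mkIdele L y hy hu ∈ fixSub (A := Idele) K :=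
  fun t ht => idele_ext fun q => by rw [comp_smul, comp_mkIdele]; exact h q t ht

/-- Idele units of `P` vanishing at the primes of `S`. -/
def unitsAway (P : Subgroup GQ) (S : Finset Nat.Primes) : AddSubgroup Idele :=
  sIdele ∅ ⊓ fixSub P ⊓ ⨅ q ∈ S, (comp q).ker

lemma mem_unitsAway {P : Subgroup GQ} {S : Finset Nat.Primes} {x : Idele} :
    x ∈ unitsAway P S ↔
      (∀ q, comp q x ∈ semiUnit q) ∧ x ∈ fixSub (A := Idele) P ∧ ∀ q ∈ S, comp q x = 0 := by
  unfold unitsAway
  simp only [AddSubgroup.mem_inf, AddSubgroup.mem_iInf, AddMonoidHom.mem_ker, and_assoc]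
  exact and_congr_left fun _ =>
    ⟨fun h q => h q (Finset.notMem_empty q), fun h q _ => h q⟩

lemma mem_unitsAway_empty {P : Subgroup GQ} {x : Idele} :
    x ∈ unitsAway P ∅ ↔ x ∈ sIdele ∅ ⊓ fixSub (A := Idele) P := by
  rw [mem_unitsAway, AddSubgroup.mem_inf]
  exact ⟨fun h => ⟨fun q _ => h.1 q, h.2.1⟩,
    fun h => ⟨fun q => h.1 q (Finset.notMem_empty q), h.2, by simp⟩⟩

namespace CStep

variable {p : ℕ} [hp : Fact p.Prime] {L : Level} {H P : Subgroup GQ} (c : CStep p L H P)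
  {s : GQ} (hs : s ∈ H) (hsP : s ∉ P)

include c hs hsP

/-- The cocycle with a given value at the generator. -/
lemma exists_cocycle {A : Type*} [AddCommGroup A] [DistribMulAction GQ A] {a : A}
    (ha : a ∈ fixSub (A := A) P) (h0 : ∑ i ∈ Finset.range p, s ^ i • a = 0) :
    ∃ f : GQ → A, IsZ1 H P f ∧ f s = a ∧
      ∀ S : AddSubgroup A, a ∈ S → (∀ g : GQ, ∀ x ∈ S, g • x ∈ S) → ∀ g, f g ∈ S := by
  classical
  let F : ℕ → A := fun n => ∑ j ∈ Finset.range n, s ^ j • a
  have hadd : ∀ m n, F (m + n) = s ^ m • F n + F m := by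
    intro m n
    simp only [F, Finset.smul_sum, ← mul_smul, ← pow_add]
    rw [Finset.sum_range_add, add_comm]
  have hper : ∀ k, F (p * k) = 0 := by
    intro k
    induction k with
    | zero => simp [F]
    | succ k ih =>
      rw [Nat.mul_succ, hadd, ih, show F p = 0 from h0, smul_zero, add_zero]
  have hmod : ∀ n, F n = F (n % p) := by
    intro n
    conv_lhs => rw [← Nat.mod_add_div n p, hadd, hper, smul_zero, zero_add]
  have hFfix : ∀ n, F n ∈ fixSub (A := A) P := fun n => sum_mem fun j _ t ht => by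
    rw [← mul_smul, show t * s ^ j = s ^ j * ((s ^ j)⁻¹ * t * s ^ j) by group, mul_smul,
      ha _ (c.hP.conj _ (pow_mem hs j) t ht)]
  have huniq : ∀ i j : ℕ, (s ^ i)⁻¹ * s ^ j ∈ P → F i = F j := by
    intro i j hij
    rw [hmod i, hmod j]
    congr 1
    rcases le_total i j with h | h
    · obtain ⟨k, rfl⟩ := Nat.exists_eq_add_of_le h
      rw [pow_add, inv_mul_cancel_left, c.pow_mem_iff hs hsP] at hij
      obtain ⟨l, rfl⟩ := hij
      simp
    · obtain ⟨k, rfl⟩ := Nat.exists_eq_add_of_le h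
      rw [pow_add, mul_inv_rev, mul_assoc, inv_mul_cancel, mul_one, inv_mem_iff,
        c.pow_mem_iff hs hsP] at hij
      obtain ⟨l, rfl⟩ := hij
      simp
  choose! ι hι hιmem using fun g (hg : g ∈ H) => c.exists_pow_mul_mem hs hsP hg
  refine ⟨fun g => if g ∈ H then F (ι g) else 0, ⟨fun g hg t ht => ?_, fun g hg h hh => ?_⟩, ?_,
    fun S hS hst g => ?_⟩
  · simp only [if_pos hg, if_pos (mul_mem hg (c.hP.le ht))]
    refine huniq _ _ ?_
    have e : (s ^ ι (g * t))⁻¹ * s ^ ι g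
        = ((s ^ ι (g * t))⁻¹ * (g * t)) * t⁻¹ * ((s ^ ι g)⁻¹ * g)⁻¹ := by group
    rw [e]
    exact mul_mem (mul_mem (hιmem _ (mul_mem hg (c.hP.le ht))) (inv_mem ht))
      (inv_mem (hιmem g hg))
  · simp only [if_pos hg, if_pos hh, if_pos (mul_mem hg hh)]
    have h1 : g • F (ι h) = s ^ ι g • F (ι h) := by
      conv_lhs => rw [show g = s ^ ι g * ((s ^ ι g)⁻¹ * g) by group, mul_smul,
        hFfix _ _ (hιmem g hg)]
    rw [h1, ← hadd]
    refine huniq _ _ ?_
    have e : (s ^ ι (g * h))⁻¹ * s ^ (ι g + ι h)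
        = ((s ^ ι (g * h))⁻¹ * (g * h)) * ((s ^ ι h)⁻¹ * h)⁻¹
          * ((s ^ ι h)⁻¹ * ((s ^ ι g)⁻¹ * g)⁻¹ * s ^ ι h) := by
      rw [pow_add]; group
    rw [e]
    exact mul_mem (mul_mem (hιmem _ (mul_mem hg hh)) (inv_mem (hιmem h hh)))
      (c.hP.conj _ (pow_mem hs _) _ (inv_mem (hιmem g hg)))
  · simp only [if_pos hs]
    rw [huniq (ι s) 1 (by simpa using hιmem s hs)]
    simp [F]
  · show (if g ∈ H then F (ι g) else 0) ∈ S
    split_ifs
    · exact sum_mem fun j _ => hst _ _ hS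
    · exact S.zero_mem

omit hsP in
lemma smul_mem_unit (q : Nat.Primes) :
    ∀ a ∈ semiUnit q ⊓ fixSub (A := Semi q) P, s • a ∈ semiUnit q ⊓ fixSub (A := Semi q) P :=
  fun _ ha => ⟨smul_mem_semiUnit q ha.1 s, c.smul_mem_fixSub hs ha.2⟩

/-- The units at one prime have Herbrand quotient one. -/
theorem hasHerbrand_semiUnit (q : Nat.Primes) :
    HasHerbrand (sigmaSub (subAct s _ (c.smul_mem_unit hs q)))
      (sigmaNorm (subAct s _ (c.smul_mem_unit hs q)) p) 1 1 := by
  classical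
  obtain ⟨V, hVle, hVst, hVfin, -, hV⟩ := exists_unit_subgroup L q 1 one_ne_zero
  obtain ⟨hN, hH1, -⟩ := hV H c.hLH
  set U := semiUnit q ⊓ fixSub (A := Semi q) P
  set VP := V ⊓ fixSub (A := Semi q) P
  have hVPU : VP ≤ U := fun x hx => ⟨(hVle hx.1).1, hx.2⟩
  have hVPs : ∀ a ∈ VP, s • a ∈ VP := fun a ha => ⟨hVst s a ha.1, c.smul_mem_fixSub hs ha.2⟩
  set σV := subAct s VP hVPs
  set σU := subAct s U (c.smul_mem_unit hs q)
  have h0 : Subsingleton (TateQuot (sigmaSub σV) (sigmaNorm σV p)) := by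
    refine subsingleton_tate_norm fun a ha hsa => ?_
    obtain ⟨y, hy, hya⟩ := hN a ha.1 (c.mem_fixSub_of_gen hs hsP ha.2 hsa)
    have hLvl := L.lvl c.hLH
    have hyf : y ∈ fixSub (A := Semi q) L.grp := (hVle hy).2
    have hz : normTo P L.grp y ∈ fixSub (A := Semi q) P :=
      normTo_mem_fixSub (L.lvl c.hLP) hyf
    refine ⟨normTo P L.grp y, ⟨csum_mem V.toAddSubmonoid fun g _ => hVst g y hy, hz⟩, ?_⟩
    rw [← c.normTo_eq_sum hs hsP hz, normTo_tower hLvl c.hP.le c.hLP hyf, hya]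
  have h1 : Subsingleton (TateQuot (sigmaNorm σV p) (sigmaSub σV)) := by
    refine subsingleton_tate_sub fun a ha h0 => ?_
    obtain ⟨f, hf, hfs, hfS⟩ := c.exists_cocycle hs hsP ha.2 h0
    obtain ⟨b, hb, hbf⟩ := hH1 f ⟨hf.1.mono le_rfl c.hLP, hf.2⟩
      (fun g _ => hfS V ha.1 hVst g)
    refine ⟨b, ⟨hb, fun t ht => ?_⟩, by rw [← hfs, hbf s hs, dd0]⟩
    have := hbf t (c.hP.le ht)
    rw [hf.apply_of_mem ht, dd0, eq_comm, sub_eq_zero] at this
    exact this
  refine hasHerbrand_one_of_finite_index hVPU ?_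
    (fun b => c.iterate_subAct hs hsP U _ inf_le_right b) (hasHerbrand_one_of_subsingleton h0 h1)
  let W := semiUnit q ⊓ fixSub (A := Semi q) L.grp
  refine Finite.of_injective (β := W ⧸ V.addSubgroupOf W) (QuotientAddGroup.map _ _
    (AddSubgroup.inclusion (show U ≤ W from fun x hx => ⟨hx.1, fun t ht => hx.2 t (c.hLP ht)⟩))
    (by rintro _ ⟨a, rfl⟩; exact a.2.1)) ((injective_iff_map_eq_zero _).2 fun x hx => ?_)
  obtain ⟨u, rfl⟩ := QuotientAddGroup.mk_surjective x
  rw [QuotientAddGroup.map_mk, QuotientAddGroup.eq_zero_iff] at hx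
  exact (QuotientAddGroup.eq_zero_iff _).2 ⟨⟨u, hx, u.2.2⟩, Subtype.ext rfl⟩

omit hsP in
lemma smul_mem_unitsAway (S : Finset Nat.Primes) :
    ∀ a ∈ unitsAway P S, s • a ∈ unitsAway P S := by
  intro a ha
  rw [mem_unitsAway] at ha ⊢
  exact ⟨fun q => by rw [comp_smul]; exact smul_mem_semiUnit q (ha.1 q) s,
    c.smul_mem_fixSub hs ha.2.1, fun q hq => by rw [comp_smul, ha.2.2 q hq, smul_zero]⟩

variable {T : Finset Nat.Primes}
  (hT : ∀ q ∉ T, ∀ x ∈ semiUnit q ⊓ fixSub (A := Semi q) H,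
    ∃ y ∈ semiUnit q ⊓ fixSub (A := Semi q) P, ∑ i ∈ Finset.range p, s ^ i • y = x)

include hT

/-- Away from `T` the units are acyclic. -/
lemma subsingleton_tate_unitsAway :
    Subsingleton (TateQuot (sigmaSub (subAct s _ (c.smul_mem_unitsAway hs T)))
      (sigmaNorm (subAct s _ (c.smul_mem_unitsAway hs T)) p)) ∧
    Subsingleton (TateQuot (sigmaNorm (subAct s _ (c.smul_mem_unitsAway hs T)) p)
      (sigmaSub (subAct s _ (c.smul_mem_unitsAway hs T)))) := by
  classical
  have hloc : ∀ q ∉ T, Subsingleton (TateQuot (sigmaSub (subAct s _ (c.smul_mem_unit hs q)))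
      (sigmaNorm (subAct s _ (c.smul_mem_unit hs q)) p)) := fun q hq =>
    subsingleton_tate_norm fun a ha hsa =>
      hT q hq a ⟨ha.1, c.mem_fixSub_of_gen hs hsP ha.2 hsa⟩
  have hfinU : ∀ y : ∀ q : Nat.Primes, Semi q, (∀ q, y q ∈ semiUnit q) →
      {q | y q ∉ semiUnit q}.Finite := fun y h => by simp [h]
  have hcomp : ∀ (x : Idele) (q : Nat.Primes), comp q (∑ i ∈ Finset.range p, s ^ i • x)
      = ∑ i ∈ Finset.range p, s ^ i • comp q x := fun x q => by
    rw [map_sum]; exact Finset.sum_congr rfl fun i _ => comp_smul q _ x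
  refine ⟨subsingleton_tate_norm fun x hx hsx => ?_, subsingleton_tate_sub fun x hx h0 => ?_⟩
  · rw [mem_unitsAway] at hx
    have h : ∀ q, ∃ y ∈ semiUnit q ⊓ fixSub (A := Semi q) P,
        (q ∈ T → y = 0) ∧ ∑ i ∈ Finset.range p, s ^ i • y = comp q x := by
      intro q
      by_cases hq : q ∈ T
      · exact ⟨0, zero_mem _, fun _ => rfl, by simp [hx.2.2 q hq]⟩
      · obtain ⟨y, hy, e⟩ := exists_norm_of_subsingleton (hloc q hq)
          (a := comp q x) ⟨hx.1 q, comp_mem_fixSub hx.2.1 q⟩ (by rw [← comp_smul, hsx])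
        exact ⟨y, hy, fun h => absurd h hq, e⟩
    choose y hy hy0 hye using h
    refine ⟨mkIdele L y (fun q t ht => (hy q).2 t (c.hLP ht)) (hfinU y fun q => (hy q).1),
      mem_unitsAway.2 ⟨fun q => (hy q).1, mkIdele_mem_fixSub _ _ _ _ fun q => (hy q).2,
        fun q hq => hy0 q hq⟩, idele_ext fun q => by rw [hcomp]; exact hye q⟩
  · rw [mem_unitsAway] at hx
    have h : ∀ q, ∃ y ∈ semiUnit q ⊓ fixSub (A := Semi q) P,
        (q ∈ T → y = 0) ∧ s • y - y = comp q x := by
      intro q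
      by_cases hq : q ∈ T
      · exact ⟨0, zero_mem _, fun _ => rfl, by simp [hx.2.2 q hq]⟩
      · obtain ⟨y, hy, e⟩ := exists_sub_of_subsingleton
          (subsingleton_sub_of_hasHerbrand (c.hasHerbrand_semiUnit hs hsP q) (hloc q hq))
          (a := comp q x) ⟨hx.1 q, comp_mem_fixSub hx.2.1 q⟩ (by rw [← hcomp, h0, map_zero])
        exact ⟨y, hy, fun h => absurd h hq, e⟩
    choose y hy hy0 hye using h
    refine ⟨mkIdele L y (fun q t ht => (hy q).2 t (c.hLP ht)) (hfinU y fun q => (hy q).1),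
      mem_unitsAway.2 ⟨fun q => (hy q).1, mkIdele_mem_fixSub _ _ _ _ fun q => (hy q).2,
        fun q hq => hy0 q hq⟩, idele_ext fun q => by rw [map_sub, comp_smul]; exact hye q⟩

/-- The idele units have Herbrand quotient one. -/
theorem hasHerbrand_unitsAway_empty :
    HasHerbrand (sigmaSub (subAct s _ (c.smul_mem_unitsAway hs ∅)))
      (sigmaNorm (subAct s _ (c.smul_mem_unitsAway hs ∅)) p) 1 1 := by
  classical
  suffices key : ∀ D : Finset Nat.Primes, ∀ S : Finset Nat.Primes, S ∪ D = T → Disjoint S D →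
      HasHerbrand (sigmaSub (subAct s _ (c.smul_mem_unitsAway hs S)))
        (sigmaNorm (subAct s _ (c.smul_mem_unitsAway hs S)) p) 1 1 from
    key T ∅ (Finset.empty_union T) (Finset.disjoint_empty_left T)
  intro D
  induction D using Finset.induction_on with
  | empty =>
    intro S hS _
    rw [Finset.union_empty] at hS
    subst hS
    obtain ⟨h1, h2⟩ := c.subsingleton_tate_unitsAway hs hsP hT
    exact hasHerbrand_one_of_subsingleton h1 h2
  | insert q D hqD ih =>
    intro S hS hd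
    have hqS : q ∉ S := fun h => Finset.disjoint_left.1 hd h (Finset.mem_insert_self q D)
    have hA := ih (insert q S) (by rw [← hS]; ext r; simp [or_comm, or_left_comm])
      (Finset.disjoint_insert_left.2 ⟨hqD,
        hd.mono_right (Finset.subset_insert q D)⟩)
    have hle : unitsAway P (insert q S) ≤ unitsAway P S := fun x hx => by
      rw [mem_unitsAway] at hx ⊢
      exact ⟨hx.1, hx.2.1, fun r hr => hx.2.2 r (Finset.mem_insert_of_mem hr)⟩
    refine hasHerbrand_one_of_extension (hU := c.smul_mem_unit hs q) hle (comp q)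
      (fun x => comp_smul q s x)
      (fun x hx => ⟨(mem_unitsAway.1 hx).1 q, comp_mem_fixSub (mem_unitsAway.1 hx).2.1 q⟩) ?_ ?_
      (fun b => c.iterate_subAct hs hsP _ _ (fun x hx => (mem_unitsAway.1 hx).2.1) b)
      hA (c.hasHerbrand_semiUnit hs hsP q)
    · intro u hu
      refine ⟨single q u, mem_unitsAway.2 ⟨fun r => ?_, fun t ht => by
        rw [← single_smul, hu.2 t ht], fun r hr => comp_single_ne (by rintro rfl; exact hqS hr) u⟩,
        comp_single q u⟩
      by_cases hr : r = q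
      · subst hr; rw [comp_single]; exact hu.1
      · rw [comp_single_ne hr]; exact zero_mem _
    · intro x hx
      rw [mem_unitsAway]
      rw [mem_unitsAway] at hx
      refine ⟨fun h => ⟨hx.1, hx.2.1, fun r hr => ?_⟩, fun h => h.2.2 q (Finset.mem_insert_self q S)⟩
      rcases Finset.mem_insert.1 hr with rfl | hr
      · exact h
      · exact hx.2.2 r hr

end CStep

end FLTAgent.Global
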