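import Fermat.Agent.Global.CFT.SecondIneq
import Fermat.Agent.Global.Inflation
import Mathlib.GroupTheory.Sylow

/-!
The class field theory inputs at the odd prime `p`: the norm index of a layer of degree `p` and
the vanishing of `H¹` of the idele classes.
-/

set_option autoImplicit false
set_option linter.unusedSectionVars false
set_option synthInstance.maxHeartbeats 400000

noncomputable section

namespace FLTAgent.Global

variable {p : ℕ} [hp : Fact p.Prime]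

/-- first + second inequality: the norm index of a degree `p` layer is exactly `p` -/
theorem exists_generator_norms_step (hp2 : p ≠ 2) (L : Level) {H P : Subgroup GQ} (hP : Lvl H P)
    (hLP : L.grp ≤ P) (hidx : P.relIndex H = p) (hμ : FixesMu p H) :
    ∃ c₀ ∈ fixSub (A := Cl) H, c₀ ∉ clNorms H P ∧
      ∀ c ∈ fixSub (A := Cl) H, ∃ k : ℕ, k < p ∧ c - k • c₀ ∈ clNorms H P := by
  classical
  have c : CStep p L H P := ⟨hP, hLP, hidx, hμ⟩
  obtain ⟨s, hs, hsP⟩ := c.exists_gen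
  obtain ⟨hcard, -⟩ := c.tate_cl_eq hs hsP hp2
  set S := fixSub (A := Cl) P
  set σ := subAct s S (c.smul_mem_fixCl hs hsP) with hσ
  have : Finite (TateQuot (sigmaSub σ) (sigmaNorm σ p)) :=
    Nat.finite_of_card_ne_zero (hcard.trans_ne hp.out.ne_zero)
  have : Nontrivial (TateQuot (sigmaSub σ) (sigmaNorm σ p)) :=
    Finite.one_lt_card_iff_nontrivial.1 (lt_of_lt_of_eq hp.out.one_lt hcard.symm)
  obtain ⟨x₀, hx₀⟩ := exists_ne (0 : TateQuot (sigmaSub σ) (sigmaNorm σ p))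
  obtain ⟨⟨⟨c₀, hc₀P⟩, hc₀'⟩, rfl⟩ := QuotientAddGroup.mk_surjective x₀
  have hc₀ : c₀ ∈ fixSub (A := Cl) H :=
    c.mem_fixSub_of_gen hs hsP hc₀P (sub_eq_zero.1 (congrArg Subtype.val hc₀'))
  refine ⟨c₀, hc₀, ?_, fun d hd => ?_⟩
  · rintro ⟨y, hy, hye⟩
    refine hx₀ ((QuotientAddGroup.eq_zero_iff _).2 ⟨⟨y, hy⟩, Subtype.ext ?_⟩)
    rw [coe_sigmaNorm_subAct]
    exact (c.normTo_eq_sum hs hsP hy).symm.trans hye
  · have hdP : d ∈ S := fun t ht => hd t (hP.le ht)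
    have hdk : (⟨d, hdP⟩ : S) ∈ (sigmaSub σ).ker := Subtype.ext (sub_eq_zero.2 (hd s hs))
    set q₀ : TateQuot (sigmaSub σ) (sigmaNorm σ p) := QuotientAddGroup.mk ⟨⟨c₀, hc₀P⟩, hc₀'⟩ with hq₀
    have hord : addOrderOf q₀ = p :=
      addOrderOf_eq_prime ((congrArg (· • q₀) hcard).symm.trans card_nsmul_eq_zero') hx₀
    have hmem := mem_zmultiples_of_prime_card (g := q₀)
      (g' := QuotientAddGroup.mk (⟨⟨d, hdP⟩, hdk⟩ : (sigmaSub σ).ker)) hcard hx₀
    rw [(isOfFinAddOrder_of_finite q₀).mem_zmultiples_iff_mem_range_addOrderOf, hord,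
      Finset.mem_image] at hmem
    obtain ⟨k, hk, hkd⟩ := hmem
    refine ⟨k, Finset.mem_range.1 hk, ?_⟩
    rw [hq₀, ← QuotientAddGroup.mk_nsmul, QuotientAddGroup.eq] at hkd
    obtain ⟨y, hy⟩ := hkd
    refine ⟨y.1, y.2, ?_⟩
    rw [c.normTo_eq_sum hs hsP y.2, ← coe_sigmaNorm_subAct s S (c.smul_mem_fixCl hs hsP) p y]
    rw [hy]
    show -(k • c₀) + d = d - k • c₀
    abel

/-- `H¹ = 0` for a degree `p` layer -/
theorem isB1_cl_step (hp2 : p ≠ 2) (L : Level) {H P : Subgroup GQ} (hP : Lvl H P) (hLP : L.grp ≤ P)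
    (hidx : P.relIndex H = p) (hμ : FixesMu p H) {f : GQ → Cl} (hf : IsZ1 H P f) : IsB1 H f := by
  have c : CStep p L H P := ⟨hP, hLP, hidx, hμ⟩
  obtain ⟨s, hs, hsP⟩ := c.exists_gen
  obtain ⟨-, h1⟩ := c.tate_cl_eq hs hsP hp2
  exact c.isB1_of_forall hs hsP hf fun x hx h0 => exists_sub_of_subsingleton h1 hx h0

omit hp in
lemma normal_of_lvl {Γ : Type*} [Group Γ] {H P : Subgroup Γ} (hP : Lvl H P) :
    (P.subgroupOf H).Normal := by
  refine ⟨fun n hn g => ?_⟩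
  rw [Subgroup.mem_subgroupOf] at hn ⊢
  have := hP.conj (g : Γ)⁻¹ (H.inv_mem g.2) _ hn
  simpa using this

omit hp in
/-- The intermediate group attached to a subgroup of the quotient of a layer. -/
lemma exists_comap_quot {Γ : Type*} [Group Γ] {H P : Subgroup Γ} (hP : Lvl H P)
    [(P.subgroupOf H).Normal] (K : Subgroup (↥H ⧸ P.subgroupOf H)) :
    ∃ H' : Subgroup Γ, P ≤ H' ∧ H' ≤ H ∧ H'.relIndex H = K.index ∧ P.relIndex H' = Nat.card K ∧
      ∀ x : H, (x : Γ) ∈ H' ↔ QuotientGroup.mk x ∈ K := by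
  set K' := K.comap (QuotientGroup.mk' (P.subgroupOf H)) with hK'
  have hmem : ∀ x : H, (x : Γ) ∈ K'.map H.subtype ↔ QuotientGroup.mk x ∈ K := fun x =>
    ⟨fun ⟨y, hy, hyx⟩ => by rw [← Subtype.ext hyx]; exact hy, fun hx => ⟨x, hx, rfl⟩⟩
  have hle : P ≤ K'.map H.subtype := fun x hx => (hmem ⟨x, hP.le hx⟩).2 (by
    rw [(QuotientGroup.eq_one_iff _).2 (by simpa [Subgroup.mem_subgroupOf] using hx)]
    exact K.one_mem)
  have hle' : K'.map H.subtype ≤ H := Subgroup.map_subtype_le K'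
  have hrel : (K'.map H.subtype).relIndex H = K.index := by
    rw [Subgroup.relIndex, Subgroup.subgroupOf, Subgroup.comap_map_eq_self_of_injective
      H.subtype_injective, Subgroup.index_comap_of_surjective _ (QuotientGroup.mk'_surjective _)]
  refine ⟨K'.map H.subtype, hle, hle', hrel, ?_, hmem⟩
  have := hP.fin
  have h1 := Subgroup.relIndex_mul_relIndex P _ H hle hle'
  rw [hrel, show P.relIndex H = Nat.card (↥H ⧸ P.subgroupOf H) from rfl, ← K.card_mul_index] at h1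
  exact Nat.eq_of_mul_eq_mul_right (Nat.pos_of_ne_zero K.index_ne_zero_of_finite) h1

/-- A layer of `p`-power degree contains a normal one of degree `p`. -/
lemma exists_lvl_index_prime {Γ : Type*} [Group Γ] {H P : Subgroup Γ} (hP : Lvl H P) {a : ℕ}
    (hidx : P.relIndex H = p ^ (a + 1)) :
    ∃ H' : Subgroup Γ, P ≤ H' ∧ Lvl H H' ∧ H'.relIndex H = p ∧ P.relIndex H' = p ^ a := by
  have := normal_of_lvl hP
  have := hP.fin
  have hcard : Nat.card (↥H ⧸ P.subgroupOf H) = p ^ (a + 1) := hidx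
  obtain ⟨K, hK⟩ := Sylow.exists_subgroup_card_pow_prime (G := ↥H ⧸ P.subgroupOf H) p (n := a)
    (hcard ▸ pow_dvd_pow p a.le_succ)
  have hKi : K.index = p := by
    have := K.card_mul_index
    rw [hK, hcard, pow_succ] at this
    exact Nat.eq_of_mul_eq_mul_left (pow_pos hp.out.pos a) this
  have hKn : K.Normal := Subgroup.normal_of_index_eq_minFac_card (by
    rw [hKi, hcard, Nat.pow_minFac a.succ_ne_zero, hp.out.minFac_eq])
  obtain ⟨H', hle, hle', hrel, hidx', hmem⟩ := exists_comap_quot hP K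
  refine ⟨H', hle, ⟨hle', fun g hg x hx => ?_, hP.fin_quot hle' hle⟩, hrel.trans hKi,
    hidx'.trans hK⟩
  have := (hmem ⟨x, hle' hx⟩).1 hx
  exact (hmem ((⟨g, hg⟩ : H)⁻¹ * ⟨x, hle' hx⟩ * ⟨g, hg⟩)).2 (by
    rw [QuotientGroup.mk_mul, QuotientGroup.mk_mul, QuotientGroup.mk_inv]
    exact hKn.conj_mem' _ this _)

/-- `H¹(H/P, C) = 0` for `p`-group layers -/
theorem isB1_cl (hp2 : p ≠ 2) (L : Level) {H P : Subgroup GQ} (hP : Lvl H P) (hLP : L.grp ≤ P)
    {a : ℕ} (hidx : P.relIndex H = p ^ a) (hμ : FixesMu p H) {f : GQ → Cl} (hf : IsZ1 H P f) :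
    IsB1 H f := by
  induction a generalizing H f with
  | zero =>
    refine ⟨0, fun g hg => ?_⟩
    rw [hf.apply_of_mem (Subgroup.relIndex_eq_one.1 (by rw [hidx, pow_zero]) hg)]
    simp [dd0]
  | succ a ih =>
    obtain ⟨H', hPH', hH', hH'p, hP'⟩ := exists_lvl_index_prime hP hidx
    have hf' : IsB1 H' f := ih (hP.sub_left hH'.le hPH') hP' (hμ.mono hH'.le)
      ⟨hf.1.mono hH'.le le_rfl, fun g hg h hh => hf.2 g (hH'.le hg) h (hH'.le hh)⟩
    obtain ⟨b, hb⟩ := exists_isZ1_inflation hH' hf hf'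
    obtain ⟨b', hb'⟩ := isB1_cl_step hp2 L hH' (hLP.trans hPH') hH'p hμ hb
    refine ⟨b + b', fun g hg => ?_⟩
    rw [← sub_add_cancel (f g) (dd0 b g), show f g - dd0 b g = dd0 b' g from hb' g hg]
    have e : g • (b + b') = g • b + g • b' := smul_add g b b'
    simp only [dd0, e]
    abel

/-- An extension of `p`-power degree of a field containing `μ_p` keeps that property. -/
lemma fixesMu_of_pow_mem {H' P : Subgroup GQ} (hμ : FixesMu p P)
    (h : ∀ g ∈ H', ∃ k : ℕ, g ^ p ^ k ∈ P) : FixesMu p H' := by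
  obtain ⟨ζ, hζ⟩ := exists_primitiveRoot p
  intro g hg z hz
  have : NeZero p := ⟨hp.out.ne_zero⟩
  obtain ⟨m, -, hm⟩ := hζ.eq_pow_of_pow_eq_one (ξ := g ζ) (by rw [← map_pow, hζ.pow_eq_one, map_one])
  have hiter : ∀ i : ℕ, (g ^ i) ζ = ζ ^ (m ^ i) := by
    intro i
    induction i with
    | zero => simp
    | succ i ih =>
      rw [pow_succ', AlgEquiv.mul_apply, ih, map_pow, ← hm, ← pow_mul, pow_succ', mul_comm]
  obtain ⟨k, hk⟩ := h g hg
  have hpk : ζ ^ (m ^ p ^ k) = ζ ^ 1 := by rw [← hiter, pow_one, hμ _ hk ζ hζ.pow_eq_one]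
  rw [(hζ.isOfFinOrder hp.out.ne_zero).pow_eq_pow_iff_modEq, ← hζ.eq_orderOf,
    ← ZMod.natCast_eq_natCast_iff, Nat.cast_pow,
    ZMod.pow_card_pow, Nat.cast_one] at hpk
  have hfix : g ζ = ζ := by
    rw [← hm]
    conv_rhs => rw [← pow_one ζ]
    rw [(hζ.isOfFinOrder hp.out.ne_zero).pow_eq_pow_iff_modEq, ← hζ.eq_orderOf,
      ← ZMod.natCast_eq_natCast_iff, hpk, Nat.cast_one]
  obtain ⟨j, -, rfl⟩ := hζ.eq_pow_of_pow_eq_one hz
  rw [map_pow, hfix]

/-- the `p`-part of `H¹(H/P, C)` vanishes for an arbitrary layer over a base inside which `μ_p` may be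
absent: the fixed field of `P` contains `μ_p` -/
theorem exists_nsmul_isB1_cl (hp2 : p ≠ 2) (L : Level) {H P : Subgroup GQ} (hP : Lvl H P)
    (hLP : L.grp ≤ P) (hμ : FixesMu p P) {f : GQ → Cl} (hf : IsZ1 H P f) :
    ∃ n : ℕ, ¬ p ∣ n ∧ IsB1 H (fun g => n • f g) := by
  have := normal_of_lvl hP
  have := hP.fin
  obtain ⟨S⟩ := (inferInstance : Nonempty (Sylow p (↥H ⧸ P.subgroupOf H)))
  obtain ⟨H', hle, hle', hrel, hidx, hmem⟩ := exists_comap_quot hP (S : Subgroup _)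
  obtain ⟨b, hb⟩ := S.2.exists_card_eq
  have hμ' : FixesMu p H' := fixesMu_of_pow_mem hμ fun g hg => by
    obtain ⟨k, hk⟩ := S.2 ⟨_, (hmem ⟨g, hle' hg⟩).1 hg⟩
    refine ⟨k, ?_⟩
    have : (QuotientGroup.mk ((⟨g, hle' hg⟩ : H) ^ p ^ k) : ↥H ⧸ P.subgroupOf H) = 1 :=
      congrArg Subtype.val hk
    rw [QuotientGroup.eq_one_iff, Subgroup.mem_subgroupOf] at this
    exact this
  refine ⟨H'.relIndex H, ?_, isB1_nsmul hle' (hP.fin_quot hle' hle) hf ?_⟩
  · rw [hrel]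
    exact S.not_dvd_index
  · exact isB1_cl hp2 L (hP.sub_left hle' hle) hLP (hidx.trans hb) hμ'
      ⟨hf.1.mono hle' le_rfl, fun g hg h hh => hf.2 g (hle' hg) h (hle' hh)⟩

end FLTAgent.Global
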