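import Fermat.Agent.Global.CFT.Place

/-!
Local ingredients of the second inequality: `p`-divisibility of valuations away from one place, and
powers of a non-`p`-th-power.
-/

set_option autoImplicit false
set_option linter.unusedSectionVars false

noncomputable section

namespace FLTAgent.Global

variable {q : Nat.Primes}

lemma sval_zsmul_semi (m : ℤ) (x : Semi q) (g : GQ) : sval (m • x) g = sval x g ^ m := by
  obtain ⟨n, rfl | rfl⟩ := Int.eq_nat_or_neg m
  · rw [natCast_zsmul, zpow_natCast, sval_nsmul]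
  · rw [neg_zsmul, natCast_zsmul, sval_neg, sval_nsmul, zpow_neg, zpow_natCast]

lemma finite_quot_nsmul_int (R : AddSubgroup ℤ) {p : ℕ} (hp : 0 < p) :
    Finite (R ⧸ (nsmulAddMonoidHom p : R →+ R).range) ∧
      Nat.card (R ⧸ (nsmulAddMonoidHom p : R →+ R).range) ≤ p := by
  obtain ⟨g, hg⟩ := IsAddCyclic.exists_generator (α := R)
  have hsurj : Function.Surjective (fun k : Fin p =>
      (QuotientAddGroup.mk ((k : ℕ) • g) : R ⧸ (nsmulAddMonoidHom p : R →+ R).range)) := by
    intro x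
    obtain ⟨r, rfl⟩ := QuotientAddGroup.mk_surjective x
    obtain ⟨m, rfl⟩ := AddSubgroup.mem_zmultiples_iff.1 (hg r)
    have hp' : (0 : ℤ) < p := by exact_mod_cast hp
    refine ⟨⟨(m % p).toNat, ?_⟩, ?_⟩
    · have := Int.emod_lt_of_pos m hp'
      have := Int.emod_nonneg m hp'.ne'
      omega
    · rw [QuotientAddGroup.eq]
      refine ⟨(m / p) • g, ?_⟩
      show p • ((m / p) • g) = -(((m % p).toNat) • g) + m • g
      rw [← natCast_zsmul, ← natCast_zsmul, ← mul_zsmul, ← neg_zsmul, ← add_zsmul,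
        Int.toNat_of_nonneg (Int.emod_nonneg m hp'.ne')]
      congr 1
      linarith [Int.emod_add_mul_ediv m p]
  exact ⟨Finite.of_surjective _ hsurj,
    (Nat.card_le_card_of_surjective _ hsurj).trans_eq (Nat.card_fin p)⟩

/-- Valuations divisible by `p` away from one place: a subgroup of small index. -/
theorem exists_valSub (L : Level) {H : Subgroup GQ} (hH : L.grp ≤ H) {p : ℕ} (hp : 0 < p)
    (q : Nat.Primes) (v : Places q H) :
    ∃ K : AddSubgroup ↥(fixSub (A := Semi q) H), K.index ≠ 0 ∧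
      K.index * p ≤ p ^ Nat.card (Places q H) ∧
      ∀ x ∈ K, ∀ g : GQ, DoubleCoset.mk (dec q) H g ≠ v →
        ∃ y ∈ fixSub (A := Semi q) H, ‖sval x.1 g‖ = ‖sval y g‖ ^ p := by
  classical
  have := finite_places_of_le L hH q
  have := Fintype.ofFinite (Places q H)
  obtain ⟨D, hD, hval⟩ := exists_pow_norm_eq_zpow L q
  choose k hk using fun (x : ↥(fixSub (A := Semi q) H)) (o : Places q H) =>
    hval x.1 (fun u hu => x.2 u (hH hu)) o.out
  let ν : Places q H → (↥(fixSub (A := Semi q) H) →+ ℤ) := fun o =>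
    AddMonoidHom.mk' (fun x => k x o) fun x y => zpow_prime_inj q (by
      rw [zpow_add₀ (by exact_mod_cast q.2.ne_zero), ← hk, ← hk, ← hk, AddSubgroup.coe_add, sval_add,
        norm_mul, mul_pow])
  let Z : {o : Places q H // o ≠ v} → Type := fun o =>
    (ν o.1).range ⧸ (nsmulAddMonoidHom p : (ν o.1).range →+ (ν o.1).range).range
  have hZfin : ∀ o : {o : Places q H // o ≠ v}, Finite (Z o) := fun o =>
    (finite_quot_nsmul_int _ hp).1
  let Φ : ↥(fixSub (A := Semi q) H) →+ (∀ o : {o : Places q H // o ≠ v},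
      (ν o.1).range ⧸ (nsmulAddMonoidHom p : (ν o.1).range →+ (ν o.1).range).range) :=
    Pi.addMonoidHom fun o => (QuotientAddGroup.mk' _).comp (ν o.1).rangeRestrict
  refine ⟨Φ.ker, ?_, ?_, fun x hx g hg => ?_⟩
  · rw [AddSubgroup.index_ker]
    exact Nat.card_pos.ne'
  · rw [AddSubgroup.index_ker]
    have h1 : Nat.card Φ.range ≤ p ^ Fintype.card {o : Places q H // o ≠ v} := by
      refine (Finite.card_subtype_le _).trans ?_
      rw [Nat.card_pi]
      refine (Finset.prod_le_pow_card _ _ p fun o _ => (finite_quot_nsmul_int _ hp).2).trans_eq ?_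
      rw [Finset.card_univ]
    have h2 : Fintype.card {o : Places q H // o ≠ v} + 1 = Nat.card (Places q H) := by
      rw [Fintype.card_subtype_compl, Fintype.card_subtype_eq, Nat.card_eq_fintype_card]
      have := Fintype.card_pos_iff.2 ⟨v⟩
      omega
    rw [← h2, pow_succ]
    exact Nat.mul_le_mul_right p h1
  · set o := DoubleCoset.mk (dec q) H g with ho
    have h := congrFun (AddMonoidHom.mem_ker.1 hx) ⟨o, hg⟩
    replace h : (QuotientAddGroup.mk ((ν o).rangeRestrict x) :
      (ν o).range ⧸ (nsmulAddMonoidHom p : (ν o).range →+ (ν o).range).range) = 0 := h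
    rw [QuotientAddGroup.eq_zero_iff] at h
    obtain ⟨⟨_, y, rfl⟩, hy⟩ := h
    have hy' : p • k y o = k x o := congrArg Subtype.val hy
    refine ⟨y.1, y.2, ?_⟩
    have e : o = DoubleCoset.mk (dec q) H o.out := (Quotient.out_eq' o).symm
    rw [norm_sval_mk_eq x.2 (g' := o.out) (ho ▸ e), norm_sval_mk_eq y.2 (g' := o.out) (ho ▸ e)]
    refine (pow_left_inj₀ (norm_nonneg _) (pow_nonneg (norm_nonneg _) _) hD.ne').1 ?_
    rw [← pow_mul, mul_comm p D, pow_mul, hk, hk, ← zpow_natCast, ← zpow_mul, ← hy']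
    congr 1
    rw [nsmul_eq_mul, mul_comm]

/-- If a power `a ^ k` of a non-`p`-th power is a `p`-th power then `p ∣ k`. -/
lemma dvd_of_pow_eq {H : Subgroup GQ} {p : ℕ} (hp : p.Prime) {a z : Semi q}
    (ha : a ∈ fixSub (A := Semi q) H) (hz : z ∈ fixSub (A := Semi q) H) {g : GQ} {k : ℕ}
    (h : sval a g ^ k = sval z g ^ p)
    (hna : ¬ ∃ y ∈ fixSub (A := Semi q) H, sval y g ^ p = sval a g) : p ∣ k := by
  by_contra hk
  have hco : Int.gcd k p = 1 := by
    rw [Int.gcd_natCast_natCast]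
    exact ((hp.coprime_iff_not_dvd).2 hk).symm
  obtain ⟨u, v, huv⟩ : ∃ u v : ℤ, (k : ℤ) * u + (p : ℤ) * v = 1 := by
    refine ⟨Int.gcdA k p, Int.gcdB k p, ?_⟩
    rw [← Int.gcd_eq_gcd_ab, hco, Nat.cast_one]
  refine hna ⟨u • z + v • a, add_mem (zsmul_mem hz u) (zsmul_mem ha v), ?_⟩
  rw [sval_add, sval_zsmul_semi, sval_zsmul_semi, mul_pow, ← zpow_natCast, ← zpow_mul, mul_comm u,
    zpow_mul, zpow_natCast, ← h, ← zpow_natCast, ← zpow_natCast, ← zpow_mul, ← zpow_mul,
    ← zpow_add₀ (sval_ne_zero a g), mul_comm v, huv, zpow_one]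

end FLTAgent.Global
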