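import Fermat.Agent.Global.CFT.FirstIneq
import Fermat.Agent.Global.CFT.SecondLocal

/-!
Auxiliary data of the second inequality: roots of a basis of the `S`-units modulo `p`-th powers, and
for all of them but the radicand a prime where it alone is not a local `p`-th power.
-/

set_option autoImplicit false
set_option linter.unusedSectionVars false
set_option synthInstance.maxHeartbeats 400000

noncomputable section

namespace FLTAgent.Global

lemma exists_level_fixing {ι : Type*} [Finite ι] (L : Level) (A : ι → QMul) :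
    ∃ M : Level, M.grp ≤ L.grp ∧ ∀ i, ∀ t ∈ M.grp, t • A i = A i := by
  classical
  have := Fintype.ofFinite ι
  suffices h : ∀ F : Finset ι, ∃ M : Level, M.grp ≤ L.grp ∧ ∀ i ∈ F, ∀ t ∈ M.grp, t • A i = A i by
    obtain ⟨M, h1, h2⟩ := h Finset.univ
    exact ⟨M, h1, fun i => h2 i (Finset.mem_univ i)⟩
  intro F
  induction F using Finset.induction_on with
  | empty => exact ⟨L, le_rfl, by simp⟩
  | insert i F _ ih =>
    obtain ⟨M, hM, hMf⟩ := ih
    obtain ⟨M', hM', -⟩ := exists_level_root M (qval (A i))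
    refine ⟨M', (hM'.trans inf_le_left).trans hM, fun j hj t ht => ?_⟩
    rcases Finset.mem_insert.1 hj with rfl | hj
    · exact qmul_ext (by rw [qval_smul]; exact (hM' ht).2)
    · exact hMf j hj t (hM' ht).1

/-- Auxiliary data for the second inequality. -/
structure SecondData (p : ℕ) [Fact p.Prime] (H : Subgroup GQ) (α : QQbar) where
  /-- indices of the basis -/
  ι : Type
  [fintype : Fintype ι]
  /-- the index of the radicand -/
  i₁ : ι
  /-- `p`-th roots of the basis -/
  A : ι → QMul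
  qval_A₁ : qval (A i₁) = α
  /-- the set of primes -/
  S : Finset Nat.Primes
  p_mem : (⟨p, Fact.out⟩ : Nat.Primes) ∈ S
  class_mem : ∀ x ∈ fixSub (A := Idele) H, ∃ a ∈ fixSub (A := QMul) H, x - principal a ∈ sIdele S
  mem_sUnit : ∀ i, p • A i ∈ sUnit S ⊓ fixSub (A := QMul) H
  card_ι : 2 * Fintype.card ι = H.index + 2 * ∑ r ∈ S, Nat.card (Places r H)
  /-- auxiliary primes -/
  q : {i // i ≠ i₁} → Nat.Primes
  q_inj : Function.Injective q
  q_notMem : ∀ j, q j ∉ S
  /-- auxiliary places -/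
  g : {i // i ≠ i₁} → GQ
  nonpow : ∀ j : {i // i ≠ i₁}, ¬ ∃ y ∈ fixSub (A := Semi (q j)) H,
    sval y (g j) ^ p = sval (comp (q j) (principal (p • A j.1))) (g j)
  pow : ∀ (j : {i // i ≠ i₁}) (i : ι), i ≠ j.1 → ∃ y ∈ fixSub (A := Semi (q j)) H,
    sval y (g j) ^ p = sval (comp (q j) (principal (p • A i))) (g j)

lemma exists_basis_mem {p : ℕ} [Fact p.Prime] {V : Type} [AddCommGroup V] [Module (ZMod p) V]
    [Finite V] {v : V} (hv : v ≠ 0) :
    ∃ (ι : Type) (_ : Fintype ι) (b : ι → V) (i : ι), b i = v ∧ LinearIndependent (ZMod p) b ∧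
      Nat.card V = p ^ Fintype.card ι := by
  have hli : LinearIndepOn (ZMod p) id ({v} : Set V) :=
    (linearIndepOn_singleton_iff (R := ZMod p)).2 hv
  have := Fintype.ofFinite ↥(hli.extend (Set.subset_univ _))
  refine ⟨_, inferInstance, Module.Basis.extend hli, ⟨v, hli.subset_extend (Set.subset_univ _) rfl⟩,
    Module.Basis.extend_apply_self hli _, (Module.Basis.extend hli).linearIndependent, ?_⟩
  rw [Module.natCard_eq_pow_finrank (K := ZMod p), Nat.card_zmod,
    Module.finrank_eq_card_basis (Module.Basis.extend hli)]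

variable {p : ℕ} [hp : Fact p.Prime]

/-- A basis of `S`-units modulo `p`-th powers containing the radicand, with independent roots. -/
lemma exists_roots {L : Level} {H : Subgroup GQ} (hH : L.grp ≤ H) (hμ : FixesMu p H) (hp2 : p ≠ 2)
    (S : Finset Nat.Primes) {A₀ : QMul} (hA₀ : p • A₀ ∈ sUnit S ⊓ fixSub (A := QMul) H)
    (hA₀H : A₀ ∉ fixSub (A := QMul) H) :
    ∃ (ι : Type) (_ : Fintype ι) (i₁ : ι) (A : ι → QMul), A i₁ = A₀ ∧
      (∀ i, p • A i ∈ sUnit S ⊓ fixSub (A := QMul) H) ∧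
      (∀ j, ∃ u ∈ H, (∀ i, i ≠ j → u • A i = A i) ∧ u • A j ≠ A j) ∧
      2 * Fintype.card ι = H.index + 2 * ∑ r ∈ S, Nat.card (Places r H) := by
  classical
  obtain ⟨ζ, hζ⟩ := exists_primitiveRoot p
  obtain ⟨-, -, hcard⟩ := sUnit_structure L hH hp.out hp2 hζ (fun u hu => hμ u hu ζ hζ.pow_eq_one) S
  set U := sUnit S ⊓ fixSub (A := QMul) H
  letI : Module (ZMod p) (U ⧸ (nsmulAddMonoidHom p : U →+ U).range) :=
    AddCommGroup.zmodModule fun x => by
      obtain ⟨u, rfl⟩ := QuotientAddGroup.mk_surjective x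
      exact (QuotientAddGroup.eq_zero_iff _).2 ⟨u, rfl⟩
  have hfinV : Finite (U ⧸ (nsmulAddMonoidHom p : U →+ U).range) :=
    Nat.finite_of_card_ne_zero fun h => by
      rw [h, zero_pow two_ne_zero] at hcard
      exact pow_ne_zero _ hp.out.ne_zero hcard.symm
  -- `p`-th roots of unity are fixed
  have hroot : ∀ z : QMul, p • z = 0 → ∀ u ∈ H, u • z = z := fun z hz u hu =>
    qmul_ext (by rw [qval_smul]; exact hμ u hu _ (by rw [← qval_nsmul, hz, qval_zero]))
  -- a `p`-th root of a `p`-th power is fixed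
  have hfixed : ∀ B : QMul, ∀ hB : p • B ∈ U,
      (QuotientAddGroup.mk ⟨p • B, hB⟩ : U ⧸ (nsmulAddMonoidHom p : U →+ U).range) = 0 →
      B ∈ fixSub (A := QMul) H := by
    intro B hB h0
    obtain ⟨b, hb⟩ := (QuotientAddGroup.eq_zero_iff _).1 h0
    have hz : p • (B - b.1) = 0 := by
      rw [nsmul_sub, show p • b.1 = p • B from congrArg Subtype.val hb, sub_self]
    intro u hu
    have := hroot _ hz u hu
    rw [smul_sub, b.2.2 u hu, sub_left_inj] at this
    exact this
  set v₁ : U ⧸ (nsmulAddMonoidHom p : U →+ U).range := QuotientAddGroup.mk ⟨p • A₀, hA₀⟩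
  have hv₁ : v₁ ≠ 0 := fun h => hA₀H (hfixed A₀ hA₀ h)
  obtain ⟨ι, hι, b, i₁, hbi, hbli, hbcard⟩ := exists_basis_mem (p := p) hv₁
  have hsurj : ∀ i : ι, ∃ x : U, (QuotientAddGroup.mk x : U ⧸ (nsmulAddMonoidHom p : U →+ U).range)
      = b i := fun i => QuotientAddGroup.mk_surjective _
  choose a ha using hsurj
  have hroots : ∀ i, ∃ B : QMul, p • B = (a i).1 := fun i => by
    obtain ⟨z, hz⟩ := IsAlgClosed.exists_pow_nat_eq (qval (a i).1) hp.out.pos
    have hz0 : z ≠ 0 := fun h => qval_ne_zero (a i).1 (by rw [← hz, h, zero_pow hp.out.ne_zero])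
    exact ⟨toQMul z hz0, qmul_ext (by rw [qval_nsmul, qval_toQMul, hz])⟩
  choose B hB using hroots
  set A := Function.update B i₁ A₀ with hAdef
  have hAmem : ∀ i, p • A i ∈ U := fun i => by
    by_cases h : i = i₁
    · rw [h, hAdef, Function.update_self]; exact hA₀
    · rw [hAdef, Function.update_of_ne h, hB]; exact (a i).2
  have hAb : ∀ i, (QuotientAddGroup.mk ⟨p • A i, hAmem i⟩ :
      U ⧸ (nsmulAddMonoidHom p : U →+ U).range) = b i := by
    intro i
    by_cases h : i = i₁
    · rw [h, hbi]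
      exact congrArg QuotientAddGroup.mk (Subtype.ext (show p • A i₁ = p • A₀ by
        rw [hAdef, Function.update_self]))
    · rw [← ha i]
      exact congrArg QuotientAddGroup.mk (Subtype.ext (show p • A i = (a i).1 by
        rw [hAdef, Function.update_of_ne h, hB]))
  refine ⟨_, inferInstance, i₁, A, Function.update_self _ _ _, hAmem, ?_, ?_⟩
  swap
  · rw [hbcard, ← pow_mul] at hcard
    have := Nat.pow_right_injective hp.out.two_le hcard
    omega
  -- the exponent map
  set Z := toQMul ζ (hζ.ne_zero hp.out.ne_zero)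
  have hpZ : p • Z = 0 := qmul_ext (by
    rw [qval_nsmul, qval_toQMul, hζ.pow_eq_one, qval_zero])
  have hex : ∀ (u : H) i, ∃ n : ℕ, n < p ∧ (u : GQ) • A i = A i + n • Z := by
    intro u i
    have h0 : p • ((u : GQ) • A i - A i) = 0 := by
      rw [nsmul_sub, sub_eq_zero]
      exact (map_nsmul (DistribSMul.toAddMonoidHom QMul (u : GQ)) p (A i)).symm.trans
        ((hAmem i).2 _ u.2)
    have : NeZero p := ⟨hp.out.ne_zero⟩
    obtain ⟨n, hn, hne⟩ := hζ.eq_pow_of_pow_eq_one (ξ := qval ((u : GQ) • A i - A i))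
      (by rw [← qval_nsmul, h0, qval_zero])
    refine ⟨n, hn, ?_⟩
    rw [← sub_eq_iff_eq_add']
    exact qmul_ext (by rw [qval_nsmul, qval_toQMul, hne])
  choose n hn hnA using hex
  have hcast : ∀ m m' : ℕ, m • Z = m' • Z → (m : ZMod p) = (m' : ZMod p) := by
    intro m m' h
    have h' := congrArg qval h
    rw [qval_nsmul, qval_nsmul, qval_toQMul, pow_eq_pow_mod m hζ.pow_eq_one,
      pow_eq_pow_mod m' hζ.pow_eq_one] at h'
    exact (ZMod.natCast_eq_natCast_iff' _ _ _).2
      (hζ.pow_inj (Nat.mod_lt _ hp.out.pos) (Nat.mod_lt _ hp.out.pos) h')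
  have hzero : ∀ m : ℕ, (m : ZMod p) = 0 → m • Z = 0 := fun m h => by
    obtain ⟨l, rfl⟩ := (ZMod.natCast_eq_zero_iff m p).1 h
    rw [mul_comm, mul_nsmul', hpZ, smul_zero]
  let Φ : Additive H →+ (ι → ZMod p) :=
    AddMonoidHom.mk' (fun u i => (n u.toMul i : ZMod p)) fun u w => funext fun i => by
      rw [Pi.add_apply, ← Nat.cast_add]
      refine hcast _ _ ((add_right_inj (A i)).1 ?_)
      rw [← hnA]
      show (((u.toMul : H) : GQ) * ((w.toMul : H) : GQ)) • A i = _
      rw [mul_smul, hnA, smul_add, hnA]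
      have : ((u.toMul : H) : GQ) • (n w.toMul i • Z) = n w.toMul i • Z :=
        hroot _ (by rw [smul_comm, hpZ, smul_zero]) _ u.toMul.2
      rw [this, add_nsmul]
      abel
  suffices htop : Φ.range.toZModSubmodule p = ⊤ by
    intro j
    obtain ⟨u, hu⟩ : (Pi.single j 1 : ι → ZMod p)
        ∈ Φ.range := by
      have : (Pi.single j 1 : ι → ZMod p)
          ∈ Φ.range.toZModSubmodule p := htop ▸ Submodule.mem_top
      exact this
    have hu' : ∀ i, (n u.toMul i : ZMod p) = Pi.single (M := fun _ => ZMod p) j 1 i := congrFun hu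
    refine ⟨_, u.toMul.2, fun i hi => ?_, fun h => ?_⟩
    · have := hu' i
      rw [Pi.single_eq_of_ne hi] at this
      rw [hnA, hzero _ this, add_zero]
    · rw [hnA, add_eq_left] at h
      have := hcast _ 0 (h.trans (zero_nsmul Z).symm)
      rw [hu' j, Pi.single_eq_same, Nat.cast_zero] at this
      exact one_ne_zero this
  by_contra hne
  obtain ⟨f, hf, hker⟩ := Submodule.exists_le_ker_of_lt_top _ (lt_top_iff_ne_top.2 hne)
  set e : ι → ℕ := fun i => (f (Pi.single i 1)).val
  set C := ∑ i, e i • A i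
  have hC : C ∈ fixSub (A := QMul) H := by
    intro u hu
    have e1 : u • C = C + (∑ i, e i * n ⟨u, hu⟩ i) • Z := by
      rw [Finset.smul_sum, Finset.sum_smul, ← Finset.sum_add_distrib]
      refine Finset.sum_congr rfl fun i _ => ?_
      rw [← DistribSMul.toAddMonoidHom_apply, map_nsmul, DistribSMul.toAddMonoidHom_apply,
        hnA ⟨u, hu⟩ i, nsmul_add, mul_nsmul']
    rw [e1, hzero _ ?_, add_zero]
    have h0 : f (Φ (Additive.ofMul ⟨u, hu⟩)) = 0 :=
      hker (show Φ _ ∈ Φ.range from ⟨_, rfl⟩)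
    rw [← Finset.univ_sum_single (Φ (Additive.ofMul ⟨u, hu⟩)), map_sum] at h0
    rw [Nat.cast_sum, ← h0]
    refine Finset.sum_congr rfl fun i _ => ?_
    rw [Nat.cast_mul, ZMod.natCast_zmod_val,
      show (Φ (Additive.ofMul ⟨u, hu⟩)) i = (n ⟨u, hu⟩ i : ZMod p) from rfl]
    conv_rhs => rw [← mul_one ((n ⟨u, hu⟩ i : ℕ) : ZMod p), ← smul_eq_mul,
      Pi.single_smul, map_smul, smul_eq_mul]
    exact mul_comm _ _
  refine hf ((LinearMap.pi_ext_iff (R := ZMod p)).2 fun i x => ?_)
  have eC : p • C = ∑ k, e k • (p • A k) :=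
    (map_sum (nsmulAddMonoidHom p) _ _).trans
      (Finset.sum_congr rfl fun k _ => smul_comm p (e k) (A k))
  have hpC : p • C ∈ U := eC ▸ sum_mem fun i _ => nsmul_mem (hAmem i) _
  have hCu : C ∈ U := ⟨fun q hq g => by
      have h1 : ‖sval (comp q (principal (p • C))) g‖ = 1 := hpC.1 q hq g
      rw [map_nsmul, map_nsmul, sval_nsmul, norm_pow] at h1
      exact (pow_eq_one_iff_of_nonneg (norm_nonneg _) hp.out.ne_zero).1 h1, hC⟩
  have hz : ∑ k, ((e k : ℕ) : ZMod p) • b k = 0 := by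
    simp only [← hAb, Nat.cast_smul_eq_nsmul (ZMod p), ← QuotientAddGroup.mk_nsmul]
    rw [← QuotientAddGroup.mk_sum, QuotientAddGroup.eq_zero_iff]
    refine ⟨⟨C, hCu⟩, Subtype.ext ?_⟩
    simp only [AddSubmonoidClass.coe_finsetSum, AddSubmonoidClass.coe_nsmul, nsmulAddMonoidHom_apply]
    exact eC
  have := Fintype.linearIndependent_iff.1 hbli _ hz i
  rw [ZMod.natCast_zmod_val] at this
  rw [show Pi.single i x = x • (Pi.single i (1 : ZMod p) :
      ι → ZMod p) by rw [← Pi.single_smul, smul_eq_mul, mul_one],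
    map_smul, this, smul_zero, LinearMap.zero_apply]

namespace CStep

variable {L : Level} {H P : Subgroup GQ} (c : CStep p L H P)

include c

/-- A prime and a place where one root alone stays nontrivial. -/
lemma exists_aux_place (hp2 : p ≠ 2) {ι : Type} [Fintype ι] {A : ι → QMul} (S : Finset Nat.Primes)
    (hA : ∀ i, p • A i ∈ sUnit S ⊓ fixSub (A := QMul) H)
    (hind : ∀ j, ∃ u ∈ H, (∀ i, i ≠ j → u • A i = A i) ∧ u • A j ≠ A j)
    (hpS : (⟨p, hp.out⟩ : Nat.Primes) ∈ S) (T₀ : Finset Nat.Primes) (hT₀ : S ⊆ T₀) (j : ι) :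
    ∃ q ∉ T₀, ∃ g : GQ,
      (¬ ∃ y ∈ fixSub (A := Semi q) H,
        sval y g ^ p = sval (comp q (principal (p • A j))) g) ∧
      ∀ i, i ≠ j → ∃ y ∈ fixSub (A := Semi q) H,
        sval y g ^ p = sval (comp q (principal (p • A i))) g := by
  classical
  obtain ⟨M, hML, hM⟩ := exists_level_fixing L A
  let Hj : Subgroup GQ := H ⊓ ⨅ i : {i // i ≠ j}, stabRoot (qval (A i.1))
  have hjH : Hj ≤ H := inf_le_left
  have hjfix : ∀ i, i ≠ j → A i ∈ fixSub (A := QMul) Hj := fun i hi t ht => qmul_ext (by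
    rw [qval_smul]
    exact Subgroup.mem_iInf.1 ht.2 ⟨i, hi⟩)
  have hMj : M.grp ≤ Hj := le_inf ((hML.trans c.hLP).trans c.hP.le)
    (le_iInf fun i t ht => show t (qval (A i.1)) = _ by rw [← qval_smul, hM i.1 t ht])
  have haj : qval (A j) ^ p ∈ fixField Hj := mem_fixField_iff.2 fun t ht => by
    rw [← qval_nsmul, ← qval_smul, (hA j).2 t (hjH ht)]
  have hnot : qval (A j) ∉ fixField Hj := by
    obtain ⟨u, hu, hui, huj⟩ := hind j
    intro h
    refine huj (qmul_ext ?_)
    rw [qval_smul]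
    exact mem_fixField_iff.1 h u ⟨hu, Subgroup.mem_iInf.2 fun i =>
      show u (qval (A i.1)) = _ by rw [← qval_smul, hui i.1 i.2]⟩
  obtain ⟨M', hM', -, cj⟩ := exists_cStep_root M hMj (c.mu.mono hjH) (qval_ne_zero (A j)) haj hnot
  have hroot : IsKummerRoot p Hj (Hj ⊓ stabRoot (qval (A j))) (qval (A j)) :=
    ⟨qval_ne_zero _, haj, fun t ht => ⟨fun h => ⟨ht, h⟩, fun h => h.2⟩⟩
  obtain ⟨s, hs, hsP⟩ := cj.exists_gen
  obtain ⟨q, hq, g, hg⟩ := cj.exists_nonsplit hs hsP hp2 hroot T₀
  have hqS : q ∉ S := fun h => hq (hT₀ h)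
  have hqp : (q : ℕ) ≠ p := fun h => hqS (by
    rw [show q = ⟨p, hp.out⟩ from Subtype.ext h]; exact hpS)
  have hu : ∀ i, comp q (principal (p • A i)) ∈ semiUnit q ⊓ fixSub (A := Semi q) H := fun i =>
    ⟨(hA i).1 q hqS, comp_mem_fixSub (principal_mem_fixSub (hA i).2) q⟩
  have hup : ∀ {y : Semi q}, y ∈ fixSub (A := Semi q) H → y ∈ fixSub (A := Semi q) Hj :=
    fun hy t ht => hy t (hjH ht)
  have hgj : ¬ ∃ y ∈ fixSub (A := Semi q) Hj,
      sval y g ^ p = sval (comp q (principal (p • A j))) g := by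
    rw [sval_principal, qval_nsmul]
    exact hg
  have hna : ¬ ∃ y ∈ fixSub (A := Semi q) H,
      sval y g ^ p = sval (comp q (principal (p • A j))) g :=
    fun ⟨y, hy, e⟩ => hgj ⟨y, hup hy, e⟩
  refine ⟨q, hq, g, hna, fun i hi => ?_⟩
  obtain ⟨k, w, hw, hk⟩ := exists_unit_mod L c.hLH hqp (hu j) (hu i) hna
  have e1 : sval (comp q (principal (p • A j))) g ^ k
      = sval (comp q (principal (A i)) - w) g ^ p := by
    have e2 : sval (comp q (principal (A i))) g ^ p = sval (comp q (principal (p • A i))) g := by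
      rw [map_nsmul, map_nsmul, sval_nsmul]
    rw [sub_eq_add_neg, sval_add, sval_neg, mul_pow, inv_pow, e2, hk,
      mul_inv_cancel_right₀ (pow_ne_zero _ (sval_ne_zero w g))]
  obtain ⟨l, rfl⟩ := dvd_of_pow_eq hp.out (hup (hu j).2)
    (sub_mem (comp_mem_fixSub (principal_mem_fixSub (hjfix i hi)) q) (hup hw.2)) e1 hgj
  refine ⟨l • comp q (principal (p • A j)) + w, add_mem (nsmul_mem (hu j).2 l) hw.2, ?_⟩
  rw [hk, sval_add, sval_nsmul, mul_pow, ← pow_mul, mul_comm l p]

theorem exists_secondData (hp2 : p ≠ 2) {α : QQbar} (hα : IsKummerRoot p H P α) :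
    Nonempty (SecondData p H α) := by
  classical
  obtain ⟨TH, hTH⟩ := exists_finset_classGroup L c.hLH
  set A₀ := toQMul α hα.ne
  set S : Finset Nat.Primes :=
    insert ⟨p, hp.out⟩ ((principal (p • A₀)).2.2.toFinset ∪ TH) with hSdef
  have hA₀ : p • A₀ ∈ sUnit S ⊓ fixSub (A := QMul) H := ⟨fun q hq => by
    by_contra hu
    exact hq (Finset.mem_insert_of_mem (Finset.mem_union_left _
      ((Set.Finite.mem_toFinset _).2 hu))), c.pow_root_mem hα⟩
  have hA₀H : A₀ ∉ fixSub (A := QMul) H := fun h => by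
    obtain ⟨s, hs, hsP⟩ := c.exists_gen
    refine hsP ((hα.iff s hs).1 ?_)
    exact congrArg qval (h s hs)
  obtain ⟨ι, hι, i₁, A, hA₁, hA, hind, hcard⟩ := exists_roots c.hLH c.mu hp2 S hA₀ hA₀H
  have hpS : (⟨p, hp.out⟩ : Nat.Primes) ∈ S := Finset.mem_insert_self _ _
  have key : ∀ F : Finset {i // i ≠ i₁}, ∃ (q : {i // i ≠ i₁} → Nat.Primes)
      (g : {i // i ≠ i₁} → GQ), Set.InjOn q F ∧ ∀ j ∈ F, q j ∉ S ∧
        (¬ ∃ y ∈ fixSub (A := Semi (q j)) H,
          sval y (g j) ^ p = sval (comp (q j) (principal (p • A j.1))) (g j)) ∧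
        ∀ i, i ≠ j.1 → ∃ y ∈ fixSub (A := Semi (q j)) H,
          sval y (g j) ^ p = sval (comp (q j) (principal (p • A i))) (g j) := by
    intro F
    induction F using Finset.induction_on with
    | empty => exact ⟨fun _ => ⟨p, hp.out⟩, fun _ => 1, by simp [Set.InjOn], by simp⟩
    | insert j F hjF ih =>
      obtain ⟨q, g, hinj, hF⟩ := ih
      obtain ⟨q₀, hq₀, g₀, h1, h2⟩ := c.exists_aux_place hp2 S hA hind hpS (S ∪ F.image q)
        Finset.subset_union_left j.1
      rw [Finset.mem_union, not_or] at hq₀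
      refine ⟨Function.update q j q₀, Function.update g j g₀, ?_, fun i hi => ?_⟩
      · rw [Finset.coe_insert, Set.injOn_insert (by simpa using hjF)]
        have hne : ∀ i ∈ (F : Set {i // i ≠ i₁}), Function.update q j q₀ i = q i := fun i hi =>
          Function.update_of_ne (fun h => hjF (by rw [← h]; exact hi)) _ _
        refine ⟨fun a ha b hb hab => hinj ha hb (by rw [← hne a ha, ← hne b hb]; exact hab), ?_⟩
        rw [Function.update_self]
        rintro ⟨i, hi, e⟩
        rw [hne i hi] at e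
        exact hq₀.2 (Finset.mem_image.2 ⟨i, hi, e⟩)
      · by_cases hij : i = j
        · subst hij
          rw [Function.update_self, Function.update_self]
          exact ⟨hq₀.1, h1, h2⟩
        · rw [Function.update_of_ne hij, Function.update_of_ne hij]
          exact hF i ((Finset.mem_insert.1 hi).resolve_left hij)
  obtain ⟨q, g, hinj, hF⟩ := key Finset.univ
  exact ⟨{
    ι := ι
    fintype := hι
    i₁ := i₁
    A := A
    qval_A₁ := by rw [hA₁, qval_toQMul]
    S := S
    p_mem := hpS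
    class_mem := fun x hx => by
      obtain ⟨a, ha, h⟩ := hTH x hx
      exact ⟨a, ha, fun r hr => h r fun h' => hr
        (Finset.mem_insert_of_mem (Finset.mem_union_right _ h'))⟩
    mem_sUnit := hA
    card_ι := hcard
    q := q
    q_inj := fun a b h => hinj (Finset.mem_coe.2 (Finset.mem_univ a))
      (Finset.mem_coe.2 (Finset.mem_univ b)) h
    q_notMem := fun j => (hF j (Finset.mem_univ j)).1
    g := g
    nonpow := fun j => (hF j (Finset.mem_univ j)).2.1
    pow := fun j => (hF j (Finset.mem_univ j)).2.2 }⟩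

end CStep

end FLTAgent.Global
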