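import Fermat.Agent.Global.Defs
import Fermat.Agent.Global.Csum
import Fermat.Agent.Global.ClassGroup
import Fermat.Agent.Global.Semilocal.Hilbert90

/-!
Degree `p` layers `P < H` over a base containing the `p`-th roots of unity: the action of a
generator on invariants, and Kummer theory.
-/

set_option autoImplicit false
set_option linter.unusedSectionVars false

noncomputable section

namespace FLTAgent.Global

/-- The fixed field of `H` contains the `p`-th roots of unity. -/
def FixesMu (p : ℕ) (H : Subgroup GQ) : Prop := ∀ s ∈ H, ∀ z : QQbar, z ^ p = 1 → s z = z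

/-- norms from level `P` to level `H`, inside the `H`-fixed classes -/
def clNorms (H P : Subgroup GQ) : Set Cl := normTo H P '' ((fixSub (A := Cl) P : AddSubgroup Cl) : Set Cl)

lemma FixesMu.mono {p : ℕ} {H H' : Subgroup GQ} (h : FixesMu p H) (hH : H' ≤ H) : FixesMu p H' :=
  fun s hs => h s (hH hs)

/-- The standing hypotheses on a layer of degree `p`. -/
structure CStep (p : ℕ) (L : Level) (H P : Subgroup GQ) : Prop where
  hP : Lvl H P
  hLP : L.grp ≤ P
  idx : P.relIndex H = p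
  mu : FixesMu p H

namespace CStep

variable {p : ℕ} [hp : Fact p.Prime] {L : Level} {H P : Subgroup GQ} (c : CStep p L H P)

include c

lemma hLH : L.grp ≤ H := c.hLP.trans c.hP.le

lemma normal : (P.subgroupOf H).Normal := by
  refine ⟨fun n hn g => ?_⟩
  rw [Subgroup.mem_subgroupOf] at hn ⊢
  have := c.hP.conj (g : GQ)⁻¹ (H.inv_mem g.2) _ hn
  simpa using this

lemma exists_gen : ∃ s ∈ H, s ∉ P := by
  by_contra h
  push Not at h
  have := c.idx
  rw [Subgroup.relIndex_eq_one.2 h] at this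
  exact hp.out.ne_one this.symm

variable {s : GQ} (hs : s ∈ H) (hsP : s ∉ P)

include hs hsP

lemma exists_pow_mul_mem {g : GQ} (hg : g ∈ H) : ∃ i < p, (s ^ i)⁻¹ * g ∈ P := by
  classical
  have := c.normal
  have hcard : Nat.card (H ⧸ P.subgroupOf H) = p := c.idx
  have := c.hP.fin
  set x : H ⧸ P.subgroupOf H := QuotientGroup.mk ⟨s, hs⟩
  have hx : x ≠ 1 := fun h => hsP (by
    simpa [Subgroup.mem_subgroupOf] using (QuotientGroup.eq_one_iff _).1 h)
  have ho : orderOf x = p := orderOf_eq_prime (hcard ▸ pow_card_eq_one') hx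
  have hz : (QuotientGroup.mk ⟨g, hg⟩ : H ⧸ P.subgroupOf H) ∈ Subgroup.zpowers x :=
    mem_zpowers_of_prime_card hcard hx
  rw [(isOfFinOrder_of_finite x).mem_zpowers_iff_mem_range_orderOf, ho, Finset.mem_image] at hz
  obtain ⟨i, hi, hix⟩ := hz
  refine ⟨i, Finset.mem_range.1 hi, ?_⟩
  rw [← QuotientGroup.mk_pow, QuotientGroup.eq, Subgroup.mem_subgroupOf] at hix
  simpa using hix

lemma pow_mem_iff {i : ℕ} : s ^ i ∈ P ↔ p ∣ i := by
  have := c.normal
  have hcard : Nat.card (H ⧸ P.subgroupOf H) = p := c.idx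
  have := c.hP.fin
  set x : H ⧸ P.subgroupOf H := QuotientGroup.mk ⟨s, hs⟩ with hx'
  have hx : x ≠ 1 := fun h => hsP (by
    simpa [Subgroup.mem_subgroupOf] using (QuotientGroup.eq_one_iff _).1 h)
  have ho : orderOf x = p := orderOf_eq_prime (hcard ▸ pow_card_eq_one') hx
  rw [← ho, orderOf_dvd_iff_pow_eq_one, hx', ← QuotientGroup.mk_pow, QuotientGroup.eq_one_iff,
    Subgroup.mem_subgroupOf]
  simp

section module

variable {A : Type*} [AddCommGroup A] [DistribMulAction GQ A]

lemma normTo_eq_sum {a : A} (ha : a ∈ fixSub (A := A) P) :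
    normTo H P a = ∑ i ∈ Finset.range p, s ^ i • a := by
  have := c.hP.fin
  have := Fintype.ofFinite (H ⧸ P.subgroupOf H)
  rw [normTo, csum_eq_sum]
  have hmem : ∀ i : ℕ, s ^ i ∈ H := fun i => pow_mem hs i
  symm
  refine Finset.sum_bij (fun i _ => QuotientGroup.mk ⟨s ^ i, hmem i⟩) (fun _ _ => Finset.mem_univ _)
    ?_ ?_ ?_
  · intro i hi j hj hij
    rw [QuotientGroup.eq, Subgroup.mem_subgroupOf] at hij
    simp only [Subgroup.coe_mul, InvMemClass.coe_inv] at hij
    rw [Finset.mem_range] at hi hj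
    rcases le_total i j with h | h
    · obtain ⟨k, rfl⟩ := Nat.exists_eq_add_of_le h
      rw [pow_add, inv_mul_cancel_left, c.pow_mem_iff hs hsP] at hij
      have := Nat.eq_zero_of_dvd_of_lt hij (by omega)
      omega
    · obtain ⟨k, rfl⟩ := Nat.exists_eq_add_of_le h
      rw [pow_add, mul_inv_rev, mul_assoc, inv_mul_cancel, mul_one, inv_mem_iff,
        c.pow_mem_iff hs hsP] at hij
      have := Nat.eq_zero_of_dvd_of_lt hij (by omega)
      omega
  · intro x _
    obtain ⟨i, hi, him⟩ := c.exists_pow_mul_mem hs hsP (x.out.2)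
    refine ⟨i, Finset.mem_range.2 hi, ?_⟩
    conv_rhs => rw [← QuotientGroup.out_eq' x]
    rw [QuotientGroup.eq, Subgroup.mem_subgroupOf]
    simpa using him
  · intro i hi
    have h : (QuotientGroup.mk ⟨s ^ i, hmem i⟩ : H ⧸ P.subgroupOf H).out⁻¹ * ⟨s ^ i, hmem i⟩ ∈
        P.subgroupOf H := QuotientGroup.eq.1 (QuotientGroup.out_eq' _)
    rw [Subgroup.mem_subgroupOf] at h
    have h2 := ha _ h
    simp only [Subgroup.coe_mul, InvMemClass.coe_inv, mul_smul, inv_smul_eq_iff] at h2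
    exact h2

/-- A cocycle of a cyclic layer is determined by its value at a generator. -/
lemma isB1_of_forall {f : GQ → A} (hf : IsZ1 H P f)
    (h : ∀ x ∈ fixSub (A := A) P, ∑ i ∈ Finset.range p, s ^ i • x = 0 →
      ∃ y ∈ fixSub (A := A) P, s • y - y = x) : IsB1 H f := by
  have hpow : ∀ i : ℕ, f (s ^ i) = ∑ j ∈ Finset.range i, s ^ j • f s := by
    intro i
    induction i with
    | zero => simp [hf.map_one]
    | succ i ih =>
      rw [pow_succ, hf.2 _ (pow_mem hs i) s hs, ih, Finset.sum_range_succ]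
      exact add_comm _ _
  have hfix : f s ∈ fixSub (A := A) P := fun t ht => hf.smul_eq c.hP hs ht
  obtain ⟨y, hy, hys⟩ := h (f s) hfix (by
    rw [← hpow, hf.apply_of_mem ((c.pow_mem_iff hs hsP).2 dvd_rfl)])
  refine ⟨y, fun g hg => ?_⟩
  obtain ⟨i, -, hi⟩ := c.exists_pow_mul_mem hs hsP hg
  have e : g = s ^ i * ((s ^ i)⁻¹ * g) := by group
  rw [e, hf.1 _ (pow_mem hs i) _ hi, hpow, dd0, mul_smul, hy _ hi]
  rw [← hys]
  clear e hi
  induction i with
  | zero => simp
  | succ i ih =>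
    rw [Finset.sum_range_succ, ih, smul_sub, ← mul_smul, ← pow_succ]
    abel

end module

end CStep

section act

variable {A : Type*} [AddCommGroup A] [DistribMulAction GQ A]
variable {H P : Subgroup GQ} (hP : Lvl H P) {s : GQ} (hs : s ∈ H)

/-- A element of `H` acting on the `P`-invariants. -/
def actFix : ↥(fixSub (A := A) P) →+ ↥(fixSub (A := A) P) where
  toFun a := ⟨s • (a : A), fun t ht => by
    rw [← mul_smul, show t * s = s * (s⁻¹ * t * s) by group, mul_smul, a.2 _ (hP.conj s hs t ht)]⟩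
  map_zero' := Subtype.ext (smul_zero s)
  map_add' a b := Subtype.ext (smul_add s _ _)

lemma coe_actFix (a : ↥(fixSub (A := A) P)) : (actFix hP hs a : A) = s • (a : A) := rfl

lemma coe_actFix_iterate (i : ℕ) (a : ↥(fixSub (A := A) P)) :
    (((⇑(actFix hP hs))^[i] a : ↥(fixSub (A := A) P)) : A) = s ^ i • (a : A) := by
  induction i with
  | zero => simp
  | succ i ih =>
    rw [Function.iterate_succ_apply', coe_actFix, ih, ← mul_smul, ← pow_succ']

end act

/-! ### Kummer theory -/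

/-- The stabiliser of an algebraic number. -/
def stabRoot (α : QQbar) : Subgroup GQ where
  carrier := {g | g α = α}
  one_mem' := rfl
  mul_mem' {g h} hg hh := by
    show g (h α) = α
    rw [hh, hg]
  inv_mem' {g} hg := by
    show g.symm α = α
    rw [AlgEquiv.symm_apply_eq]
    exact hg.symm

lemma mem_stabRoot {α : QQbar} {g : GQ} : g ∈ stabRoot α ↔ g α = α := Iff.rfl

lemma exists_level_root (L : Level) (α : QQbar) :
    ∃ L' : Level, L'.grp ≤ L.grp ⊓ stabRoot α ∧ α ∈ L'.fld := by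
  obtain ⟨M, hM⟩ := exists_level_mem α
  refine ⟨L.sup M, le_inf ((L.sup_grp_le M).trans inf_le_left) fun g hg => ?_,
    (le_sup_right : M.fld ≤ L.fld ⊔ M.fld) hM⟩
  exact (IntermediateField.mem_fixingSubgroup_iff _ _).1 hg _
    ((le_sup_right : M.fld ≤ L.fld ⊔ M.fld) hM)

variable {p : ℕ} [hp : Fact p.Prime]

/-- The Kummer character of a root of an element of the fixed field. -/
def kummerChar {H : Subgroup GQ} (hμ : FixesMu p H) {α : QQbar} (hα : α ≠ 0)
    (ha : α ^ p ∈ fixField H) : H →* rootsOfUnity p QQbar where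
  toFun g := rootsOfUnity.mkOfPowEq ((g : GQ) α / α) (by
    rw [div_pow, ← map_pow, mem_fixField_iff.1 ha _ g.2, div_self (pow_ne_zero _ hα)])
  map_one' := by
    apply Subtype.ext; apply Units.ext
    simp [hα]
  map_mul' g h := by
    apply Subtype.ext; apply Units.ext
    simp only [rootsOfUnity.val_mkOfPowEq_coe, Subgroup.coe_mul, Units.val_mul, AlgEquiv.mul_apply]
    have e := hμ g g.2 ((h : GQ) α / α) (by
      rw [div_pow, ← map_pow, mem_fixField_iff.1 ha _ h.2, div_self (pow_ne_zero _ hα)])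
    rw [map_div₀, div_eq_iff (by simpa using hα)] at e
    rw [e]
    ring

lemma kummerChar_eq_one_iff {H : Subgroup GQ} (hμ : FixesMu p H) {α : QQbar} (hα : α ≠ 0)
    (ha : α ^ p ∈ fixField H) (g : H) :
    kummerChar hμ hα ha g = 1 ↔ (g : GQ) α = α := by
  rw [Subtype.ext_iff, Units.ext_iff]
  simp [kummerChar, div_eq_one_iff_eq hα]

lemma exists_primitiveRoot (p : ℕ) [hp : Fact p.Prime] : ∃ ζ : QQbar, IsPrimitiveRoot ζ p := by
  have : NeZero ((p : ℕ) : QQbar) := ⟨Nat.cast_ne_zero.2 hp.out.ne_zero⟩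
  exact HasEnoughRootsOfUnity.exists_primitiveRoot QQbar p

lemma card_rootsOfUnity_qqbar : Nat.card (rootsOfUnity p QQbar) = p := by
  obtain ⟨ζ, hζ⟩ := exists_primitiveRoot p
  have : NeZero p := ⟨hp.out.ne_zero⟩
  exact hζ.card_rootsOfUnity

/-- A root outside the fixed field gives a layer of degree `p`. -/
lemma exists_cStep_root (L : Level) {H : Subgroup GQ} (hH : L.grp ≤ H) (hμ : FixesMu p H)
    {α : QQbar} (hα : α ≠ 0) (ha : α ^ p ∈ fixField H) (hαH : α ∉ fixField H) :
    ∃ L' : Level, L'.grp ≤ L.grp ∧ α ∈ L'.fld ∧ CStep p L' H (H ⊓ stabRoot α) := by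
  obtain ⟨L', hL', hαL⟩ := exists_level_root L α
  refine ⟨L', hL'.trans inf_le_left, hαL, ?_⟩
  have hLP : L'.grp ≤ H ⊓ stabRoot α :=
    le_inf ((hL'.trans inf_le_left).trans hH) (hL'.trans inf_le_right)
  have hker : (H ⊓ stabRoot α).subgroupOf H = (kummerChar hμ hα ha).ker := by
    ext g
    simp [Subgroup.mem_subgroupOf, MonoidHom.mem_ker, kummerChar_eq_one_iff, mem_stabRoot]
  have hfin : (H ⊓ stabRoot α).relIndex H = p := by
    rw [Subgroup.relIndex, hker, Subgroup.index_ker]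
    have : Fact (Nat.card (rootsOfUnity p QQbar)).Prime := ⟨(card_rootsOfUnity_qqbar (p := p)).symm ▸ hp.out⟩
    rcases (kummerChar hμ hα ha).range.eq_bot_or_eq_top_of_prime_card with h | h
    · refine absurd (mem_fixField_iff.2 fun g hg => ?_) hαH
      refine (kummerChar_eq_one_iff hμ hα ha ⟨g, hg⟩).1 ?_
      exact Subgroup.mem_bot.1 (h ▸ ⟨⟨g, hg⟩, rfl⟩)
    · rw [h, Subgroup.card_top, card_rootsOfUnity_qqbar]
  refine ⟨⟨inf_le_left, fun g hg s hs => ?_, ?_⟩, hLP, hfin, hμ⟩
  · have h1 : (g⁻¹ * s * g) ∈ H := mul_mem (mul_mem (H.inv_mem hg) hs.1) hg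
    refine ⟨h1, ?_⟩
    exact (kummerChar_eq_one_iff hμ hα ha ⟨_, h1⟩).1 (by
      have : kummerChar hμ hα ha ⟨s, hs.1⟩ = 1 := (kummerChar_eq_one_iff hμ hα ha _).2 hs.2
      rw [show (⟨g⁻¹ * s * g, h1⟩ : H) = ⟨g, hg⟩⁻¹ * ⟨s, hs.1⟩ * ⟨g, hg⟩ from rfl,
        map_mul, map_mul, this, mul_one, map_inv, inv_mul_cancel])
  · exact (Subgroup.index_ne_zero_iff_finite).1 (by
      show (H ⊓ stabRoot α).relIndex H ≠ 0
      rw [hfin]; exact hp.out.ne_zero)

namespace CStep

variable {L : Level} {H P : Subgroup GQ} (c : CStep p L H P)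

include c

/-- Kummer theory: the layer is obtained by adjoining a `p`-th root. -/
lemma exists_root : ∃ α : QQbar, α ≠ 0 ∧ α ^ p ∈ fixField H ∧ α ∉ fixField H ∧
    ∀ t ∈ H, t α = α ↔ t ∈ P := by
  have := c.normal
  have := c.hP.fin
  let e : (H ⧸ P.subgroupOf H) ≃* rootsOfUnity p QQbar :=
    mulEquivOfPrimeCardEq (p := p) c.idx card_rootsOfUnity_qqbar
  classical
  let f : GQ → QMul := fun g => if hg : g ∈ H then
    Additive.ofMul ((e (QuotientGroup.mk ⟨g, hg⟩) : rootsOfUnity p QQbar) : QQbarˣ) else 0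
  have hfix : ∀ g ∈ H, ∀ u : rootsOfUnity p QQbar, g ((u : QQbarˣ) : QQbar) = ((u : QQbarˣ) : QQbar) := fun g hg u =>
    c.mu g hg _ (by
      rw [← Units.val_pow_eq_pow_val, (mem_rootsOfUnity _ _).1 u.2, Units.val_one])
  have hf : IsZ1 H L.grp f := by
    refine ⟨fun g hg t ht => ?_, fun g hg h hh => ?_⟩
    · have ht' := c.hLP ht
      simp only [f, dif_pos hg, dif_pos (mul_mem hg (c.hP.le ht'))]
      congr 3
      rw [QuotientGroup.eq, Subgroup.mem_subgroupOf]
      simpa using P.inv_mem ht'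
    · simp only [f, dif_pos hg, dif_pos hh, dif_pos (mul_mem hg hh)]
      rw [show (⟨g * h, mul_mem hg hh⟩ : H) = ⟨g, hg⟩ * ⟨h, hh⟩ from rfl, QuotientGroup.mk_mul,
        map_mul]
      apply qmul_ext
      rw [qval_add, qval_smul]
      show _ = g (((e (QuotientGroup.mk ⟨h, hh⟩) : rootsOfUnity p QQbar) : QQbarˣ) : QQbar) * _
      rw [hfix g hg]
      show (((e (QuotientGroup.mk ⟨g, hg⟩)) * (e (QuotientGroup.mk ⟨h, hh⟩)) :
        rootsOfUnity p QQbar) : QQbarˣ).val = _
      exact mul_comm _ _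
  obtain ⟨b, hb⟩ := isB1_qmul L c.hLH hf
  have key : ∀ g (hg : g ∈ H), g (qval b)
      = qval b * (((e (QuotientGroup.mk ⟨g, hg⟩) : rootsOfUnity p QQbar) : QQbarˣ) : QQbar) := by
    intro g hg
    have h : g • b = f g + b := by rw [hb g hg, dd0, sub_add_cancel]
    rw [← qval_smul, h, qval_add, mul_comm]
    simp only [f, dif_pos hg]
    rfl
  have hiff : ∀ t ∈ H, t (qval b) = qval b ↔ t ∈ P := by
    intro t ht
    rw [key t ht, mul_eq_left₀ (qval_ne_zero b), Units.val_eq_one, OneMemClass.coe_eq_one,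
      EmbeddingLike.map_eq_one_iff, QuotientGroup.eq_one_iff, Subgroup.mem_subgroupOf]
  refine ⟨qval b, qval_ne_zero b, mem_fixField_iff.2 fun g hg => ?_, fun h => ?_, hiff⟩
  · rw [map_pow, key g hg, mul_pow]
    rw [← Units.val_pow_eq_pow_val, (mem_rootsOfUnity _ _).1 (e _).2, Units.val_one, mul_one]
  · obtain ⟨s, hs, hsP⟩ := c.exists_gen
    exact hsP ((hiff s hs).1 (mem_fixField_iff.1 h s hs))

end CStep

end FLTAgent.Global
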