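import Fermat.Agent.Global.CFT.Basic
import Fermat.Agent.Global.SUnit
import Fermat.Agent.Global.Semilocal.SemiValue
import Fermat.Agent.Global.Semilocal.Valuation
import Fermat.Agent.Global.Semilocal.Places

/-!
Local norms of a Kummer layer, place by place: a place where the radicand is a `p`-th power splits,
and at the other places prime to `p` where it is a unit up to `p`-th powers every unit is a norm.
-/

set_option autoImplicit false
set_option linter.unusedSectionVars false

noncomputable section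

namespace FLTAgent.Global

variable {q : Nat.Primes}

section place

variable (L : Level) {H : Subgroup GQ} (hH : L.grp ≤ H)

/-- Restriction to one place. -/
def onPlace (c : Places q H) : Semi q →+ Semi q := by
  classical
  exact AddMonoidHom.mk' (fun x =>
    ⟨fun g => if DoubleCoset.mk (dec q) H g = c then x.1 g else 0,
      fun τ g => by
        have e : DoubleCoset.mk (dec q) H (loc q τ * g) = DoubleCoset.mk (dec q) H g :=
          (DoubleCoset.eq _ _ _ _).2 ⟨(loc q τ)⁻¹, inv_mem ⟨τ, rfl⟩, 1, H.one_mem, by simp⟩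
        simp only [e]
        split_ifs
        · exact x.2.1 τ g
        · simp,
      by
        obtain ⟨L', hL'⟩ := x.2.2
        refine ⟨L.sup L', fun g t ht => ?_⟩
        have h := L.sup_grp_le L' ht
        have e : DoubleCoset.mk (dec q) H (g * t) = DoubleCoset.mk (dec q) H g :=
          (DoubleCoset.eq _ _ _ _).2 ⟨1, (dec q).one_mem, t⁻¹, inv_mem (hH h.1), by simp⟩
        simp only [e, hL' g t h.2]⟩)
    fun x y => by
      apply Subtype.ext
      funext g
      show (if _ then x.1 g + y.1 g else 0) = (if _ then x.1 g else 0) + (if _ then y.1 g else 0)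
      split_ifs <;> simp

lemma sval_onPlace_eq {c : Places q H} {g : GQ} (h : DoubleCoset.mk (dec q) H g = c) (x : Semi q) :
    sval (onPlace L hH c x) g = sval x g := by
  simp [sval, onPlace, h]

lemma sval_onPlace_ne {c : Places q H} {g : GQ} (h : DoubleCoset.mk (dec q) H g ≠ c) (x : Semi q) :
    sval (onPlace L hH c x) g = 1 := by
  simp [sval, onPlace, h]

lemma smul_onPlace {u : GQ} (hu : u ∈ H) (c : Places q H) (x : Semi q) :
    u • onPlace L hH c x = onPlace L hH c (u • x) := by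
  refine semi_ext fun g => ?_
  have e : DoubleCoset.mk (dec q) H (g * u) = DoubleCoset.mk (dec q) H g :=
    (DoubleCoset.eq _ _ _ _).2 ⟨1, (dec q).one_mem, u⁻¹, inv_mem hu, by simp⟩
  rw [sval_smul]
  by_cases h : DoubleCoset.mk (dec q) H g = c
  · rw [sval_onPlace_eq L hH h, sval_onPlace_eq L hH (e.trans h), sval_smul]
  · rw [sval_onPlace_ne L hH h, sval_onPlace_ne L hH (e ▸ h)]

lemma onPlace_mem_fixSub {K : Subgroup GQ} (hK : K ≤ H) (c : Places q H) {x : Semi q}
    (hx : x ∈ fixSub (A := Semi q) K) : onPlace L hH c x ∈ fixSub (A := Semi q) K := fun u hu => by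
  rw [smul_onPlace L hH (hK hu), hx u hu]

lemma onPlace_mem_semiUnit (c : Places q H) {x : Semi q} (hx : x ∈ semiUnit q) :
    onPlace L hH c x ∈ semiUnit q := fun g => by
  by_cases h : DoubleCoset.mk (dec q) H g = c
  · rw [sval_onPlace_eq L hH h]; exact hx g
  · rw [sval_onPlace_ne L hH h, norm_one]

lemma sval_eq_of_mk_eq {x y : Semi q} (hx : x ∈ fixSub (A := Semi q) H)
    (hy : y ∈ fixSub (A := Semi q) H) {g g' : GQ}
    (h : DoubleCoset.mk (dec q) H g = DoubleCoset.mk (dec q) H g') (he : sval x g = sval y g) :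
    sval x g' = sval y g' := by
  obtain ⟨d, ⟨τ, rfl⟩, u, hu, rfl⟩ := (DoubleCoset.eq _ _ _ _).1 h
  rw [sval_mul_right hx _ hu, sval_mul_right hy _ hu, sval_loc, sval_loc, he]

lemma onPlace_congr {x y : Semi q} (hx : x ∈ fixSub (A := Semi q) H)
    (hy : y ∈ fixSub (A := Semi q) H) {g : GQ} (he : sval x g = sval y g) :
    onPlace L hH (DoubleCoset.mk (dec q) H g) x = onPlace L hH (DoubleCoset.mk (dec q) H g) y := by
  refine semi_ext fun g' => ?_
  by_cases h : DoubleCoset.mk (dec q) H g' = DoubleCoset.mk (dec q) H g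
  · rw [sval_onPlace_eq L hH h, sval_onPlace_eq L hH h, sval_eq_of_mk_eq hx hy h.symm he]
  · rw [sval_onPlace_ne L hH h, sval_onPlace_ne L hH h]

lemma sum_onPlace [Fintype (Places q H)] (x : Semi q) : ∑ c, onPlace L hH c x = x := by
  refine semi_ext fun g => ?_
  rw [sval_sum, Finset.prod_eq_single (DoubleCoset.mk (dec q) H g)]
  · exact sval_onPlace_eq L hH rfl x
  · exact fun c _ hc => sval_onPlace_ne L hH (Ne.symm hc) x
  · simp

end place

/-- The residue of a local unit. -/
def residueUnit (L : Level) {H : Subgroup GQ} (hH : L.grp ≤ H) (g : GQ) :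
    ↥(semiUnit q ⊓ fixSub (A := Semi q) H) →+ Additive (ResField L q)ˣ :=
  AddMonoidHom.mk' (fun x =>
    Additive.ofMul (Units.mk0 (res₀ (⟨⟨sval x.1 g,
        sval_mem_valField (L := L) (fun u hu => x.2.2 u (hH hu)) g⟩, (x.2.1 g).le⟩ : valInt L q))
      (fun h => by
        have := res₀_eq_zero.1 h
        simp only at this
        rw [x.2.1 g] at this
        exact lt_irrefl _ this)))
    fun x y => by
      apply Additive.toMul.injective
      apply Units.ext
      show res₀ _ = res₀ _ * res₀ _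
      rw [← map_mul]
      rfl

lemma norm_sub_lt_one_of_residueUnit_eq (L : Level) {H : Subgroup GQ} (hH : L.grp ≤ H) {g : GQ}
    {x y : ↥(semiUnit q ⊓ fixSub (A := Semi q) H)}
    (h : residueUnit L hH g x = residueUnit L hH g y) : ‖sval x.1 g - sval y.1 g‖ < 1 := by
  have h' := congrArg (fun z : Additive (ResField L q)ˣ => ((Additive.toMul z : (ResField L q)ˣ) :
    ResField L q)) h
  exact (Ideal.Quotient.eq.1 h' :)

/-- Units modulo `p`-th powers at a place prime to `p` are generated by any non-power. -/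
theorem exists_unit_mod (L : Level) {H : Subgroup GQ} (hH : L.grp ≤ H) {p : ℕ} [hp : Fact p.Prime]
    (hqp : (q : ℕ) ≠ p) {a x : Semi q} (ha : a ∈ semiUnit q ⊓ fixSub (A := Semi q) H)
    (hx : x ∈ semiUnit q ⊓ fixSub (A := Semi q) H) {g : GQ}
    (hna : ¬ ∃ y ∈ fixSub (A := Semi q) H, sval y g ^ p = sval a g) :
    ∃ j : ℕ, ∃ w ∈ semiUnit q ⊓ fixSub (A := Semi q) H,
      sval x g = sval a g ^ j * sval w g ^ p := by
  have := finite_resField L q
  set φ := residueUnit (q := q) L hH g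
  obtain ⟨⟨γ, u, rfl⟩, hγ⟩ := IsAddCyclic.exists_generator (α := φ.range)
  obtain ⟨i, hi⟩ := AddSubgroup.mem_zmultiples_iff.1 (hγ ⟨φ ⟨a, ha⟩, _, rfl⟩)
  obtain ⟨k, hk⟩ := AddSubgroup.mem_zmultiples_iff.1 (hγ ⟨φ ⟨x, hx⟩, _, rfl⟩)
  replace hi := congrArg Subtype.val hi
  replace hk := congrArg Subtype.val hk
  simp only [AddSubgroup.coe_zsmul] at hi hk
  have hpi : (i : ZMod p) ≠ 0 := by
    intro h0
    obtain ⟨l, rfl⟩ := (ZMod.intCast_zmod_eq_zero_iff_dvd _ p).1 h0
    refine hna ?_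
    have e : φ ⟨a, ha⟩ = φ (p • (l • u)) := by
      rw [map_nsmul, map_zsmul, ← hi, mul_zsmul, natCast_zsmul]
    have h1 := norm_sub_lt_one_of_residueUnit_eq L hH e
    rw [AddSubgroup.coe_nsmul, sval_nsmul] at h1
    obtain ⟨z, hz, hz'⟩ := exists_nsmul_of_residue L q hH hp.out hqp ha (l • u).2 h1
    exact ⟨z, hz.2, by rw [← sval_nsmul, hz']⟩
  set j := ((k : ZMod p) / (i : ZMod p)).val with hj
  obtain ⟨l, hl⟩ : (p : ℤ) ∣ k - i * j := by
    rw [← ZMod.intCast_zmod_eq_zero_iff_dvd]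
    push_cast
    rw [hj, ZMod.natCast_val, ZMod.cast_id', id, mul_div_cancel₀ _ hpi, sub_self]
  set x' : ↥(semiUnit q ⊓ fixSub (A := Semi q) H) := ⟨x, hx⟩ - j • ⟨a, ha⟩ with hx'
  have e : φ x' = φ (p • (l • u)) := by
    rw [hx', map_sub, map_nsmul, map_nsmul, map_zsmul, ← hi, ← hk, ← natCast_zsmul, ← natCast_zsmul,
      ← mul_zsmul, ← mul_zsmul, ← sub_smul]
    congr 1
    rw [← hl]
    ring
  have h1 := norm_sub_lt_one_of_residueUnit_eq L hH e
  rw [AddSubgroup.coe_nsmul, sval_nsmul] at h1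
  obtain ⟨z, hz, hz'⟩ := exists_nsmul_of_residue L q hH hp.out hqp x'.2 (l • u).2 h1
  refine ⟨j, z, hz, ?_⟩
  rw [← sval_nsmul _ z, hz', hx', AddSubgroup.coe_sub, AddSubgroup.coe_nsmul, sub_eq_add_neg,
    sval_add, sval_neg, sval_nsmul]
  field_simp [sval_ne_zero]

/-! ### The layer -/

/-- A root generating the layer `P < H`. -/
structure IsKummerRoot (p : ℕ) (H P : Subgroup GQ) (α : QQbar) : Prop where
  ne : α ≠ 0
  pow_mem : α ^ p ∈ fixField H
  iff : ∀ t ∈ H, t α = α ↔ t ∈ P

/-- The place `g` splits in the layer. -/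
def SplitsAt (H P : Subgroup GQ) (q : Nat.Primes) (g : GQ) : Prop :=
  ∀ u ∈ H, g * u * g⁻¹ ∈ dec q → u ∈ P

namespace CStep

variable {p : ℕ} [hp : Fact p.Prime] {L : Level} {H P : Subgroup GQ} (c : CStep p L H P)

include c

lemma splitAt_of_pow {α : QQbar} (hα : IsKummerRoot p H P α) {g : GQ} {y : Semi q}
    (hy : y ∈ fixSub (A := Semi q) H) (h : sval y g ^ p = emb q (g (α ^ p))) :
    SplitsAt H P q g := by
  rintro u hu ⟨τ, hτ⟩
  refine (hα.iff u hu).1 ?_
  have hgu : g * u = loc q τ * g := by rw [hτ]; group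
  have hyτ : τ (sval y g) = sval y g := by
    rw [← sval_loc, ← hgu, sval_mul_right hy g hu]
  have hg0 : emb q (g α) ≠ 0 := by simp [hα.ne]
  have hy0 : sval y g ≠ 0 := sval_ne_zero y g
  set r : Kq q := emb q (g α) / sval y g with hr
  have hrp : r ^ p = 1 := by
    rw [hr, div_pow, h, ← map_pow, ← map_pow, div_self]
    simp [hα.ne]
  obtain ⟨ζ, hζ⟩ := exists_primitiveRoot p
  have : NeZero p := ⟨hp.out.ne_zero⟩
  have hgζ : IsPrimitiveRoot (emb q (g ζ)) p :=
    (hζ.map_of_injective g.injective).map_of_injective (emb q).injective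
  obtain ⟨i, -, hi⟩ := hgζ.eq_pow_of_pow_eq_one hrp
  have hrτ : τ r = r := by
    rw [← hi, map_pow, ← emb_loc]
    congr 2
    show (loc q τ * g) ζ = g ζ
    rw [← hgu, AlgEquiv.mul_apply, c.mu u hu ζ hζ.pow_eq_one]
  have e : τ (emb q (g α)) = emb q (g α) := by
    have hsplit : emb q (g α) = r * sval y g := by rw [hr, div_mul_cancel₀ _ hy0]
    rw [hsplit, map_mul, hrτ, hyτ]
  rw [← emb_loc] at e
  have e' : (loc q τ * g) α = g α := (emb q).injective e
  rw [← hgu, AlgEquiv.mul_apply] at e'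
  exact g.injective e'

variable {s : GQ} (hs : s ∈ H) (hsP : s ∉ P)

include hs hsP

/-- At a split place everything is a norm. -/
lemma exists_norm_split {g : GQ} (hg : SplitsAt H P q g) {x : Semi q}
    (hx : x ∈ fixSub (A := Semi q) H) :
    ∃ y ∈ fixSub (A := Semi q) P, (x ∈ semiUnit q → y ∈ semiUnit q) ∧
      ∑ i ∈ Finset.range p, s ^ i • y
        = onPlace L c.hLH (DoubleCoset.mk (dec q) H g) x := by
  classical
  set z := onPlace L c.hLP (DoubleCoset.mk (dec q) P g) x with hz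
  refine ⟨z, onPlace_mem_fixSub L c.hLP le_rfl _ (fun u hu => hx u (c.hP.le hu)),
    fun hu => onPlace_mem_semiUnit L c.hLP _ hu, semi_ext fun g' => ?_⟩
  rw [sval_sum]
  simp only [sval_smul]
  have hH' : ∀ i : ℕ, DoubleCoset.mk (dec q) H (g' * s ^ i) = DoubleCoset.mk (dec q) H g' :=
    fun i => (DoubleCoset.eq _ _ _ _).2
      ⟨1, (dec q).one_mem, (s ^ i)⁻¹, inv_mem (pow_mem hs i), by simp⟩
  have hPH : ∀ i : ℕ, DoubleCoset.mk (dec q) P (g' * s ^ i) = DoubleCoset.mk (dec q) P g →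
      DoubleCoset.mk (dec q) H g' = DoubleCoset.mk (dec q) H g := fun i h => by
    obtain ⟨d, hd, u, hu, e⟩ := (DoubleCoset.eq _ _ _ _).1 h
    rw [← hH' i]
    exact (DoubleCoset.eq _ _ _ _).2 ⟨d, hd, u, c.hP.le hu, e⟩
  by_cases h : DoubleCoset.mk (dec q) H g' = DoubleCoset.mk (dec q) H g
  · obtain ⟨d, hd, u, hu, e⟩ := (DoubleCoset.eq _ _ _ _).1 h
    obtain ⟨i, hi, hiu⟩ := c.exists_pow_mul_mem hs hsP hu
    have hgi : DoubleCoset.mk (dec q) P (g' * s ^ i) = DoubleCoset.mk (dec q) P g :=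
      (DoubleCoset.eq _ _ _ _).2 ⟨d, hd, (s ^ i)⁻¹ * u, hiu, by rw [e]; group⟩
    rw [sval_onPlace_eq L c.hLH h, Finset.prod_eq_single i]
    · rw [hz, sval_onPlace_eq L c.hLP hgi, sval_mul_right hx _ (pow_mem hs i)]
    · intro j hj hji
      refine sval_onPlace_ne L c.hLP (fun hgj => hji ?_) x
      obtain ⟨d', hd', t, ht, e'⟩ := (DoubleCoset.eq _ _ _ _).1 (hgj.trans hgi.symm)
      have hut : u⁻¹ * (s ^ j * t * (s ^ i)⁻¹) * u ∈ H :=
        mul_mem (mul_mem (inv_mem hu) (mul_mem (mul_mem (pow_mem hs j) (c.hP.le ht))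
          (inv_mem (pow_mem hs i)))) hu
      have h1 : g * (u⁻¹ * (s ^ j * t * (s ^ i)⁻¹) * u) * g⁻¹ ∈ dec q := by
        have e2 : g' * (s ^ j * t * (s ^ i)⁻¹) = d'⁻¹ * g' := by
          have : g' * s ^ i = d' * (g' * s ^ j) * t := e'
          calc g' * (s ^ j * t * (s ^ i)⁻¹) = d'⁻¹ * (d' * (g' * s ^ j) * t) * (s ^ i)⁻¹ := by group
            _ = d'⁻¹ * g' := by rw [← this]; group
        have e3 : g * (u⁻¹ * (s ^ j * t * (s ^ i)⁻¹) * u) * g⁻¹ = d * d'⁻¹ * d⁻¹ := by
          rw [e]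
          calc d * g' * u * (u⁻¹ * (s ^ j * t * (s ^ i)⁻¹) * u) * (d * g' * u)⁻¹
              = d * (g' * (s ^ j * t * (s ^ i)⁻¹)) * (g'⁻¹ * d⁻¹) := by group
            _ = d * d'⁻¹ * d⁻¹ := by rw [e2]; group
        rw [e3]
        exact mul_mem (mul_mem hd (inv_mem hd')) (inv_mem hd)
      have h2 := hg _ hut h1
      have h3 : s ^ j * t * (s ^ i)⁻¹ ∈ P := by
        have := c.hP.conj u⁻¹ (inv_mem hu) _ h2
        simpa [mul_assoc] using this
      have h4 : s ^ j * (s ^ i)⁻¹ ∈ P := by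
        have := c.hP.conj (s ^ i)⁻¹ (inv_mem (pow_mem hs i)) t ht
        simp only [inv_inv] at this
        simpa [mul_assoc] using mul_mem h3 (inv_mem this)
      rw [Finset.mem_range] at hj
      rcases le_total i j with hle | hle
      · obtain ⟨k, rfl⟩ := Nat.exists_eq_add_of_le hle
        rw [pow_add, (Commute.pow_pow (Commute.refl s) i k).eq, mul_inv_cancel_right,
          c.pow_mem_iff hs hsP] at h4
        have := Nat.eq_zero_of_dvd_of_lt h4 (by omega)
        omega
      · obtain ⟨k, rfl⟩ := Nat.exists_eq_add_of_le hle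
        rw [pow_add, mul_inv_rev, (Commute.pow_pow (Commute.refl s) j k).inv_inv.symm.eq,
          ← mul_assoc, mul_inv_cancel, one_mul, inv_mem_iff, c.pow_mem_iff hs hsP] at h4
        have := Nat.eq_zero_of_dvd_of_lt h4 (by omega)
        omega
    · exact fun hn => absurd (Finset.mem_range.2 hi) hn
  · rw [sval_onPlace_ne L c.hLH h]
    exact Finset.prod_eq_one fun i _ => sval_onPlace_ne L c.hLP (fun hi => h (hPH i hi)) x

omit hs hsP in
lemma root_mem {α : QQbar} (hα : IsKummerRoot p H P α) :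
    toQMul α hα.ne ∈ fixSub (A := QMul) P :=
  mem_fixSub_qmul.2 (mem_fixField_iff.2 fun t ht => (hα.iff t (c.hP.le ht)).2 ht)

omit hs hsP in
lemma pow_root_mem {α : QQbar} (hα : IsKummerRoot p H P α) :
    p • toQMul α hα.ne ∈ fixSub (A := QMul) H := by
  refine mem_fixSub_qmul.2 ?_
  show qval (p • toQMul α hα.ne) ∈ fixField H
  have : qval (p • toQMul α hα.ne) = α ^ p := by
    show ((Additive.toMul (p • toQMul α hα.ne) : QQbarˣ) : QQbar) = _
    rw [toMul_nsmul, Units.val_pow_eq_pow_val]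
    rfl
  rw [this]
  exact hα.pow_mem

lemma sum_root (hp2 : p ≠ 2) {α : QQbar} (hα : IsKummerRoot p H P α) :
    ∑ i ∈ Finset.range p, s ^ i • toQMul α hα.ne = p • toQMul α hα.ne := by
  set a := toQMul α hα.ne
  set z := s • a - a with hz
  have hpz : p • z = 0 := by
    rw [hz, nsmul_sub, sub_eq_zero]
    exact (map_nsmul (DistribSMul.toAddMonoidHom QMul s) p a).symm.trans (c.pow_root_mem hα s hs)
  have hzf : s • z = z := by
    refine qmul_ext ?_
    rw [qval_smul]
    refine c.mu s hs _ ?_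
    have := congrArg qval hpz
    rw [qval_zero] at this
    rw [← this]
    show _ = ((Additive.toMul (p • z) : QQbarˣ) : QQbar)
    rw [toMul_nsmul, Units.val_pow_eq_pow_val]
    rfl
  have hi : ∀ i : ℕ, s ^ i • a = a + i • z := by
    intro i
    induction i with
    | zero => simp
    | succ i ih =>
      have e : s • (i • z) = i • z := by
        rw [← DistribSMul.toAddMonoidHom_apply, map_nsmul, DistribSMul.toAddMonoidHom_apply, hzf]
      rw [pow_succ', mul_smul, ih, smul_add, e, succ_nsmul, hz]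
      abel
  simp only [hi, Finset.sum_add_distrib, Finset.sum_const, Finset.card_range, ← Finset.sum_smul]
  rw [Finset.sum_range_id]
  obtain ⟨k, hk⟩ : 2 ∣ p - 1 := (hp.out.even_sub_one hp2).two_dvd
  rw [hk, Nat.mul_div_assoc p (dvd_mul_right 2 k), Nat.mul_div_cancel_left k two_pos, mul_comm,
    mul_nsmul', hpz, smul_zero, add_zero]

/-- At a place prime to `p` where the radicand is a unit up to `p`-th powers, units are norms. -/
lemma exists_norm_unit_place (hp2 : p ≠ 2) (hqp : (q : ℕ) ≠ p) {α : QQbar} (hα : IsKummerRoot p H P α)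
    {g : GQ} {u w : Semi q} (hu : u ∈ semiUnit q ⊓ fixSub (A := Semi q) H)
    (hw : w ∈ fixSub (A := Semi q) H) (he : emb q (g (α ^ p)) = sval u g * sval w g ^ p)
    {x : Semi q} (hx : x ∈ semiUnit q ⊓ fixSub (A := Semi q) H) :
    ∃ y ∈ semiUnit q ⊓ fixSub (A := Semi q) P,
      ∑ i ∈ Finset.range p, s ^ i • y
        = onPlace L c.hLH (DoubleCoset.mk (dec q) H g) x := by
  by_cases hsplit : ∃ y ∈ fixSub (A := Semi q) H, sval y g ^ p = sval u g
  · obtain ⟨y, hy, hyg⟩ := hsplit
    have hsp : SplitsAt H P q g := c.splitAt_of_pow hα (add_mem hy hw)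
      (by rw [sval_add, mul_pow, hyg, he])
    obtain ⟨z, hz, hzu, hzn⟩ := c.exists_norm_split hs hsP hsp hx.2
    exact ⟨z, ⟨hzu hx.1, hz⟩, hzn⟩
  obtain ⟨j, v, hv, hxv⟩ := exists_unit_mod L c.hLH hqp hu hx hsplit
  set θ := comp q (principal (toQMul α hα.ne)) with hθ
  set K := DoubleCoset.mk (dec q) H g
  have hθP : θ ∈ fixSub (A := Semi q) P :=
    comp_mem_fixSub (principal_mem_fixSub (c.root_mem hα)) q
  have hwP : w ∈ fixSub (A := Semi q) P := fun t ht => hw t (c.hP.le ht)
  have hA : p • θ ∈ fixSub (A := Semi q) H := by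
    rw [hθ, ← map_nsmul, ← map_nsmul]
    exact comp_mem_fixSub (principal_mem_fixSub (c.pow_root_mem hα)) q
  set y := onPlace L c.hLH K (j • (θ - w) + v) with hy
  have hsumθ : ∑ i ∈ Finset.range p, s ^ i • θ = p • θ := by
    have := congrArg (fun z => comp q (principal z)) (c.sum_root hs hsP hp2 hα)
    simp only [map_sum, map_nsmul, principal_smul, comp_smul] at this
    exact this
  have hfixsum : ∀ z ∈ fixSub (A := Semi q) H, ∑ i ∈ Finset.range p, s ^ i • z = p • z :=
    fun z hz => by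
      rw [Finset.sum_congr rfl fun i _ => hz _ (pow_mem hs i), Finset.sum_const, Finset.card_range]
  have hbig : j • (p • θ - p • w) + p • v ∈ fixSub (A := Semi q) H :=
    add_mem (nsmul_mem (sub_mem hA (nsmul_mem hw p)) j) (nsmul_mem hv.2 p)
  have hnorm : onPlace L c.hLH K (j • (p • θ - p • w) + p • v) = onPlace L c.hLH K x := by
    refine onPlace_congr L c.hLH hbig hx.2 ?_
    have hθg : sval (p • θ) g = emb q (g (α ^ p)) := by
      rw [sval_nsmul, hθ, sval_principal, qval_toQMul, map_pow, map_pow]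
    rw [sval_add, sval_nsmul, sub_eq_add_neg, sval_add, sval_neg, hθg, he, sval_nsmul, sval_nsmul,
      hxv]
    field_simp [sval_ne_zero]
  refine ⟨y, ⟨?_, onPlace_mem_fixSub L c.hLH c.hP.le _
    (add_mem (nsmul_mem (sub_mem hθP hwP) j) (fun t ht => hv.2 t (c.hP.le ht)))⟩, ?_⟩
  · intro g'
    have h1 : p • y = onPlace L c.hLH K x := by
      rw [hy, ← map_nsmul, nsmul_add, smul_comm, nsmul_sub, hnorm]
    have h2 := onPlace_mem_semiUnit L c.hLH K hx.1 g'
    rw [← h1, sval_nsmul, norm_pow] at h2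
    exact (pow_eq_one_iff_of_nonneg (norm_nonneg _) hp.out.ne_zero).1 h2
  · rw [hy]
    simp only [smul_onPlace L c.hLH (pow_mem hs _)]
    rw [← map_sum, ← hnorm]
    congr 1
    have e : ∀ i : ℕ, s ^ i • (j • (θ - w) + v) = j • (s ^ i • θ - s ^ i • w) + s ^ i • v :=
      fun i => by
        rw [smul_add, ← smul_sub (s ^ i) θ w]
        exact congrArg (· + _) (map_nsmul (DistribSMul.toAddMonoidHom (Semi q) (s ^ i)) j _)
    simp only [e, Finset.sum_add_distrib, Finset.sum_nsmul, Finset.sum_sub_distrib, hsumθ,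
      hfixsum w hw, hfixsum v hv.2]

/-- Assembling the places. -/
lemma exists_norm_of_places {S : AddSubgroup (Semi q)} {x : Semi q}
    (h : ∀ g : GQ, ∃ y ∈ S, ∑ i ∈ Finset.range p, s ^ i • y
      = onPlace L c.hLH (DoubleCoset.mk (dec q) H g) x) :
    ∃ y ∈ S, ∑ i ∈ Finset.range p, s ^ i • y = x := by
  have := finite_places_of_le L c.hLH q
  have := Fintype.ofFinite (Places q H)
  choose f hf hfn using fun k : Places q H => h k.out
  refine ⟨∑ k, f k, sum_mem fun k _ => hf k, ?_⟩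
  simp only [Finset.smul_sum]
  rw [Finset.sum_comm, Finset.sum_congr rfl fun k _ => (hfn k).trans
    (by rw [show DoubleCoset.mk (dec q) H k.out = k from Quotient.out_eq' k]), sum_onPlace]

/-- Away from `p`, where the radicand is a unit up to `p`-th powers, all units are norms. -/
theorem exists_norm_unit (hp2 : p ≠ 2) (hqp : (q : ℕ) ≠ p) {α : QQbar} (hα : IsKummerRoot p H P α)
    (he : ∀ g : GQ, ∃ u ∈ semiUnit q ⊓ fixSub (A := Semi q) H, ∃ w ∈ fixSub (A := Semi q) H,
      emb q (g (α ^ p)) = sval u g * sval w g ^ p)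
    {x : Semi q} (hx : x ∈ semiUnit q ⊓ fixSub (A := Semi q) H) :
    ∃ y ∈ semiUnit q ⊓ fixSub (A := Semi q) P, ∑ i ∈ Finset.range p, s ^ i • y = x :=
  c.exists_norm_of_places hs hsP fun g => by
    obtain ⟨u, hu, w, hw, e⟩ := he g
    exact c.exists_norm_unit_place hs hsP hp2 hqp hα hu hw e hx

/-- If the radicand is everywhere a `p`-th power over `q`, everything is a norm. -/
theorem exists_norm_pow {α : QQbar} (hα : IsKummerRoot p H P α)
    (he : ∀ g : GQ, ∃ y ∈ fixSub (A := Semi q) H, sval y g ^ p = emb q (g (α ^ p)))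
    {x : Semi q} (hx : x ∈ fixSub (A := Semi q) H) :
    ∃ y ∈ fixSub (A := Semi q) P, (x ∈ semiUnit q → y ∈ semiUnit q) ∧
      ∑ i ∈ Finset.range p, s ^ i • y = x := by
  have hsplit : ∀ g : GQ, SplitsAt H P q g := fun g => by
    obtain ⟨y, hy, e⟩ := he g
    exact c.splitAt_of_pow hα hy e
  by_cases hxu : x ∈ semiUnit q
  · obtain ⟨y, hy, e⟩ := c.exists_norm_of_places hs hsP
      (S := semiUnit q ⊓ fixSub (A := Semi q) P) (x := x) fun g => by
        obtain ⟨y, hy, hu, e⟩ := c.exists_norm_split hs hsP (hsplit g) hx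
        exact ⟨y, ⟨hu hxu, hy⟩, e⟩
    exact ⟨y, hy.2, fun _ => hy.1, e⟩
  · obtain ⟨y, hy, e⟩ := c.exists_norm_of_places hs hsP
      (S := fixSub (A := Semi q) P) (x := x) fun g => by
        obtain ⟨y, hy, -, e⟩ := c.exists_norm_split hs hsP (hsplit g) hx
        exact ⟨y, hy, e⟩
    exact ⟨y, hy, fun h => absurd h hxu, e⟩

end CStep

end FLTAgent.Global
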