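import Fermat.Agent.Global.CFT.Lattice
import Fermat.Agent.Global.CFT.Place

/-!
The first inequality for a layer of degree `p`, and the places that do not split.
-/

set_option autoImplicit false
set_option linter.unusedSectionVars false
set_option synthInstance.maxHeartbeats 400000

noncomputable section

open Module

namespace FLTAgent.Global

lemma qval_nsmul (n : ℕ) (a : QMul) : qval (n • a) = qval a ^ n := by
  show ((Additive.toMul (n • a) : QQbarˣ) : QQbar) = _
  rw [toMul_nsmul, Units.val_pow_eq_pow_val]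
  rfl

lemma smul_mem_sUnit {T : Finset Nat.Primes} {a : QMul} (ha : a ∈ sUnit T) (g : GQ) :
    g • a ∈ sUnit T := fun q hq => by
  rw [principal_smul, comp_smul]
  exact smul_mem_semiUnit q (ha q hq) g

lemma mem_fixSub_of_principal {K : Subgroup GQ} {a : QMul}
    (h : principal a ∈ fixSub (A := Idele) K) : a ∈ fixSub (A := QMul) K := fun t ht =>
  principal_injective (by rw [principal_smul]; exact h t ht)

namespace CStep

variable {p : ℕ} [hp : Fact p.Prime] {L : Level} {H P : Subgroup GQ} (c : CStep p L H P)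

include c

lemma exists_isKummerRoot : ∃ α : QQbar, IsKummerRoot p H P α := by
  obtain ⟨α, h1, h2, -, h4⟩ := c.exists_root
  exact ⟨α, ⟨h1, h2, h4⟩⟩

variable {s : GQ} (hs : s ∈ H) (hsP : s ∉ P)

include hs hsP

lemma smul_mem_fixCl : ∀ x ∈ fixSub (A := Cl) P, s • x ∈ fixSub (A := Cl) P :=
  fun _ hx => c.smul_mem_fixSub hs hx

omit hsP in
lemma smul_mem_sUnitFix (T : Finset Nat.Primes) :
    ∀ a ∈ sUnit T ⊓ fixSub (A := QMul) P, s • a ∈ sUnit T ⊓ fixSub (A := QMul) P :=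
  fun _ ha => ⟨smul_mem_sUnit ha.1 s, c.smul_mem_fixSub hs ha.2⟩

/-- The Herbrand quotient of the `T`-units. -/
theorem hasHerbrand_sUnit (hp2 : p ≠ 2) (T : Finset Nat.Primes) :
    ∃ m n : ℕ, 2 * ((p - 1) * (m : ℤ) - (p - 1) * (n : ℤ)) + 2 * (p - 1)
        = 2 * (p * (∑ q ∈ T, Nat.card (Places q H) : ℕ) - (∑ q ∈ T, Nat.card (Places q P) : ℕ)) ∧
      HasHerbrand (sigmaSub (subAct s _ (c.smul_mem_sUnitFix hs T)))
        (sigmaNorm (subAct s _ (c.smul_mem_sUnitFix hs T)) p) (p ^ m) (p ^ n) := by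
  obtain ⟨ζ, hζ⟩ := exists_primitiveRoot p
  obtain ⟨hfin, hrP, -⟩ := sUnit_structure L c.hLP hp.out hp2 hζ
    (fun u hu => c.mu u (c.hP.le hu) ζ hζ.pow_eq_one) T
  obtain ⟨-, hrH, -⟩ := sUnit_structure L c.hLH hp.out hp2 hζ
    (fun u hu => c.mu u hu ζ hζ.pow_eq_one) T
  set σ := subAct s _ (c.smul_mem_sUnitFix hs T)
  have : Module.Finite ℤ ↥(sUnit T ⊓ fixSub (A := QMul) P) := hfin
  obtain ⟨m, n, hmn, hh⟩ := hasHerbrand_of_fg hp.out σ
    (fun a => c.iterate_subAct hs hsP _ _ inf_le_right a)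
  refine ⟨m, n, ?_, hh⟩
  let e : (sigmaSub σ).ker ≃+ ↥(sUnit T ⊓ fixSub (A := QMul) H) :=
    { toFun := fun a => ⟨a.1.1, a.1.2.1, c.mem_fixSub_of_gen hs hsP a.1.2.2
        (sub_eq_zero.1 (congrArg Subtype.val a.2))⟩
      invFun := fun a => ⟨⟨a.1, a.2.1, fun t ht => a.2.2 t (c.hP.le ht)⟩,
        Subtype.ext (sub_eq_zero.2 (a.2.2 s hs))⟩
      left_inv := fun _ => rfl
      right_inv := fun _ => rfl
      map_add' := fun _ _ => rfl }
  have r1 : finrank ℤ ↥(sigmaSub σ).ker.toIntSubmodule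
      = finrank ℤ ↥(sUnit T ⊓ fixSub (A := QMul) H).toIntSubmodule :=
    e.toIntLinearEquiv.finrank_eq
  have r2 : finrank ℤ ↥(sUnit T ⊓ fixSub (A := QMul) P)
      = finrank ℤ ↥(sUnit T ⊓ fixSub (A := QMul) P).toIntSubmodule := rfl
  have hidx : P.index = p * H.index := by
    rw [← Subgroup.relIndex_mul_index c.hP.le, c.idx]
  rw [r1, r2] at hmn
  rw [hidx] at hrP
  have e1 := congrArg (Nat.cast : ℕ → ℤ) hrP
  have e2 := congrArg (Nat.cast : ℕ → ℤ) hrH
  push_cast at e1 e2 hmn ⊢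
  linear_combination 2 * hmn + (p : ℤ) * e2 - e1

/-- The first inequality: `#Ĥ⁰ = p · #H¹` for the idele classes. -/
theorem card_tate_cl (hp2 : p ≠ 2) :
    Finite (TateQuot (sigmaSub (subAct s _ (c.smul_mem_fixCl hs hsP)))
      (sigmaNorm (subAct s _ (c.smul_mem_fixCl hs hsP)) p)) ∧
    Finite (TateQuot (sigmaNorm (subAct s _ (c.smul_mem_fixCl hs hsP)) p)
      (sigmaSub (subAct s _ (c.smul_mem_fixCl hs hsP)))) ∧
    Nat.card (TateQuot (sigmaSub (subAct s _ (c.smul_mem_fixCl hs hsP)))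
      (sigmaNorm (subAct s _ (c.smul_mem_fixCl hs hsP)) p))
      = p * Nat.card (TateQuot (sigmaNorm (subAct s _ (c.smul_mem_fixCl hs hsP)) p)
          (sigmaSub (subAct s _ (c.smul_mem_fixCl hs hsP)))) := by
  classical
  obtain ⟨α, hα⟩ := c.exists_isKummerRoot
  obtain ⟨TP, hTP⟩ := exists_finset_classGroup L c.hLP
  set A := toQMul α hα.ne
  set T : Finset Nat.Primes := insert ⟨p, hp.out⟩ ((principal (p • A)).2.2.toFinset ∪ TP) with hTdef
  have hT : ∀ q ∉ T, ∀ x ∈ semiUnit q ⊓ fixSub (A := Semi q) H,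
      ∃ y ∈ semiUnit q ⊓ fixSub (A := Semi q) P, ∑ i ∈ Finset.range p, s ^ i • y = x := by
    intro q hq x hx
    refine c.exists_norm_unit hs hsP hp2 (fun h => hq ?_) hα
      (fun g => ⟨comp q (principal (p • A)), ⟨?_, comp_mem_fixSub
        (principal_mem_fixSub (c.pow_root_mem hα)) q⟩, 0, zero_mem _, ?_⟩) hx
    · rw [show q = ⟨p, hp.out⟩ from Subtype.ext h]
      exact Finset.mem_insert_self _ _
    · by_contra hu
      exact hq (Finset.mem_insert_of_mem (Finset.mem_union_left _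
        ((Set.Finite.mem_toFinset _).2 hu)))
    · rw [sval_zero, one_pow, mul_one, sval_principal, qval_nsmul, qval_toQMul]
  obtain ⟨m, n, hmn, hI⟩ := c.hasHerbrand_sIdele hs hsP T hT
  obtain ⟨m', n', hmn', hU⟩ := c.hasHerbrand_sUnit hs hsP hp2 T
  let i : ↥(sUnit T ⊓ fixSub (A := QMul) P) →+ ↥(sIdele T ⊓ fixSub (A := Idele) P) :=
    (principal.comp (sUnit T ⊓ fixSub (A := QMul) P).subtype).codRestrict _ fun a =>
      ⟨a.2.1, principal_mem_fixSub a.2.2⟩
  let j : ↥(sIdele T ⊓ fixSub (A := Idele) P) →+ ↥(fixSub (A := Cl) P) :=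
    (toCl.comp (sIdele T ⊓ fixSub (A := Idele) P).subtype).codRestrict _ fun a t ht => by
      rw [AddMonoidHom.comp_apply, smul_toCl]
      exact congrArg toCl (a.2.2 t ht)
  have hi : Function.Injective i := fun a b h =>
    Subtype.ext (principal_injective (congrArg Subtype.val h))
  have hj : Function.Surjective j := by
    rintro ⟨x, hx⟩
    obtain ⟨y, hy, rfl⟩ := exists_fix_toCl_eq L c.hLP hx
    obtain ⟨a, ha, hya⟩ := hTP y hy
    refine ⟨⟨y - principal a, fun q hq => hya q fun h => hq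
      (Finset.mem_insert_of_mem (Finset.mem_union_right _ h)),
      (fixSub (A := Idele) P).sub_mem hy (principal_mem_fixSub ha)⟩, Subtype.ext ?_⟩
    show toCl (y - principal a) = toCl y
    rw [map_sub, toCl_eq_zero_iff.2 ⟨a, rfl⟩, sub_zero]
  have hex : Function.Exact i j := fun x => by
    constructor
    · intro hx
      obtain ⟨a, ha⟩ := toCl_eq_zero_iff.1 (congrArg Subtype.val hx)
      exact ⟨⟨a, show principal a ∈ sIdele T from ha.symm ▸ x.2.1,
        mem_fixSub_of_principal (ha.symm ▸ x.2.2)⟩, Subtype.ext ha⟩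
    · rintro ⟨a, rfl⟩
      exact Subtype.ext (toCl_eq_zero_iff.2 ⟨a.1, rfl⟩)
  have hh := hasHerbrand_of_exact (subAct s _ (c.smul_mem_sUnitFix hs T))
    (subAct s _ (c.smul_mem_sIdele hs T)) (subAct s _ (c.smul_mem_fixCl hs hsP))
    (fun a => c.iterate_subAct hs hsP _ _ inf_le_right a)
    (fun a => c.iterate_subAct hs hsP _ _ inf_le_right a)
    (fun a => c.iterate_subAct hs hsP _ _ le_rfl a) i j hi hj hex
    (fun a => Subtype.ext (principal_smul s a.1)) (fun a => Subtype.ext (smul_toCl s a.1).symm) hU hI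
  obtain ⟨f0, f1, hcard⟩ := (hasHerbrand_iff (Nat.mul_ne_zero (pow_ne_zero _ hp.out.ne_zero)
    (pow_ne_zero _ hp.out.ne_zero))).1 hh
  refine ⟨f0, f1, ?_⟩
  have key : m + n' = n + m' + 1 := by
    have h1 : (2 * ((p : ℤ) - 1)) ≠ 0 := by
      have := hp.out.two_le
      omega
    have h2 : 2 * ((p : ℤ) - 1) * ((m : ℤ) + n') = 2 * ((p : ℤ) - 1) * ((n : ℤ) + m' + 1) := by
      linear_combination 2 * hmn - hmn'
    exact_mod_cast mul_left_cancel₀ h1 h2
  rw [← pow_add, ← pow_add, key, pow_succ, mul_assoc] at hcard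
  exact (Nat.eq_of_mul_eq_mul_left (pow_pos hp.out.pos _) hcard).symm

lemma exists_class_not_norm (hp2 : p ≠ 2) :
    ∃ c₀ ∈ fixSub (A := Cl) H, ∀ y ∈ fixSub (A := Cl) P, ∑ i ∈ Finset.range p, s ^ i • y ≠ c₀ := by
  obtain ⟨f0, f1, hcard⟩ := c.card_tate_cl hs hsP hp2
  by_contra hall
  push Not at hall
  have : Subsingleton (TateQuot (sigmaSub (subAct s _ (c.smul_mem_fixCl hs hsP)))
      (sigmaNorm (subAct s _ (c.smul_mem_fixCl hs hsP)) p)) :=
    subsingleton_tate_norm fun a ha hsa => hall a (c.mem_fixSub_of_gen hs hsP ha hsa)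
  rw [Nat.card_unique] at hcard
  have := Nat.eq_one_of_mul_eq_one_right hcard.symm
  exact hp.out.ne_one this

/-- A class is a norm as soon as each component of a representing idele is. -/
lemma exists_norm_class {x : Idele}
    (hloc : ∀ q : Nat.Primes, ∃ y ∈ fixSub (A := Semi q) P,
      ∑ i ∈ Finset.range p, s ^ i • y = comp q x)
    {Q : Finset Nat.Primes}
    (hunit : ∀ q ∉ Q, ∃ y ∈ semiUnit q ⊓ fixSub (A := Semi q) P,
      ∑ i ∈ Finset.range p, s ^ i • y = comp q x) :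
    ∃ y ∈ fixSub (A := Cl) P, ∑ i ∈ Finset.range p, s ^ i • y = toCl x := by
  classical
  have h : ∀ q, ∃ y ∈ fixSub (A := Semi q) P, (q ∉ Q → y ∈ semiUnit q) ∧
      ∑ i ∈ Finset.range p, s ^ i • y = comp q x := by
    intro q
    by_cases hq : q ∈ Q
    · obtain ⟨y, hy, e⟩ := hloc q
      exact ⟨y, hy, fun h => absurd hq h, e⟩
    · obtain ⟨y, hy, e⟩ := hunit q hq
      exact ⟨y, hy.2, fun _ => hy.1, e⟩
  choose y hy hyu hye using h
  set Y := mkIdele L y (fun q t ht => hy q t (c.hLP ht))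
    (Q.finite_toSet.subset fun q hq => by_contra fun h => hq (hyu q h))
  have hY : Y ∈ fixSub (A := Idele) P := mkIdele_mem_fixSub _ _ _ _ hy
  refine ⟨toCl Y, fun t ht => by rw [smul_toCl, hY t ht], ?_⟩
  have e : ∑ i ∈ Finset.range p, s ^ i • Y = x := idele_ext fun q => by
    rw [map_sum]
    simp only [comp_smul]
    exact hye q
  conv_rhs => rw [← e, map_sum]
  exact Finset.sum_congr rfl fun i _ => smul_toCl _ _

/-- Infinitely many primes have a place where the radicand is not a `p`-th power. -/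
theorem exists_nonsplit (hp2 : p ≠ 2) {α : QQbar} (hα : IsKummerRoot p H P α)
    (T₀ : Finset Nat.Primes) :
    ∃ q ∉ T₀, ∃ g : GQ, ¬ ∃ y ∈ fixSub (A := Semi q) H, sval y g ^ p = emb q (g (α ^ p)) := by
  classical
  by_contra hall
  push Not at hall
  obtain ⟨c₀, hc₀, hne⟩ := c.exists_class_not_norm hs hsP hp2
  obtain ⟨x, hx, rfl⟩ := exists_fix_toCl_eq L c.hLH hc₀
  obtain ⟨b, hb, hy⟩ := exists_principal_approx L c.hLH p hp.out.ne_zero T₀ hx
  set z := x - principal b with hz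
  have hzfix : z ∈ fixSub (A := Idele) H := sub_mem hx (principal_mem_fixSub hb)
  have hpow : ∀ q ∉ T₀, ∀ g : GQ, ∃ y ∈ fixSub (A := Semi q) H,
      sval y g ^ p = emb q (g (α ^ p)) := fun q hq g => hall q hq g
  have hloc : ∀ q, ∃ y ∈ fixSub (A := Semi q) P,
      ∑ i ∈ Finset.range p, s ^ i • y = comp q z := by
    intro q
    by_cases hq : q ∈ T₀
    · obtain ⟨y, hy1, hy2⟩ := hy q hq
      refine ⟨y, fun t ht => hy1.2 t (c.hP.le ht), ?_⟩
      rw [hy2, Finset.sum_congr rfl fun i _ => hy1.2 _ (pow_mem hs i), Finset.sum_const,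
        Finset.card_range]
    · obtain ⟨y, hy1, -, hy3⟩ := c.exists_norm_pow hs hsP hα (hpow q hq) (comp_mem_fixSub hzfix q)
      exact ⟨y, hy1, hy3⟩
  obtain ⟨w, hw, hwe⟩ := c.exists_norm_class hs hsP hloc (Q := T₀ ∪ z.2.2.toFinset) fun q hq => by
    rw [Finset.mem_union, not_or] at hq
    obtain ⟨y, hy1, hy2, hy3⟩ := c.exists_norm_pow hs hsP hα (hpow q hq.1) (comp_mem_fixSub hzfix q)
    exact ⟨y, ⟨hy2 (by_contra fun hu => hq.2 ((Set.Finite.mem_toFinset _).2 hu)), hy1⟩, hy3⟩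
  refine hne w hw ?_
  rw [hwe, hz, map_sub, toCl_eq_zero_iff.2 ⟨b, rfl⟩, sub_zero]

end CStep

end FLTAgent.Global
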