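import Fermat.Agent.Global.CFT.Units
import Fermat.Agent.Global.SUnit

/-!
The valuations of the `T`-ideles of a layer of prime degree form a permutation lattice.
-/

set_option autoImplicit false
set_option linter.unusedSectionVars false

noncomputable section

open Module

namespace FLTAgent.Global

lemma mk_eq_of_le {q : Nat.Primes} {P K : Subgroup GQ} (h : P ≤ K) {a b : GQ}
    (e : DoubleCoset.mk (dec q) P a = DoubleCoset.mk (dec q) P b) :
    DoubleCoset.mk (dec q) K a = DoubleCoset.mk (dec q) K b := by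
  obtain ⟨d, hd, u, hu, rfl⟩ := (DoubleCoset.eq _ _ _ _).1 e
  exact (DoubleCoset.eq _ _ _ _).2 ⟨d, hd, u, h hu, rfl⟩

section val

variable (L : Level) {P : Subgroup GQ} (hP : L.grp ≤ P) (T : Finset Nat.Primes)

include hP in
lemma exists_ideleVal (x : ↥(fixSub (A := Idele) P)) (i : PlaceSet T P) :
    ∃ n : ℤ, ‖sval (comp i.1.1 x.1) i.2.out‖ ^ valDen L i.1.1 = ((i.1.1 : ℕ) : ℝ) ^ n :=
  (exists_pow_norm_eq_zpow L i.1.1).choose_spec.2 _
    (comp_mem_fixSub (fun u hu => x.2 u (hP hu)) i.1.1) _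

/-- The valuations over `T` of a fixed idele. -/
def ideleVal : ↥(fixSub (A := Idele) P) →+ (PlaceSet T P → ℤ) :=
  AddMonoidHom.mk' (fun x i => (exists_ideleVal L hP T x i).choose) fun x y => funext fun i => by
    refine zpow_prime_inj i.1.1 ?_
    rw [← (exists_ideleVal L hP T (x + y) i).choose_spec, Pi.add_apply,
      zpow_add₀ (by exact_mod_cast i.1.1.2.ne_zero),
      ← (exists_ideleVal L hP T x i).choose_spec, ← (exists_ideleVal L hP T y i).choose_spec]
    simp [mul_pow]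

lemma ideleVal_spec (x : ↥(fixSub (A := Idele) P)) {q : Nat.Primes} (hq : q ∈ T) (g : GQ) :
    ‖sval (comp q x.1) g‖ ^ valDen L q
      = ((q : ℕ) : ℝ) ^ ideleVal L hP T x ⟨⟨q, hq⟩, DoubleCoset.mk (dec q) P g⟩ := by
  have h := (exists_ideleVal L hP T x ⟨⟨q, hq⟩, DoubleCoset.mk (dec q) P g⟩).choose_spec
  rw [norm_sval_mk_eq (g' := Quotient.out (DoubleCoset.mk (dec q) P g)) (comp_mem_fixSub x.2 q)
    (Quotient.out_eq' _).symm]
  exact h

/-- The valuations of the `T`-ideles. -/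
def sIdeleVal : ↥(sIdele T ⊓ fixSub (A := Idele) P) →+ (PlaceSet T P → ℤ) :=
  (ideleVal L hP T).comp (AddSubgroup.inclusion inf_le_right)

lemma sIdeleVal_eq_zero_iff (x : ↥(sIdele T ⊓ fixSub (A := Idele) P)) :
    sIdeleVal L hP T x = 0 ↔ x.1 ∈ unitsAway P ∅ := by
  rw [mem_unitsAway_empty, AddSubgroup.mem_inf]
  refine ⟨fun h => ⟨fun q _ g => ?_, x.2.2⟩, fun h => funext fun i => zpow_prime_inj i.1.1 ?_⟩
  · by_cases hq : q ∈ T
    · have h1 := ideleVal_spec L hP T ⟨x.1, x.2.2⟩ hq g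
      rw [show ideleVal L hP T ⟨x.1, x.2.2⟩ = 0 from h, Pi.zero_apply, zpow_zero,
        pow_eq_one_iff_of_nonneg (norm_nonneg _) (valDen_pos L q).ne'] at h1
      exact h1
    · exact x.2.1 q hq g
  · rw [Pi.zero_apply, zpow_zero]
    show _ ^ (exists_ideleVal L hP T _ i).choose = 1
    rw [← (exists_ideleVal L hP T _ i).choose_spec]
    have : ‖sval (comp i.1.1 x.1) i.2.out‖ = 1 := h.1 i.1.1 (Finset.notMem_empty _) i.2.out
    rw [show ((AddSubgroup.inclusion inf_le_right x : ↥(fixSub (A := Idele) P)) : Idele) = x.1 from rfl,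
      this, one_pow]

end val

/-- The places of `K` under those of `P`. -/
def placeMap {P : Subgroup GQ} (K : Subgroup GQ) (T : Finset Nat.Primes) (i : PlaceSet T P) :
    PlaceSet T K := ⟨i.1, DoubleCoset.mk (dec i.1.1) K i.2.out⟩

lemma placeMap_surjective {P K : Subgroup GQ} (h : P ≤ K) (T : Finset Nat.Primes) :
    Function.Surjective (placeMap (P := P) K T) := fun k =>
  ⟨⟨k.1, DoubleCoset.mk (dec k.1.1) P k.2.out⟩, Sigma.ext rfl (heq_of_eq
    ((mk_eq_of_le h (Quotient.out_eq' (DoubleCoset.mk (dec k.1.1) P k.2.out))).trans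
      (Quotient.out_eq' k.2)))⟩

/-- Right translation of the places. -/
def shiftPlace {P : Subgroup GQ} (s : GQ) (T : Finset Nat.Primes) (i : PlaceSet T P) :
    PlaceSet T P := ⟨i.1, DoubleCoset.mk (dec i.1.1) P (i.2.out * s)⟩

namespace CStep

variable {p : ℕ} [hp : Fact p.Prime] {L : Level} {H P : Subgroup GQ} (c : CStep p L H P)
  {s : GQ} (hs : s ∈ H) (hsP : s ∉ P) (T : Finset Nat.Primes)

include c hs

lemma smul_mem_sIdele :
    ∀ a ∈ sIdele T ⊓ fixSub (A := Idele) P, s • a ∈ sIdele T ⊓ fixSub (A := Idele) P :=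
  fun a ha => ⟨fun q hq => by rw [comp_smul]; exact smul_mem_semiUnit q (ha.1 q hq) s,
    c.smul_mem_fixSub hs ha.2⟩

lemma ideleVal_smul (x : ↥(sIdele T ⊓ fixSub (A := Idele) P)) (i : PlaceSet T P) :
    sIdeleVal L c.hLP T (subAct s _ (c.smul_mem_sIdele hs T) x) i
      = sIdeleVal L c.hLP T x (shiftPlace s T i) := by
  obtain ⟨⟨q, hq⟩, k⟩ := i
  refine zpow_prime_inj q ?_
  have h1 := ideleVal_spec L c.hLP T
    (AddSubgroup.inclusion inf_le_right (subAct s _ (c.smul_mem_sIdele hs T) x)) hq k.out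
  rw [show DoubleCoset.mk (dec q) P k.out = k from Quotient.out_eq' k] at h1
  show _ ^ sIdeleVal L c.hLP T (subAct s _ (c.smul_mem_sIdele hs T) x) ⟨⟨q, hq⟩, k⟩ = _
  refine h1.symm.trans ?_
  have h2 := ideleVal_spec L c.hLP T (AddSubgroup.inclusion inf_le_right x) hq (k.out * s)
  exact Eq.trans (congrArg (fun y => ‖y‖ ^ valDen L q)
    (by
      show sval (comp q (s • x.1)) k.out = sval (comp q x.1) (k.out * s)
      rw [comp_smul, sval_smul])) h2

/-- Translation on the lattice of valuations. -/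
def latticeAct : (sIdeleVal L c.hLP T).range →+ (sIdeleVal L c.hLP T).range :=
  AddMonoidHom.mk' (fun f => ⟨fun i => f.1 (shiftPlace s T i), by
      obtain ⟨x, hx⟩ := f.2
      exact ⟨subAct s _ (c.smul_mem_sIdele hs T) x,
        funext fun i => (c.ideleVal_smul hs T x i).trans (by rw [hx])⟩⟩)
    fun f g => rfl

lemma latticeAct_comm (x : ↥(sIdele T ⊓ fixSub (A := Idele) P)) :
    (sIdeleVal L c.hLP T).rangeRestrict (subAct s _ (c.smul_mem_sIdele hs T) x)
      = c.latticeAct hs T ((sIdeleVal L c.hLP T).rangeRestrict x) :=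
  Subtype.ext (funext fun i => c.ideleVal_smul hs T x i)

omit hs in
/-- Scaled pullbacks are valuations of `T`-ideles fixed by the upper group. -/
lemma scaled_mem {K : Subgroup GQ} (hPK : P ≤ K) (f : PlaceSet T K → ℤ) :
    ∃ x : ↥(sIdele T ⊓ fixSub (A := Idele) P), x.1 ∈ fixSub (A := Idele) K ∧
      sIdeleVal L c.hLP T x = fun i => (valDen L i.1.1 : ℤ) * f (placeMap K T i) := by
  classical
  have hK : L.grp ≤ K := c.hLP.trans hPK
  have := fun q => finite_places_of_le L hK q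
  have := Fintype.ofFinite (PlaceSet T K)
  let e : PlaceSet T K → ↥(sIdele T ⊓ fixSub (A := Idele) P) := fun k =>
    ⟨single k.1.1 (qpowAt L hK k.1.1 k.2),
      fun r hr => by
        rw [comp_single_ne (show r ≠ k.1.1 from fun h => hr (by rw [h]; exact k.1.2))]
        exact zero_mem _,
      fun u hu => by rw [← single_smul, qpowAt_mem L hK k.1.1 k.2 u (hPK hu)]⟩
  have he : ∀ k, (e k).1 ∈ fixSub (A := Idele) K := fun k u hu => by
    show u • single k.1.1 (qpowAt L hK k.1.1 k.2) = _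
    rw [← single_smul, qpowAt_mem L hK k.1.1 k.2 u hu]
  have hv : ∀ k i, sIdeleVal L c.hLP T (e k) i
      = if placeMap K T i = k then -(valDen L i.1.1 : ℤ) else 0 := by
    intro k i
    obtain ⟨⟨r, hr⟩, z⟩ := i
    refine zpow_prime_inj r ?_
    have h1 := ideleVal_spec L c.hLP T (AddSubgroup.inclusion inf_le_right (e k)) hr z.out
    rw [show DoubleCoset.mk (dec r) P z.out = z from Quotient.out_eq' z] at h1
    refine h1.symm.trans ?_
    show ‖sval (comp r (single k.1.1 (qpowAt L hK k.1.1 k.2))) z.out‖ ^ valDen L r = _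
    obtain ⟨⟨q, hq⟩, cq⟩ := k
    by_cases hrq : r = q
    · subst hrq
      rw [comp_single, sval_qpowAt]
      by_cases hz : DoubleCoset.mk (dec r) K z.out = cq
      · rw [if_pos hz, if_pos (show placeMap K T ⟨⟨r, hr⟩, z⟩ = ⟨⟨r, hq⟩, cq⟩ from
          Sigma.ext rfl (heq_of_eq hz)), norm_prime_kq, inv_pow, zpow_neg, zpow_natCast]
      · rw [if_neg hz, if_neg (fun h => hz (eq_of_heq (Sigma.mk.injEq _ _ _ _ ▸ h).2)), norm_one,
          one_pow, zpow_zero]
    · rw [comp_single_ne hrq, sval_zero, norm_one, one_pow,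
        if_neg (fun h => hrq (congrArg (fun j : PlaceSet T K => j.1.1) h)), zpow_zero]
  refine ⟨∑ k, (-f k) • e k, ?_, funext fun i => ?_⟩
  · rw [AddSubmonoidClass.coe_finsetSum]
    exact sum_mem fun k _ => zsmul_mem (he k) _
  · rw [map_sum, Finset.sum_apply, Finset.sum_eq_single (placeMap K T i)]
    · rw [AddMonoidHom.map_zsmul, Pi.smul_apply, hv, if_pos rfl, smul_eq_mul]
      ring
    · intro k _ hk
      rw [AddMonoidHom.map_zsmul, Pi.smul_apply, hv, if_neg (Ne.symm hk), smul_zero]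
    · exact fun h => absurd (Finset.mem_univ _) h

include hsP

lemma eq_of_placeMap {f : PlaceSet T P → ℤ} (hf : ∀ i, f (shiftPlace s T i) = f i)
    {i j : PlaceSet T P} (h : placeMap H T i = placeMap H T j) : f i = f j := by
  obtain ⟨⟨q, hq⟩, a⟩ := i
  obtain ⟨⟨r, hr⟩, b⟩ := j
  obtain rfl : q = r := congrArg (fun k : PlaceSet T H => k.1.1) h
  have h' : DoubleCoset.mk (dec q) H a.out = DoubleCoset.mk (dec q) H b.out := by
    simpa [placeMap] using h
  obtain ⟨d, hd, u, hu, e⟩ := (DoubleCoset.eq _ _ _ _).1 h'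
  obtain ⟨n, -, hn⟩ := c.exists_pow_mul_mem hs hsP hu
  have hstep : ∀ g : GQ, f ⟨⟨q, hq⟩, DoubleCoset.mk (dec q) P (g * s)⟩
      = f ⟨⟨q, hq⟩, DoubleCoset.mk (dec q) P g⟩ := by
    intro g
    rw [← hf ⟨⟨q, hq⟩, DoubleCoset.mk (dec q) P g⟩]
    refine congrArg f (Sigma.ext rfl (heq_of_eq ?_))
    obtain ⟨d', hd', t, ht, e'⟩ := (DoubleCoset.eq _ _ _ _).1
      (Quotient.out_eq' (DoubleCoset.mk (dec q) P g)).symm
    refine (DoubleCoset.eq _ _ _ _).2 ⟨d', hd', s⁻¹ * t * s, c.hP.conj s hs t ht, ?_⟩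
    rw [e']
    group
  have hpow : ∀ m : ℕ, f ⟨⟨q, hq⟩, DoubleCoset.mk (dec q) P (a.out * s ^ m)⟩
      = f ⟨⟨q, hq⟩, a⟩ := by
    intro m
    induction m with
    | zero => rw [pow_zero, mul_one, show DoubleCoset.mk (dec q) P a.out = a from Quotient.out_eq' a]
    | succ m ih => rw [pow_succ, ← mul_assoc, hstep, ih]
  rw [← hpow n]
  refine congrArg f (Sigma.ext rfl (heq_of_eq ?_))
  rw [← show DoubleCoset.mk (dec q) P b.out = b from Quotient.out_eq' b]
  exact (DoubleCoset.eq _ _ _ _).2 ⟨d, hd, (s ^ n)⁻¹ * u, hn, by rw [e]; group⟩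

/-- The Herbrand quotient of the lattice. -/
theorem hasHerbrand_lattice :
    ∃ m n : ℕ, (p - 1) * (m : ℤ) - (p - 1) * (n : ℤ)
        = p * (∑ q ∈ T, Nat.card (Places q H) : ℕ) - (∑ q ∈ T, Nat.card (Places q P) : ℕ) ∧
      HasHerbrand (sigmaSub (c.latticeAct hs T)) (sigmaNorm (c.latticeAct hs T) p) (p ^ m) (p ^ n) := by
  classical
  set C := (sIdeleVal L c.hLP T).range
  set σ := c.latticeAct hs T
  have hσ : ∀ f, (⇑σ)^[p] f = f := by
    intro f
    obtain ⟨x, rfl⟩ := (sIdeleVal L c.hLP T).rangeRestrict_surjective f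
    rw [← (Function.Semiconj.iterate_right (f := ⇑(sIdeleVal L c.hLP T).rangeRestrict)
      (fun x => c.latticeAct_comm hs T x) p x)]
    rw [c.iterate_subAct hs hsP _ _ inf_le_right]
  have := fun q => finite_places_of_le L c.hLP q
  have := fun q => finite_places_of_le L c.hLH q
  have := Fintype.ofFinite (PlaceSet T P)
  have := Fintype.ofFinite (PlaceSet T H)
  have hfin : Module.Finite ℤ C :=
    Module.Finite.of_injective C.subtype.toIntLinearMap Subtype.val_injective
  have hcard : ∀ (K : Subgroup GQ) (_ : ∀ q, Finite (Places q K)) [Fintype (PlaceSet T K)],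
      Fintype.card (PlaceSet T K) = ∑ q ∈ T, Nat.card (Places q K) := by
    intro K _ _
    rw [← Nat.card_eq_fintype_card, Nat.card_sigma,
      ← Finset.sum_coe_sort T fun q => Nat.card (Places q K)]
  have hscale : ∀ (K : Subgroup GQ) (hPK : P ≤ K) [Fintype (PlaceSet T K)],
      ∃ Λ : (PlaceSet T K → ℤ) →ₗ[ℤ] C, Function.Injective Λ ∧
        (K = H → ∀ f, sigmaSub σ (Λ f) = 0) := by
    intro K hPK _
    choose x hxK hx using c.scaled_mem T hPK
    let Λ : (PlaceSet T K → ℤ) →+ C := AddMonoidHom.mk'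
      (fun f => ⟨fun i => (valDen L i.1.1 : ℤ) * f (placeMap K T i), x f, hx f⟩)
      fun f g => Subtype.ext (funext fun i => mul_add _ (f _) (g _))
    refine ⟨Λ.toIntLinearMap, fun f g h => funext fun k => ?_, fun hK f => ?_⟩
    · obtain ⟨i, rfl⟩ := placeMap_surjective hPK T k
      exact mul_left_cancel₀ (Int.natCast_ne_zero.2 (valDen_pos L i.1.1).ne')
        (congrFun (congrArg Subtype.val h) i)
    · subst hK
      have e : Λ.toIntLinearMap f = (sIdeleVal L c.hLP T).rangeRestrict (x f) :=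
        Subtype.ext (hx f).symm
      rw [sigmaSub_apply, e, ← c.latticeAct_comm hs T, ← map_sub]
      have : subAct s _ (c.smul_mem_sIdele hs T) (x f) = x f := Subtype.ext (hxK f s hs)
      rw [this, sub_self, map_zero]
  obtain ⟨m, n, hmn, hh⟩ := hasHerbrand_of_fg hp.out σ hσ
  refine ⟨m, n, ?_, hh⟩
  have r1 : finrank ℤ C = ∑ q ∈ T, Nat.card (Places q P) := by
    rw [← hcard P inferInstance, ← Module.finrank_fintype_fun_eq_card ℤ]
    obtain ⟨Λ, hΛ, -⟩ := hscale P le_rfl
    exact le_antisymm (LinearMap.finrank_le_finrank_of_injective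
      (f := C.subtype.toIntLinearMap) Subtype.val_injective)
      (LinearMap.finrank_le_finrank_of_injective hΛ)
  have r2 : finrank ℤ ↥(sigmaSub σ).ker.toIntSubmodule = ∑ q ∈ T, Nat.card (Places q H) := by
    rw [← hcard H inferInstance, ← Module.finrank_fintype_fun_eq_card ℤ]
    obtain ⟨Λ, hΛ, hΛf⟩ := hscale H c.hP.le
    refine le_antisymm ?_ ?_
    · choose sec hsec using placeMap_surjective (P := P) c.hP.le T
      let ψ : (sigmaSub σ).ker →+ (PlaceSet T H → ℤ) :=
        AddMonoidHom.mk' (fun f k => f.1.1 (sec k)) fun f g => rfl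
      refine LinearMap.finrank_le_finrank_of_injective (f := ψ.toIntLinearMap) fun f g h => ?_
      refine Subtype.ext (Subtype.ext (funext fun i => ?_))
      have hfix : ∀ w : (sigmaSub σ).ker, ∀ j, w.1.1 (shiftPlace s T j) = w.1.1 j := fun w j =>
        congrFun (congrArg Subtype.val (sub_eq_zero.1 (show σ w.1 - w.1 = 0 from w.2))) j
      rw [c.eq_of_placeMap hs hsP T (hfix f) (hsec (placeMap H T i)).symm,
        c.eq_of_placeMap hs hsP T (hfix g) (hsec (placeMap H T i)).symm]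
      exact congrFun h (placeMap H T i)
    · exact LinearMap.finrank_le_finrank_of_injective
        (f := Λ.codRestrict (sigmaSub σ).ker.toIntSubmodule fun f => hΛf rfl f)
        fun f g h => hΛ (congrArg Subtype.val h)
  rw [hmn, r1, r2]

/-- The Herbrand quotient of the `T`-ideles. -/
theorem hasHerbrand_sIdele
    (hT : ∀ q ∉ T, ∀ x ∈ semiUnit q ⊓ fixSub (A := Semi q) H,
      ∃ y ∈ semiUnit q ⊓ fixSub (A := Semi q) P, ∑ i ∈ Finset.range p, s ^ i • y = x) :
    ∃ m n : ℕ, (p - 1) * (m : ℤ) - (p - 1) * (n : ℤ)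
        = p * (∑ q ∈ T, Nat.card (Places q H) : ℕ) - (∑ q ∈ T, Nat.card (Places q P) : ℕ) ∧
      HasHerbrand (sigmaSub (subAct s _ (c.smul_mem_sIdele hs T)))
        (sigmaNorm (subAct s _ (c.smul_mem_sIdele hs T)) p) (p ^ m) (p ^ n) := by
  obtain ⟨m, n, hmn, hh⟩ := c.hasHerbrand_lattice hs hsP T
  refine ⟨m, n, hmn, ?_⟩
  have hle : unitsAway P ∅ ≤ sIdele T ⊓ fixSub (A := Idele) P := fun x hx => by
    rw [mem_unitsAway] at hx
    exact ⟨fun q _ => hx.1 q, hx.2.1⟩
  have hex : Function.Exact (AddSubgroup.inclusion hle) (sIdeleVal L c.hLP T).rangeRestrict := by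
    intro x
    constructor
    · intro hx
      exact ⟨⟨x.1, (sIdeleVal_eq_zero_iff L c.hLP T x).1 (congrArg Subtype.val hx)⟩,
        Subtype.ext rfl⟩
    · rintro ⟨a, rfl⟩
      exact Subtype.ext ((sIdeleVal_eq_zero_iff L c.hLP T _).2 a.2)
  have := hasHerbrand_of_exact_mid (subAct s _ (c.smul_mem_unitsAway hs ∅))
    (subAct s _ (c.smul_mem_sIdele hs T)) (c.latticeAct hs T)
    (fun b => c.iterate_subAct hs hsP _ _ inf_le_right b) _ _
    (AddSubgroup.inclusion_injective hle) (AddMonoidHom.rangeRestrict_surjective _) hex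
    (fun _ => Subtype.ext rfl) (c.latticeAct_comm hs T)
    (c.hasHerbrand_unitsAway_empty hs hsP hT) hh
  simpa using this

end CStep

end FLTAgent.Global
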