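import Fermat.Agent.Global.CFT.Auxiliary
import Fermat.Agent.Global.Semilocal.PowerIndex

/-!
The second inequality for a layer of degree `p`: the norm index of the idele classes is at most `p`.
-/

set_option autoImplicit false
set_option linter.unusedSectionVars false
set_option synthInstance.maxHeartbeats 400000

noncomputable section

namespace FLTAgent.Global

lemma card_quot_nsmul_semi {p : ℕ} [hp : Fact p.Prime] {L : Level} {H : Subgroup GQ}
    (hH : L.grp ≤ H) (hμ : FixesMu p H) (r : Nat.Primes) :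
    Nat.card (↥(fixSub (A := Semi r) H) ⧸
        (nsmulAddMonoidHom p : _ →+ ↥(fixSub (A := Semi r) H)).range)
      = p ^ (2 * Nat.card (Places r H) + if (r : ℕ) = p then H.index else 0) := by
  obtain ⟨ζ, hζ⟩ := exists_primitiveRoot p
  exact card_semi_mod L r hH hp.out hζ fun u hu => hμ u hu ζ hζ.pow_eq_one

lemma index_sup_mul_le {X : Type*} [AddCommGroup X] (E W : AddSubgroup X) :
    (E ⊔ W).index * E.relIndex W = E.index := by
  rw [show E.relIndex W = E.relIndex (E ⊔ W) from (AddSubgroup.relIndex_sup_left ..).symm, mul_comm]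
  exact AddSubgroup.relIndex_mul_index le_sup_left

namespace CStep

variable {p : ℕ} [hp : Fact p.Prime] {L : Level} {H P : Subgroup GQ} (c : CStep p L H P)
  {s : GQ} (hs : s ∈ H) (hsP : s ∉ P)

include c hs hsP

/-- At a place where the valuation of a local element is divisible by `p`, and the radicand is a
unit up to `p`-th powers, the element is a norm. -/
lemma exists_norm_divisible (hp2 : p ≠ 2) {q : Nat.Primes} (hqp : (q : ℕ) ≠ p) {α : QQbar}
    (hα : IsKummerRoot p H P α) {g : GQ} {w : Semi q} (hw : w ∈ fixSub (A := Semi q) H)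
    (ha : ‖emb q (g (α ^ p))‖ = ‖sval w g‖ ^ p) {x y : Semi q}
    (hx : x ∈ fixSub (A := Semi q) H) (hy : y ∈ fixSub (A := Semi q) H)
    (hxy : ‖sval x g‖ = ‖sval y g‖ ^ p) :
    ∃ z ∈ fixSub (A := Semi q) P, ∑ i ∈ Finset.range p, s ^ i • z
      = onPlace L c.hLH (DoubleCoset.mk (dec q) H g) x := by
  set K := DoubleCoset.mk (dec q) H g with hK
  have hunit : ∀ a b : Semi q, a ∈ fixSub (A := Semi q) H → b ∈ fixSub (A := Semi q) H →
      ‖sval a g‖ = ‖sval b g‖ ^ p →
      onPlace L c.hLH K (a - p • b) ∈ semiUnit q ⊓ fixSub (A := Semi q) H := fun a b ha hb hab => by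
    refine ⟨fun g' => ?_, onPlace_mem_fixSub L c.hLH le_rfl K (sub_mem ha (nsmul_mem hb p))⟩
    by_cases h : DoubleCoset.mk (dec q) H g' = K
    · rw [sval_onPlace_eq L c.hLH h, sub_eq_add_neg, sval_add, sval_neg, sval_nsmul, norm_mul,
        norm_inv, norm_pow, norm_sval_mk_eq ha h, norm_sval_mk_eq hb h, hab,
        mul_inv_cancel₀ (by simp [sval_ne_zero])]
    · rw [sval_onPlace_ne L c.hLH h, norm_one]
  set a := comp q (principal (p • toQMul α hα.ne)) with ha'
  have haf : a ∈ fixSub (A := Semi q) H :=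
    comp_mem_fixSub (principal_mem_fixSub (c.pow_root_mem hα)) q
  have hag : sval a g = emb q (g (α ^ p)) := by
    rw [ha', sval_principal, qval_nsmul, qval_toQMul]
  obtain ⟨z, hz, hze⟩ := c.exists_norm_unit_place hs hsP hp2 hqp hα
    (hunit a w haf hw (by rw [hag]; exact ha)) hw
    (by rw [sval_onPlace_eq L c.hLH hK.symm, sub_eq_add_neg, sval_add, sval_neg, sval_nsmul,
      inv_mul_cancel_right₀ (pow_ne_zero _ (sval_ne_zero w g)), hag])
    (hunit x y hx hy hxy)
  refine ⟨z + onPlace L c.hLH K y, add_mem hz.2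
    (onPlace_mem_fixSub L c.hLH c.hP.le K fun t ht => hy t (c.hP.le ht)), ?_⟩
  simp only [smul_add, Finset.sum_add_distrib]
  rw [hze]
  have e : ∑ i ∈ Finset.range p, s ^ i • onPlace L c.hLH K y = p • onPlace L c.hLH K y := by
    rw [Finset.sum_congr rfl fun i _ =>
      (onPlace_mem_fixSub L c.hLH le_rfl K hy) _ (pow_mem hs i), Finset.sum_const, Finset.card_range]
  rw [e]
  refine semi_ext fun g' => ?_
  by_cases h : DoubleCoset.mk (dec q) H g' = K
  · rw [sval_add, sval_nsmul, sval_onPlace_eq L c.hLH h, sval_onPlace_eq L c.hLH h,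
      sval_onPlace_eq L c.hLH h, sval_onPlace_eq L c.hLH h, sub_eq_add_neg, sval_add, sval_neg,
      sval_nsmul, inv_mul_cancel_right₀ (pow_ne_zero _ (sval_ne_zero y g'))]
  · rw [sval_add, sval_nsmul, sval_onPlace_ne L c.hLH h, sval_onPlace_ne L c.hLH h,
      sval_onPlace_ne L c.hLH h, one_pow, one_mul]

end CStep

/-- A `T`-unit whose components are `p`-th powers over `S` and have valuations divisible by `p` away
from the auxiliary places is a `p`-th power. -/
theorem SecondData.exists_root_mem {p : ℕ} [hp : Fact p.Prime] (hp2 : p ≠ 2) {L : Level}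
    {H : Subgroup GQ} (hH : L.grp ≤ H) (hμ : FixesMu p H) {α : QQbar} (D : SecondData p H α)
    {T : Finset Nat.Primes} (hST : D.S ⊆ T) (hT : ∀ r ∈ T, r ∉ D.S → ∃ j, D.q j = r)
    {b : QMul} (hb : b ∈ sUnit T ⊓ fixSub (A := QMul) H)
    (hbS : ∀ r ∈ D.S, ∃ y ∈ fixSub (A := Semi r) H, p • y = comp r (principal b))
    (hbQ : ∀ j, ∀ g : GQ, DoubleCoset.mk (dec (D.q j)) H g ≠ DoubleCoset.mk (dec (D.q j)) H (D.g j) →
      ∃ y ∈ fixSub (A := Semi (D.q j)) H,
        ‖sval (comp (D.q j) (principal b)) g‖ = ‖sval y g‖ ^ p) :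
    ∃ B ∈ sUnit T ⊓ fixSub (A := QMul) H, p • B = b := by
  classical
  let := D.fintype
  obtain ⟨β, hβ⟩ := IsAlgClosed.exists_pow_nat_eq (qval b) hp.out.pos
  have hβ0 : β ≠ 0 := fun h => qval_ne_zero b (by rw [← hβ, h, zero_pow hp.out.ne_zero])
  have hBb : p • toQMul β hβ0 = b := qmul_ext (by rw [qval_nsmul, qval_toQMul, hβ])
  by_cases hBH : β ∈ fixField H
  · refine ⟨toQMul β hβ0, ⟨fun r hr g => ?_, mem_fixSub_qmul.2 hBH⟩, hBb⟩
    have h1 : ‖sval (comp r (principal b)) g‖ = 1 := hb.1 r hr g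
    rw [← hBb, map_nsmul, map_nsmul, sval_nsmul, norm_pow] at h1
    exact (pow_eq_one_iff_of_nonneg (norm_nonneg _) hp.out.ne_zero).1 h1
  exfalso
  have hβp : β ^ p ∈ fixField H := hβ ▸ mem_fixSub_qmul.1 hb.2
  obtain ⟨L', -, -, cb⟩ := exists_cStep_root L hH hμ hβ0 hβp hBH
  have hroot : IsKummerRoot p H (H ⊓ stabRoot β) β :=
    ⟨hβ0, hβp, fun t ht => ⟨fun h => ⟨ht, h⟩, fun h => h.2⟩⟩
  obtain ⟨s, hs, hsP⟩ := cb.exists_gen
  obtain ⟨c₀, hc₀, hne⟩ := cb.exists_class_not_norm hs hsP hp2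
  obtain ⟨x, hx, rfl⟩ := exists_fix_toCl_eq L hH hc₀
  obtain ⟨a₀, ha₀, hx'⟩ := D.class_mem x hx
  set x' := x - principal a₀
  have hx'f : x' ∈ fixSub (A := Idele) H := sub_mem hx (principal_mem_fixSub ha₀)
  have hqp : ∀ j, (D.q j : ℕ) ≠ p := fun j h => D.q_notMem j (by
    rw [show D.q j = ⟨p, hp.out⟩ from Subtype.ext h]; exact D.p_mem)
  set a : D.ι → QMul := fun i => p • D.A i
  have hau : ∀ (j : {i // i ≠ D.i₁}) i, comp (D.q j) (principal (a i))
      ∈ semiUnit (D.q j) ⊓ fixSub (A := Semi (D.q j)) H := fun j i =>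
    ⟨(D.mem_sUnit i).1 _ (D.q_notMem j),
      comp_mem_fixSub (principal_mem_fixSub (D.mem_sUnit i).2) _⟩
  have hk : ∀ j : {i // i ≠ D.i₁}, ∃ k : ℕ, ∃ w ∈ fixSub (A := Semi (D.q j)) H,
      sval (comp (D.q j) x') (D.g j)
        = sval (comp (D.q j) (principal (a j.1))) (D.g j) ^ k * sval w (D.g j) ^ p := fun j => by
    obtain ⟨k, w, hw, h⟩ := exists_unit_mod L hH (hqp j) (hau j j.1)
      ⟨hx' _ (D.q_notMem j), comp_mem_fixSub hx'f _⟩ (D.nonpow j)
    exact ⟨k, w, hw.2, h⟩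
  choose k w hw hkw using hk
  set C := ∑ j, k j • a j.1 with hC
  have hCmem : C ∈ sUnit D.S ⊓ fixSub (A := QMul) H :=
    sum_mem fun j _ => nsmul_mem (D.mem_sUnit j.1) _
  set z := x' - principal C with hz
  have hzf : z ∈ fixSub (A := Idele) H := sub_mem hx'f (principal_mem_fixSub hCmem.2)
  have hzu : ∀ r ∉ D.S, comp r z ∈ semiUnit r := fun r hr => by
    rw [hz, map_sub]
    exact sub_mem (hx' r hr) (hCmem.1 r hr)
  have hzg : ∀ j, ∃ y ∈ fixSub (A := Semi (D.q j)) H,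
      sval y (D.g j) ^ p = sval (comp (D.q j) z) (D.g j) := by
    intro j
    choose y hy hye using fun i : {i : {i // i ≠ D.i₁} // i ≠ j} =>
      D.pow j i.1.1 fun h => i.2 (Subtype.ext h)
    refine ⟨w j - ∑ i, k i.1 • y i,
      sub_mem (hw j) (sum_mem fun i _ => nsmul_mem (hy i) _), ?_⟩
    rw [hz, map_sub, hC, map_sum, map_sum, ← Finset.add_sum_erase _ _ (Finset.mem_univ j)]
    simp only [sub_eq_add_neg, sval_add, sval_neg, map_nsmul, sval_nsmul, sval_sum, mul_pow, inv_pow,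
      ← Finset.prod_pow, hkw j]
    rw [Finset.prod_subtype (Finset.univ.erase j) (p := fun i => i ≠ j) (by simp)]
    simp only [← pow_mul, mul_comm _ p]
    rw [Finset.prod_congr rfl fun i _ => show sval (y i) (D.g j) ^ (p * k i.1)
        = sval (comp (D.q j) (principal (a i.1.1))) (D.g j) ^ k i.1 by rw [pow_mul, hye]]
    field_simp [sval_ne_zero]
  have hfix : ∀ {r : Nat.Primes} {y : Semi r}, y ∈ fixSub (A := Semi r) H →
      ∑ i ∈ Finset.range p, s ^ i • y = p • y := fun hy => by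
    rw [Finset.sum_congr rfl fun i _ => hy _ (pow_mem hs i), Finset.sum_const, Finset.card_range]
  have hbg : ∀ (r : Nat.Primes) (g : GQ),
      emb r (g (β ^ p)) = sval (comp r (principal b)) g := fun r g => by
    rw [sval_principal, hβ]
  have hout : ∀ r ∉ T, ∃ y ∈ semiUnit r ⊓ fixSub (A := Semi r) (H ⊓ stabRoot β),
      ∑ i ∈ Finset.range p, s ^ i • y = comp r z := by
    intro r hr
    have hrS : r ∉ D.S := fun h => hr (hST h)
    refine cb.exists_norm_unit hs hsP hp2 (fun h => hrS ?_) hroot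
      (fun g => ⟨comp r (principal b), ⟨hb.1 r hr, comp_mem_fixSub (principal_mem_fixSub hb.2) r⟩,
        0, zero_mem _, by rw [sval_zero, one_pow, mul_one, hbg]⟩)
      ⟨hzu r hrS, comp_mem_fixSub hzf r⟩
    rw [show r = ⟨p, hp.out⟩ from Subtype.ext h]
    exact D.p_mem
  have hloc : ∀ r, ∃ y ∈ fixSub (A := Semi r) (H ⊓ stabRoot β),
      ∑ i ∈ Finset.range p, s ^ i • y = comp r z := by
    intro r
    by_cases hrS : r ∈ D.S
    · obtain ⟨y, hy, hye⟩ := hbS r hrS
      obtain ⟨u, hu, -, hue⟩ := cb.exists_norm_pow hs hsP hroot (fun g => ⟨y, hy, by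
        rw [hbg, ← hye, sval_nsmul]⟩) (comp_mem_fixSub hzf r)
      exact ⟨u, hu, hue⟩
    by_cases hrT : r ∈ T
    · obtain ⟨j, rfl⟩ := hT r hrT hrS
      refine cb.exists_norm_of_places hs hsP (S := fixSub (A := Semi (D.q j)) (H ⊓ stabRoot β))
        fun g => ?_
      by_cases hg : DoubleCoset.mk (dec (D.q j)) H g = DoubleCoset.mk (dec (D.q j)) H (D.g j)
      · obtain ⟨y, hy, hye⟩ := hzg j
        have hyo := onPlace_mem_fixSub L' cb.hLH le_rfl (DoubleCoset.mk (dec (D.q j)) H (D.g j)) hy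
        refine ⟨onPlace L' cb.hLH (DoubleCoset.mk (dec (D.q j)) H (D.g j)) y,
          fun t ht => hyo t (cb.hP.le ht), ?_⟩
        rw [hfix hyo, hg, ← map_nsmul]
        exact onPlace_congr L' cb.hLH (nsmul_mem hy p) (comp_mem_fixSub hzf _)
          (by rw [sval_nsmul, hye])
      · obtain ⟨y, hy, hye⟩ := hbQ j g hg
        exact cb.exists_norm_divisible hs hsP hp2 (hqp j) hroot hy (by rw [hbg]; exact hye)
          (comp_mem_fixSub hzf _) (zero_mem _)
          (by rw [sval_zero, norm_one, one_pow]; exact hzu _ (D.q_notMem j) g)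
    · obtain ⟨y, hy, hye⟩ := hout r hrT
      exact ⟨y, hy.2, hye⟩
  obtain ⟨u, hu, hue⟩ := cb.exists_norm_class hs hsP hloc (Q := T) hout
  refine hne u hu ?_
  rw [hue, hz, map_sub, map_sub, toCl_eq_zero_iff.2 ⟨a₀, rfl⟩, toCl_eq_zero_iff.2 ⟨C, rfl⟩,
    sub_zero, sub_zero]

/-- Bound on a Tate quotient by the index of a subgroup mapping to norms. -/
lemma card_tate_le {A J : Type*} [AddCommGroup A] [DistribMulAction GQ A] [AddCommGroup J] {s : GQ}
    {S : AddSubgroup A} {hS : ∀ a ∈ S, s • a ∈ S} {n : ℕ} (ι : J →+ A) (hmem : ∀ x, ι x ∈ S)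
    (hfix : ∀ x, s • ι x = ι x) (hsurj : ∀ a ∈ S, s • a = a → ∃ x, ι x = a) (E : AddSubgroup J)
    (hE : ∀ x ∈ E, ∃ b ∈ S, ∑ i ∈ Finset.range n, s ^ i • b = ι x) (hind : E.index ≠ 0) :
    Nat.card (TateQuot (sigmaSub (subAct s S hS)) (sigmaNorm (subAct s S hS) n)) ≤ E.index := by
  let ι₀ : J →+ (sigmaSub (subAct s S hS)).ker :=
    AddMonoidHom.mk' (fun x => ⟨⟨ι x, hmem x⟩, Subtype.ext (sub_eq_zero.2 (hfix x))⟩)
      fun x y => Subtype.ext (Subtype.ext (map_add ι x y))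
  let ψ : J →+ TateQuot (sigmaSub (subAct s S hS)) (sigmaNorm (subAct s S hS) n) :=
    (QuotientAddGroup.mk' _).comp ι₀
  have hψ : Function.Surjective ψ := fun y => by
    obtain ⟨⟨⟨u, hu⟩, hu'⟩, rfl⟩ := QuotientAddGroup.mk_surjective y
    obtain ⟨x, hx⟩ := hsurj u hu (sub_eq_zero.1 (congrArg Subtype.val hu'))
    exact ⟨x, congrArg QuotientAddGroup.mk (Subtype.ext (Subtype.ext hx))⟩
  have hle : E ≤ ψ.ker := fun x hx => by
    obtain ⟨b, hb, hbx⟩ := hE x hx
    exact (QuotientAddGroup.eq_zero_iff _).2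
      ⟨⟨b, hb⟩, Subtype.ext ((coe_sigmaNorm_subAct s S hS n _).trans hbx)⟩
  rw [show Nat.card (TateQuot (sigmaSub (subAct s S hS)) (sigmaNorm (subAct s S hS) n))
      = ψ.ker.index by
    rw [AddSubgroup.index_ker, AddMonoidHom.range_eq_top.2 hψ, AddSubgroup.card_top]]
  exact Nat.le_of_dvd (Nat.pos_of_ne_zero hind) (AddSubgroup.index_dvd_of_le hle)

namespace CStep

variable {p : ℕ} [hp : Fact p.Prime] {L : Level} {H P : Subgroup GQ} (c : CStep p L H P)
  {s : GQ} (hs : s ∈ H) (hsP : s ∉ P)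

include c hs hsP

-- the counting combines many finite quotients, whose instances are slow to infer
set_option maxHeartbeats 1000000 in
/-- The second inequality. -/
theorem card_tate0_le (hp2 : p ≠ 2) :
    Nat.card (TateQuot (sigmaSub (subAct s _ (c.smul_mem_fixCl hs hsP)))
      (sigmaNorm (subAct s _ (c.smul_mem_fixCl hs hsP)) p)) ≤ p := by
  classical
  obtain ⟨α, hα⟩ := c.exists_isKummerRoot
  obtain ⟨D⟩ := c.exists_secondData hp2 hα
  let := D.fintype
  have hqp : ∀ j, (D.q j : ℕ) ≠ p := fun j h => D.q_notMem j (by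
    rw [show D.q j = ⟨p, hp.out⟩ from Subtype.ext h]; exact D.p_mem)
  set Q := Finset.univ.image D.q
  set T := D.S ∪ Q
  set J := sIdele T ⊓ fixSub (A := Idele) H
  choose K hK0 hKle hKprop using fun j : {i // i ≠ D.i₁} =>
    exists_valSub L c.hLH hp.out.pos (D.q j) (DoubleCoset.mk (dec (D.q j)) H (D.g j))
  let at_ : ∀ r : Nat.Primes, J →+ ↥(fixSub (A := Semi r) H) := fun r =>
    ((comp r).comp J.subtype).codRestrict _ fun x => comp_mem_fixSub x.2.2 r
  let Φ₁ : J →+ ∀ r : D.S, ↥(fixSub (A := Semi r.1) H) ⧸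
      (nsmulAddMonoidHom p : _ →+ ↥(fixSub (A := Semi r.1) H)).range :=
    AddMonoidHom.pi fun r => (QuotientAddGroup.mk' _).comp (at_ r.1)
  let Φ₂ : J →+ ∀ j : {i // i ≠ D.i₁}, ↥(fixSub (A := Semi (D.q j)) H) ⧸ K j :=
    AddMonoidHom.pi fun j => (QuotientAddGroup.mk' _).comp (at_ (D.q j))
  let Φ := Φ₁.prod Φ₂
  have hE₁ : ∀ x ∈ Φ.ker, ∀ r ∈ D.S, ∃ y ∈ fixSub (A := Semi r) H, p • y = comp r x.1 := by
    intro x hx r hr
    have h := congrFun (congrArg Prod.fst (AddMonoidHom.mem_ker.1 hx)) ⟨r, hr⟩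
    replace h : (QuotientAddGroup.mk (at_ r x) : ↥(fixSub (A := Semi r) H) ⧸
      (nsmulAddMonoidHom p : _ →+ ↥(fixSub (A := Semi r) H)).range) = 0 := h
    obtain ⟨y, hy⟩ := (QuotientAddGroup.eq_zero_iff _).1 h
    exact ⟨y.1, y.2, congrArg Subtype.val hy⟩
  have hE₂ : ∀ x ∈ Φ.ker, ∀ j, ∀ g : GQ,
      DoubleCoset.mk (dec (D.q j)) H g ≠ DoubleCoset.mk (dec (D.q j)) H (D.g j) →
      ∃ y ∈ fixSub (A := Semi (D.q j)) H, ‖sval (comp (D.q j) x.1) g‖ = ‖sval y g‖ ^ p := by
    intro x hx j g hg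
    have h := congrFun (congrArg Prod.snd (AddMonoidHom.mem_ker.1 hx)) j
    replace h : (QuotientAddGroup.mk (at_ (D.q j) x) :
      ↥(fixSub (A := Semi (D.q j)) H) ⧸ K j) = 0 := h
    exact hKprop j (at_ (D.q j) x) ((QuotientAddGroup.eq_zero_iff _).1 h) g hg
  -- the ideles of the kernel are norms
  have hnormE : ∀ x ∈ Φ.ker, ∃ y ∈ fixSub (A := Cl) P,
      ∑ i ∈ Finset.range p, s ^ i • y = toCl x.1 := by
    intro x hx
    have hA : p • toQMul α hα.ne = p • D.A D.i₁ :=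
      congrArg (p • ·) (qmul_ext (D.qval_A₁.symm))
    have hout : ∀ r ∉ T, ∃ y ∈ semiUnit r ⊓ fixSub (A := Semi r) P,
        ∑ i ∈ Finset.range p, s ^ i • y = comp r x.1 := by
      intro r hr
      have hrS : r ∉ D.S := fun h => hr (Finset.mem_union_left _ h)
      refine c.exists_norm_unit hs hsP hp2 (fun h => hrS ?_) hα
        (fun g => ⟨comp r (principal (p • D.A D.i₁)), ⟨(D.mem_sUnit _).1 r hrS,
          comp_mem_fixSub (principal_mem_fixSub (D.mem_sUnit _).2) r⟩, 0, zero_mem _,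
          by rw [sval_zero, one_pow, mul_one, sval_principal, ← hA, qval_nsmul, qval_toQMul]⟩)
        ⟨x.2.1 r hr, comp_mem_fixSub x.2.2 r⟩
      rw [show r = ⟨p, hp.out⟩ from Subtype.ext h]
      exact D.p_mem
    refine c.exists_norm_class hs hsP (fun r => ?_) (Q := T) hout
    by_cases hrS : r ∈ D.S
    · obtain ⟨y, hy, hye⟩ := hE₁ x hx r hrS
      refine ⟨y, fun t ht => hy t (c.hP.le ht), ?_⟩
      rw [← hye, Finset.sum_congr rfl fun i _ => hy _ (pow_mem hs i), Finset.sum_const,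
        Finset.card_range]
    by_cases hrT : r ∈ T
    · obtain ⟨j, -, rfl⟩ := Finset.mem_image.1 ((Finset.mem_union.1 hrT).resolve_left hrS)
      refine c.exists_norm_of_places hs hsP (S := fixSub (A := Semi (D.q j)) P) fun g => ?_
      have ha : ∀ g' : GQ, emb (D.q j) (g' (α ^ p))
          = sval (comp (D.q j) (principal (p • D.A D.i₁))) g' := fun g' => by
        rw [sval_principal, ← hA, qval_nsmul, qval_toQMul]
      by_cases hg : DoubleCoset.mk (dec (D.q j)) H g = DoubleCoset.mk (dec (D.q j)) H (D.g j)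
      · obtain ⟨y, hy, hye⟩ := D.pow j D.i₁ (fun h => j.2 h.symm)
        have hsplit : SplitsAt H P (D.q j) (D.g j) :=
          c.splitAt_of_pow hα hy (by rw [hye, ha])
        obtain ⟨u, hu, -, hue⟩ := c.exists_norm_split hs hsP hsplit (comp_mem_fixSub x.2.2 (D.q j))
        exact ⟨u, hu, by rw [hue, hg]⟩
      · obtain ⟨y, hy, hye⟩ := hE₂ x hx j g hg
        exact c.exists_norm_divisible hs hsP hp2 (hqp j) hα (zero_mem _)
          (by rw [sval_zero, norm_one, one_pow, ha]; exact (D.mem_sUnit _).1 _ (D.q_notMem j) g)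
          (comp_mem_fixSub x.2.2 _) hy hye
    · obtain ⟨y, hy, hye⟩ := hout r hrT
      exact ⟨y, hy.2, hye⟩
  let ι : J →+ Cl := toCl.comp J.subtype
  set U := sUnit T ⊓ fixSub (A := QMul) H with hUdef
  let prin : ↥U →+ J :=
    (principal.comp U.subtype).codRestrict _ fun a => ⟨a.2.1, principal_mem_fixSub a.2.2⟩
  have hib : ∀ b, ((prin b : J) : Idele) = principal b.1 := fun _ => rfl
  have hmem : ∀ x : J, ι x ∈ fixSub (A := Cl) P := fun x t ht => by
    show t • toCl x.1 = toCl x.1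
    rw [smul_toCl, x.2.2 t (c.hP.le ht)]
  have hfixs : ∀ x : J, s • ι x = ι x := fun x => by
    show s • toCl x.1 = toCl x.1
    rw [smul_toCl, x.2.2 s hs]
  have hsurj : ∀ u ∈ fixSub (A := Cl) P, s • u = u → ∃ x, ι x = u := fun u hu hsu => by
    obtain ⟨x, hx, hxu⟩ := exists_fix_toCl_eq L c.hLH (c.mem_fixSub_of_gen hs hsP hu hsu)
    obtain ⟨a, ha, hxa⟩ := D.class_mem x hx
    refine ⟨⟨x - principal a, fun r hr => hxa r fun h => hr (Finset.mem_union_left _ h),
      (fixSub (A := Idele) H).sub_mem hx (principal_mem_fixSub ha)⟩, ?_⟩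
    show toCl (x - principal a) = u
    rw [map_sub, toCl_eq_zero_iff.2 ⟨a, rfl⟩, sub_zero, hxu]
  have hker : ∀ x ∈ Φ.ker ⊔ prin.range, ∃ b ∈ fixSub (A := Cl) P,
      ∑ k ∈ Finset.range p, s ^ k • b = ι x := by
    intro x hx
    obtain ⟨e, he, _, ⟨a, rfl⟩, rfl⟩ := AddSubgroup.mem_sup.1 hx
    obtain ⟨y, hy, hye⟩ := hnormE e he
    refine ⟨y, hy, ?_⟩
    have he : ι (e + prin a) = toCl e.1 + toCl ((prin a : J) : Idele) := map_add ι e (prin a)
    rw [he, hib a, toCl_eq_zero_iff.2 ⟨a.1, rfl⟩]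
    rw [hye]
    exact (add_zero (toCl e.1)).symm
  -- counting
  have hcomap : Φ.ker.comap prin ≤ (nsmulAddMonoidHom p : U →+ U).range := by
    intro b hb
    have hbS := hE₁ _ (AddSubgroup.mem_comap.1 hb)
    have hbQ := hE₂ _ (AddSubgroup.mem_comap.1 hb)
    simp only [hib] at hbS hbQ
    have hTq : ∀ r ∈ T, r ∉ D.S → ∃ j, D.q j = r := fun r hr hrS => by
      obtain ⟨j, -, hj⟩ := Finset.mem_image.1 ((Finset.mem_union.1 hr).resolve_left hrS)
      exact ⟨j, hj⟩
    obtain ⟨B, hB, hBb⟩ := D.exists_root_mem hp2 c.hLH c.mu Finset.subset_union_left hTq b.2 hbS hbQ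
    exact ⟨⟨B, hB⟩, Subtype.ext hBb⟩
  obtain ⟨ζ, hζ⟩ := exists_primitiveRoot p
  obtain ⟨-, -, hU⟩ := sUnit_structure L c.hLH hp.out hp2 hζ
    (fun u hu => c.mu u hu ζ hζ.pow_eq_one) T
  have hdisj : Disjoint D.S Q := Finset.disjoint_right.2 fun r hr hrS => by
    obtain ⟨j, -, rfl⟩ := Finset.mem_image.1 hr
    exact D.q_notMem j hrS
  set tQ := ∑ j, Nat.card (Places (D.q j) H) with htQ
  set d := Fintype.card D.ι
  have hsum : ∑ r ∈ T, Nat.card (Places r H) = ∑ r ∈ D.S, Nat.card (Places r H) + tQ := by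
    rw [Finset.sum_union hdisj, Finset.sum_image (fun a _ b _ h => D.q_inj h)]
  have hd := D.card_ι
  have hUindex : (nsmulAddMonoidHom p : U →+ U).range.index = p ^ (d + tQ) := by
    refine Nat.pow_left_injective two_ne_zero ?_
    show (nsmulAddMonoidHom p : U →+ U).range.index ^ 2 = (p ^ (d + tQ)) ^ 2
    rw [AddSubgroup.index, hU, ← pow_mul, hsum]
    congr 1
    omega
  have hF₁ : ∀ r : D.S, Finite (↥(fixSub (A := Semi r.1) H) ⧸
      (nsmulAddMonoidHom p : _ →+ ↥(fixSub (A := Semi r.1) H)).range) := fun r =>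
    Nat.finite_of_card_ne_zero
      ((card_quot_nsmul_semi c.hLH c.mu r.1).symm ▸ pow_ne_zero _ hp.out.ne_zero)
  have hF₂ : ∀ j, Finite (↥(fixSub (A := Semi (D.q j)) H) ⧸ K j) := fun j =>
    Nat.finite_of_card_ne_zero (hK0 j)
  have hfirst : ∏ r : D.S, Nat.card (↥(fixSub (A := Semi r.1) H) ⧸
      (nsmulAddMonoidHom p : _ →+ ↥(fixSub (A := Semi r.1) H)).range) = p ^ (2 * d) := by
    rw [Finset.prod_congr rfl fun r _ => card_quot_nsmul_semi c.hLH c.mu r.1,
      Finset.prod_pow_eq_pow_sum]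
    congr 1
    have hite : ∑ r ∈ D.S, (if (r : ℕ) = p then H.index else 0) = H.index := by
      refine (Finset.sum_eq_single (⟨p, hp.out⟩ : Nat.Primes) (fun r _ hr => if_neg fun h => hr
        (Subtype.ext h)) (fun h => absurd D.p_mem h)).trans (if_pos rfl)
    rw [Finset.sum_coe_sort D.S
      (fun r : Nat.Primes => 2 * Nat.card (Places r H) + if (r : ℕ) = p then H.index else 0),
      Finset.sum_add_distrib, ← Finset.mul_sum, hite]
    omega
  have hsecond : (∏ j, (K j).index) * p ^ Fintype.card {i // i ≠ D.i₁} ≤ p ^ tQ := by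
    rw [← Finset.card_univ, ← Finset.prod_const, ← Finset.prod_mul_distrib,
      ← Finset.prod_pow_eq_pow_sum]
    exact Finset.prod_le_prod' fun j _ => hKle j
  have hE : Φ.ker.index * p ^ Fintype.card {i // i ≠ D.i₁} ≤ p ^ (2 * d) * p ^ tQ := by
    rw [AddSubgroup.index_ker]
    refine le_trans (Nat.mul_le_mul_right _ (Finite.card_subtype_le _)) ?_
    rw [Nat.card_prod, Nat.card_pi, Nat.card_pi, hfirst, mul_assoc]
    exact Nat.mul_le_mul_left _ hsecond
  have hEne : Φ.ker.index ≠ 0 := by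
    rw [AddSubgroup.index_ker]
    exact Nat.card_pos.ne'
  have hsplit := index_sup_mul_le Φ.ker prin.range
  rw [← AddSubgroup.index_comap] at hsplit
  have hlow : p ^ (d + tQ) ≤ (Φ.ker.comap prin).index := by
    rw [← hUindex]
    exact Nat.le_of_dvd (Nat.pos_of_ne_zero fun h => hEne (by rw [← hsplit, h, mul_zero]))
      (AddSubgroup.index_dvd_of_le hcomap)
  have hd1 : Fintype.card {i // i ≠ D.i₁} + 1 = d := by
    rw [Fintype.card_subtype_compl, Fintype.card_subtype_eq]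
    have := Fintype.card_pos_iff.2 ⟨D.i₁⟩
    omega
  have key : (Φ.ker ⊔ prin.range).index * p ^ (d + tQ + Fintype.card {i // i ≠ D.i₁})
      ≤ p * p ^ (d + tQ + Fintype.card {i // i ≠ D.i₁}) := by
    rw [← pow_succ', pow_add, ← mul_assoc]
    refine le_trans ?_ (hE.trans_eq ?_)
    · exact Nat.mul_le_mul_right _ ((Nat.mul_le_mul_left _ hlow).trans_eq hsplit)
    · rw [← pow_add]; congr 1; omega
  refine (card_tate_le ι hmem hfixs hsurj _ hker fun h => hEne ?_).trans
    (Nat.le_of_mul_le_mul_right key (pow_pos hp.out.pos _))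
  rw [← hsplit, h, zero_mul]

/-- Both inequalities: `#Ĥ⁰ = p` and `H¹ = 0`. -/
theorem tate_cl_eq (hp2 : p ≠ 2) :
    Nat.card (TateQuot (sigmaSub (subAct s _ (c.smul_mem_fixCl hs hsP)))
      (sigmaNorm (subAct s _ (c.smul_mem_fixCl hs hsP)) p)) = p ∧
    Subsingleton (TateQuot (sigmaNorm (subAct s _ (c.smul_mem_fixCl hs hsP)) p)
      (sigmaSub (subAct s _ (c.smul_mem_fixCl hs hsP)))) := by
  obtain ⟨_, f1, hcard⟩ := c.card_tate_cl hs hsP hp2
  have hle := c.card_tate0_le hs hsP hp2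
  rw [hcard] at hle
  have h1 := le_antisymm (Nat.le_of_mul_le_mul_left (hle.trans_eq (mul_one p).symm) hp.out.pos)
    (Nat.card_pos : 0 < Nat.card (TateQuot (sigmaNorm (subAct s _ (c.smul_mem_fixCl hs hsP)) p)
      (sigmaSub (subAct s _ (c.smul_mem_fixCl hs hsP)))))
  exact ⟨by rw [hcard, h1, mul_one], (Nat.card_eq_one_iff_unique.1 h1).1⟩

end CStep

end FLTAgent.Global
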