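import Fermat.Agent.Global.Fund.Global
import Fermat.Agent.Global.CFT.SecondIneq

/-!
The norm group of the maximal Kummer extension of exponent `p` with given ramification.
-/

set_option autoImplicit false
set_option linter.unusedSectionVars false
set_option synthInstance.maxHeartbeats 400000

noncomputable section

namespace FLTAgent.Global

section classModule

variable {Γ : Type*} [Group Γ] {A : Type*} [AddCommGroup A] [DistribMulAction Γ A]
variable {p : ℕ} [Fact p.Prime] {H N : Subgroup Γ} {u : Γ → Γ → A}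

/-- Invariant norms from `N`, inside the invariants of `H`. -/
def normRange (hN : Lvl H N) : AddSubgroup (↥(fixSub (A := A) H)) :=
  (AddMonoidHom.mk' (fun y : ↥(fixSub (A := A) N) => (⟨normTo H N y.1,
      fun g hg => smul_normTo_of_lvl hN y.2 hg⟩ : ↥(fixSub (A := A) H)))
    fun y z => Subtype.ext (normTo_add hN y.1 z.1)).range

lemma mem_normRange {hN : Lvl H N} {c : ↥(fixSub (A := A) H)} :
    c ∈ normRange hN ↔ ∃ y ∈ fixSub (A := A) N, normTo H N y = c.1 :=
  ⟨fun ⟨y, h⟩ => ⟨y.1, y.2, congrArg Subtype.val h⟩, fun ⟨y, hy, h⟩ => ⟨⟨y, hy⟩, Subtype.ext h⟩⟩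

namespace ClassModule

variable (hC : ClassModule p H N u)

include hC

omit [Fact p.Prime] in
/-- The sums `∑_g u(g,t)` are multiplicative in `t` up to norms. -/
lemma sum_u_mul {t t' : Γ} (ht : t ∈ H) (ht' : t' ∈ H) :
    csum H N (fun g => u g (t * t'))
      = csum H N (fun g => u g t) + csum H N (fun g => u g t') - normTo H N (u t t') := by
  have hN := hC.lvl
  have e : csum H N (fun g => u g (t * t'))
      = csum H N (fun g => (u (g * t) t' - g • u t t') + u g t) := csum_congr H N fun g hg => by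
    have := hC.z2.2 g hg t ht t' ht'
    rw [← sub_eq_zero]
    calc u g (t * t') - (u (g * t) t' - g • u t t' + u g t)
        = g • u t t' - u (g * t) t' + u g (t * t') - u g t := by abel
      _ = 0 := this
  rw [e, csum_add H N hN.fin, csum_sub hN,
    csum_mul_right hN (F := fun g => u g t') (fun g hg s hs => hC.z2.left_lvl hg ht' hs) ht, normTo]
  abel

/-- When every nontrivial element of `H/N` is detected by a layer of degree `p`, the invariants
modulo norms have at least `[H:N]` elements, and are killed by `p` if `H/N` has exponent `p`. -/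
theorem card_normQuot
    (hsep : ∀ t ∈ H, t ∉ N → ∃ P, Lvl H P ∧ N ≤ P ∧ P.relIndex H = p ∧ t ∉ P)
    (hexp : ∀ t ∈ H, t ^ p ∈ N) {R : Finset A} (hR : R.card ≤ N.relIndex H)
    (hRs : ∀ c ∈ fixSub (A := A) H, ∃ r ∈ R, ∃ y ∈ fixSub (A := A) N, c = r + normTo H N y) :
    N.relIndex H ≤ (normRange (A := A) hC.lvl).index ∧ (normRange (A := A) hC.lvl).index ≠ 0 ∧
      ∀ c : ↥(fixSub (A := A) H), p • c ∈ normRange hC.lvl := by
  classical
  have hN := hC.lvl
  have := hN.fin
  set M := normRange (A := A) hN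
  let cls : ∀ t : Γ, t ∈ H → ↥(fixSub (A := A) H) ⧸ M := fun t ht =>
    QuotientAddGroup.mk ⟨csum H N fun g => u g t, hC.sum_u_mem ht⟩
  have hmul : ∀ t t' (ht : t ∈ H) (ht' : t' ∈ H),
      cls (t * t') (mul_mem ht ht') = cls t ht + cls t' ht' := fun t t' ht ht' => by
    show (QuotientAddGroup.mk _ : ↥(fixSub (A := A) H) ⧸ M) = QuotientAddGroup.mk (_ + _)
    rw [QuotientAddGroup.eq]
    refine mem_normRange.2 ⟨u t t', hC.z2.apply_mem_fixSub hN ht ht', ?_⟩
    show normTo H N (u t t') = -(csum H N fun g => u g (t * t'))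
      + ((csum H N fun g => u g t) + csum H N fun g => u g t')
    rw [hC.sum_u_mul ht ht']
    abel
  have hcongr : ∀ {a b : Γ} (e : a = b) (ha : a ∈ H), cls a ha = cls b (e ▸ ha) := by
    rintro a b rfl ha; rfl
  have h1 : cls 1 H.one_mem = 0 := by
    have h := (hcongr (one_mul (1 : Γ)) (mul_mem H.one_mem H.one_mem)).symm.trans
      (hmul 1 1 H.one_mem H.one_mem)
    exact left_eq_add.1 h
  have hNz : ∀ n (hn : n ∈ N), cls n (hN.le hn) = 0 := fun n hn => by
    rw [← h1]
    refine congrArg QuotientAddGroup.mk (Subtype.ext ?_)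
    show csum H N (fun g => u g n) = csum H N (fun g => u g 1)
    refine csum_congr H N fun g hg => ?_
    have := hC.z2.right_lvl hg H.one_mem hn
    rwa [one_mul] at this
  have hnz : ∀ t (ht : t ∈ H), cls t ht = 0 → t ∈ N := by
    intro t ht h0
    by_contra htN
    obtain ⟨P, hP, hNP, hPi, htP⟩ := hsep t ht htN
    obtain ⟨y, hy, hye⟩ := mem_normRange.1 ((QuotientAddGroup.eq_zero_iff _).1 h0)
    refine hC.sum_u_not_norm hP hNP hPi ht htP (b := normTo P N y)
      (fun g hg => smul_normTo_of_lvl (hN.sub_left hP.le hNP) hy hg) ?_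
    rw [normTo_trans hP.le hNP hN.fin hy]
    exact hye.symm
  let f : ↥H ⧸ N.subgroupOf H → ↥(fixSub (A := A) H) ⧸ M := fun q => cls q.out q.out.2
  have hinj : Function.Injective f := by
    intro q q' h
    rw [← QuotientGroup.out_eq' q, ← QuotientGroup.out_eq' q', QuotientGroup.eq,
      Subgroup.mem_subgroupOf]
    set a := (q.out : Γ)
    set b := (q'.out : Γ)
    show a⁻¹ * b ∈ N
    refine hnz _ (mul_mem (inv_mem q.out.2) q'.out.2) ?_
    have e := (hcongr (mul_inv_cancel_left a b)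
      (mul_mem q.out.2 (mul_mem (inv_mem q.out.2) q'.out.2))).symm.trans
        (hmul a (a⁻¹ * b) q.out.2 (mul_mem (inv_mem q.out.2) q'.out.2))
    exact add_eq_left.1 (e.symm.trans h.symm)
  let g : R → ↥(fixSub (A := A) H) ⧸ M := fun r =>
    if hr : r.1 ∈ fixSub (A := A) H then QuotientAddGroup.mk ⟨r.1, hr⟩ else 0
  have hsurj : Function.Surjective g := by
    intro x
    obtain ⟨c, rfl⟩ := QuotientAddGroup.mk_surjective x
    obtain ⟨r, hr, y, hy, e⟩ := hRs c.1 c.2
    have hrf : r ∈ fixSub (A := A) H := by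
      rw [show r = c.1 - normTo H N y by rw [e, add_sub_cancel_right]]
      exact sub_mem c.2 fun k hk => smul_normTo_of_lvl hN hy hk
    refine ⟨⟨r, hr⟩, ?_⟩
    simp only [g, dif_pos hrf]
    rw [QuotientAddGroup.eq]
    refine mem_normRange.2 ⟨y, hy, ?_⟩
    show normTo H N y = -r + c.1
    rw [e, neg_add_cancel_left]
  have hfin : Finite (↥(fixSub (A := A) H) ⧸ M) := Finite.of_surjective g hsurj
  have hle : Nat.card (↥(fixSub (A := A) H) ⧸ M) ≤ N.relIndex H :=
    ((Nat.card_le_card_of_surjective g hsurj).trans_eq (Nat.card_eq_finsetCard R)).trans hR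
  have hge : N.relIndex H ≤ Nat.card (↥(fixSub (A := A) H) ⧸ M) :=
    Nat.card_le_card_of_injective f hinj
  have hbij := (Function.Injective.bijective_of_nat_card_le hinj hle)
  refine ⟨hge, Nat.card_pos.ne', fun c => ?_⟩
  obtain ⟨q, hq⟩ := hbij.2 (QuotientAddGroup.mk c)
  rw [← QuotientAddGroup.eq_zero_iff, QuotientAddGroup.mk_nsmul, ← hq]
  have hpow : ∀ (t : Γ) (ht : t ∈ H) (n : ℕ), cls (t ^ n) (pow_mem ht n) = n • cls t ht := by
    intro t ht n
    induction n with
    | zero =>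
      rw [zero_nsmul]
      exact (hcongr (pow_zero t) (pow_mem ht 0)).trans h1
    | succ n ih =>
      rw [succ_nsmul, ← ih]
      exact (hcongr (pow_succ t n) (pow_mem ht (n + 1))).trans (hmul _ t (pow_mem ht n) ht)
  show p • cls q.out q.out.2 = 0
  rw [← hpow q.out q.out.2 p]
  exact hNz _ (hexp _ q.out.2)

end ClassModule

end classModule

variable {p : ℕ} [hp : Fact p.Prime]

/-- The fundamental class makes the classes of a `p`-group layer a class module. -/
theorem exists_classModule_layer (hp2 : p ≠ 2) (L : Level) {H : Subgroup GQ} (hH : L.grp ≤ H)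
    (hμ : FixesMu p L.grp) {a : ℕ} (ha : L.grp.relIndex H = p ^ a) :
    ∃ u : GQ → GQ → Cl, ClassModule p H L.grp u := by
  obtain ⟨u, hu, hord⟩ := exists_fundamental hp2 L hμ
  have := L.grp_normal
  have := L.finite_quotient
  let π := QuotientGroup.mk' L.grp
  have hker : ∀ {S : Subgroup (GQ ⧸ L.grp)}, L.grp ≤ S.comap π := fun {S} x hx => by
    show (QuotientGroup.mk x : GQ ⧸ L.grp) ∈ S
    rw [(QuotientGroup.eq_one_iff x).2 hx]
    exact S.one_mem
  have hrel : ∀ S : Subgroup (GQ ⧸ L.grp), L.grp.relIndex (S.comap π) = Nat.card S := fun S => by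
    have h := Subgroup.relIndex_mul_index (hker (S := S))
    rw [Subgroup.index_comap_of_surjective S (QuotientGroup.mk'_surjective _),
      show L.grp.index = Nat.card (GQ ⧸ L.grp) from rfl, ← S.card_mul_index] at h
    exact Nat.eq_of_mul_eq_mul_right (Nat.pos_of_ne_zero Subgroup.index_ne_zero_of_finite) h
  have hcomap : (H.map π).comap π = H := by
    rw [Subgroup.comap_map_eq, QuotientGroup.ker_mk', sup_eq_left.2 hH]
  have hpg : IsPGroup p (H.map π) := IsPGroup.of_card (n := a) (by rw [← hrel, hcomap, ha])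
  obtain ⟨S, hS⟩ := hpg.exists_le_sylow
  set P := (S : Subgroup (GQ ⧸ L.grp)).comap π with hPdef
  obtain ⟨s, hs⟩ := S.2.exists_card_eq
  have hPs : L.grp.relIndex P = p ^ s := (hrel _).trans hs
  have hPi : ¬ p ∣ P.index := by
    rw [hPdef, Subgroup.index_comap_of_surjective _ (QuotientGroup.mk'_surjective _)]
    exact S.not_dvd_index
  have hLP : L.grp ≤ P := hker
  have hHP : H ≤ P := hcomap.symm.le.trans (Subgroup.comap_mono hS)
  have hlvl : Lvl P L.grp := L.lvl hLP
  have hμP : FixesMu p P := fixesMu_of_relIndex hlvl hμ hPs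
  have hC : ClassModule p P L.grp u := by
    refine ⟨hlvl, ⟨s, hPs⟩, hu.restrict le_top, fun H' P' hP' hH' hl f hf => ?_,
      fun H' P' hP' hH' hl hi => ?_, fun k hk => ?_⟩
    · have h1 := Subgroup.relIndex_mul_relIndex P' H' P hl.le hH'
      have h2 := Subgroup.relIndex_mul_relIndex L.grp P' P hP' (hl.le.trans hH')
      rw [hPs] at h2
      obtain ⟨b, -, hb⟩ := (Nat.dvd_prime_pow hp.out).1
        ((dvd_mul_right (P'.relIndex H') _).trans (h1.symm ▸ Dvd.intro_left _ h2))
      exact isB1_cl hp2 L hl hP' hb (hμP.mono hH') hf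
    · obtain ⟨c₀, hc₀, -, h⟩ := exists_generator_norms_step hp2 L hl hP' hi (hμP.mono hH')
      refine ⟨c₀, hc₀, fun d hd => ?_⟩
      obtain ⟨k, -, y, hy, e⟩ := h d hd
      exact ⟨k, y, hy, by rw [e]; abel⟩
    · rw [hPs]
      exact hord P hLP s hPs hPi k hk
  exact ⟨u, hC.sub hHP hH⟩

/-- A root of unity in the fixed field is fixed. -/
lemma smul_of_nsmul_eq_zero {H : Subgroup GQ} (hμ : FixesMu p H) {z : QMul} (hz : p • z = 0)
    {t : GQ} (ht : t ∈ H) : t • z = z :=
  qmul_ext (by rw [qval_smul]; exact hμ t ht _ (by rw [← qval_nsmul, hz, qval_zero]))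

/-- A `p`-th root of an invariant element is moved by roots of unity. -/
lemma nsmul_smul_sub {H : Subgroup GQ} {B : QMul} (hB : p • B ∈ fixSub (A := QMul) H) {t : GQ}
    (ht : t ∈ H) : p • (t • B - B) = 0 := by
  rw [nsmul_sub, sub_eq_zero]
  exact (map_nsmul (DistribSMul.toAddMonoidHom QMul t) p B).symm.trans (hB t ht)

/-- The field obtained from `K` by adjoining all `p`-th roots of its `T`-units. -/
theorem exists_rootLevel (K : Level) (hμ : FixesMu p K.grp) (hp2 : p ≠ 2) (T : Finset Nat.Primes) :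
    ∃ L : Level, L.grp ≤ K.grp ∧
      ∀ t ∈ K.grp, t ∈ L.grp ↔ ∀ B : QMul, p • B ∈ sUnit T ⊓ fixSub (A := QMul) K.grp → t • B = B := by
  classical
  obtain ⟨ζ, hζ⟩ := exists_primitiveRoot p
  obtain ⟨-, -, hcard⟩ := sUnit_structure K le_rfl hp.out hp2 hζ
    (fun u hu => hμ u hu ζ hζ.pow_eq_one) T
  set U := sUnit T ⊓ fixSub (A := QMul) K.grp
  set Q := (↥U ⧸ (nsmulAddMonoidHom p : U →+ U).range)
  have hfinQ : Finite Q := Nat.finite_of_card_ne_zero fun h => by
    rw [h, zero_pow two_ne_zero] at hcard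
    exact pow_ne_zero _ hp.out.ne_zero hcard.symm
  have hex : ∀ x : Q, ∃ B : QMul, ∃ hB : p • B ∈ U, QuotientAddGroup.mk (⟨p • B, hB⟩ : U) = x := by
    intro x
    obtain ⟨v, rfl⟩ := QuotientAddGroup.mk_surjective x
    obtain ⟨z, hz⟩ := IsAlgClosed.exists_pow_nat_eq (qval v.1) hp.out.pos
    have hz0 : z ≠ 0 := fun h => qval_ne_zero v.1 (by rw [← hz, h, zero_pow hp.out.ne_zero])
    have e : p • toQMul z hz0 = v.1 := qmul_ext (by rw [qval_nsmul, qval_toQMul, hz])
    exact ⟨toQMul z hz0, e ▸ v.2, congrArg QuotientAddGroup.mk (Subtype.ext e)⟩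
  choose B hB hBx using hex
  set F := IntermediateField.adjoin ℚ ((K.fld : Set QQbar) ∪ Set.range fun x => qval (B x)) with hF
  have : FiniteDimensional ℚ F := by
    rw [hF, IntermediateField.adjoin_union, IntermediateField.adjoin_self]
    have := K.fin
    have : FiniteDimensional ℚ
        (IntermediateField.adjoin ℚ (Set.range fun x => qval (B x))) := by
      have : Finite (Set.range fun x => qval (B x)) := Set.finite_range _
      exact IntermediateField.finiteDimensional_adjoin fun x _ => Algebra.IsIntegral.isIntegral x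
    infer_instance
  set M : Level := ⟨IntermediateField.normalClosure ℚ F QQbar, inferInstance,
    @isGalois_iff .. |>.2 ⟨inferInstance, normalClosure.normal ℚ F QQbar⟩⟩
  have hFM : F ≤ M.fld := IntermediateField.le_normalClosure F
  have hfix : ∀ t ∈ M.grp, ∀ x ∈ F, t x = x := fun t ht x hx =>
    (IntermediateField.mem_fixingSubgroup_iff _ _).1 ht x (hFM hx)
  have hsub : ∀ x ∈ (K.fld : Set QQbar) ∪ Set.range (fun x => qval (B x)), x ∈ F := fun x hx =>
    IntermediateField.subset_adjoin _ _ hx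
  have hMK : M.grp ≤ K.grp := fun t ht =>
    (IntermediateField.mem_fixingSubgroup_iff _ _).2 fun x hx => hfix t ht x (hsub x (Or.inl hx))
  refine ⟨M, hMK, fun t ht => ⟨fun htM A hA => ?_, fun h => ?_⟩⟩
  · set x : Q := QuotientAddGroup.mk (⟨p • A, hA⟩ : U)
    obtain ⟨v, hv⟩ := QuotientAddGroup.eq.1 (hBx x)
    have hz : p • (A - B x - v.1) = 0 := by
      rw [nsmul_sub, nsmul_sub, show p • v.1 = -(p • B x) + p • A from congrArg Subtype.val hv]
      abel
    have e : A = (A - B x - v.1) + (B x + v.1) := by abel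
    rw [e, smul_add, smul_of_nsmul_eq_zero hμ hz ht, smul_add, v.2.2 t ht,
      show t • B x = B x from qmul_ext (by
        rw [qval_smul]; exact hfix t htM _ (hsub _ (Or.inr ⟨x, rfl⟩)))]
  · refine (IntermediateField.mem_fixingSubgroup_iff _ _).2 fun x hx => ?_
    have hle : M.fld ≤ IntermediateField.fixedField (Subgroup.zpowers t) := by
      show IntermediateField.normalClosure ℚ F QQbar ≤ _
      refine normalClosure_le_iff.2 fun f => ?_
      rintro _ ⟨y, rfl⟩
      let g : GQ := AlgEquiv.ofBijective (f.liftNormal QQbar)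
        (AlgHom.normal_bijective ℚ QQbar QQbar _)
      rw [show f.toRingHom y = g (y : QQbar) from (f.liftNormal_commutes QQbar y).symm]
      have hall : F ≤ (IntermediateField.fixedField (Subgroup.zpowers t)).comap
          (g : QQbar →ₐ[ℚ] QQbar) := by
        rw [hF, IntermediateField.adjoin_le_iff]
        rintro z hz ⟨_, n, rfl⟩
        refine MulAction.mem_stabilizer_iff.1
          (Subgroup.zpow_mem (MulAction.stabilizer GQ (g z)) (MulAction.mem_stabilizer_iff.2 ?_) n)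
        show t (g z) = g z
        rcases hz with hz | ⟨x, rfl⟩
        · exact (IntermediateField.mem_fixingSubgroup_iff _ _).1 ht _ (map_mem_fld K g hz)
        · refine congrArg qval (h (g • B x) ?_)
          rw [show p • g • B x = g • (p • B x) from
            (map_nsmul (DistribSMul.toAddMonoidHom QMul g) p (B x)).symm]
          refine ⟨smul_mem_sUnit (hB x).1 g, fun k hk => ?_⟩
          have hk' : g⁻¹ * k * g ∈ K.grp := by
            simpa using K.grp_normal.conj_mem k hk g⁻¹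
          rw [← mul_smul, show k * g = g * (g⁻¹ * k * g) by group, mul_smul, (hB x).2 _ hk']
      exact hall y.2
    exact hle hx ⟨t, Subgroup.mem_zpowers t⟩

/-- A prime not dividing `n` keeps nontrivial `n`-th roots of unity nontrivial on residues. -/
lemma eq_one_of_norm_sub_one_lt {q : Nat.Primes} {n : ℕ} (hn : ¬ (q : ℕ) ∣ n) {w : Kq q}
    (hw : w ^ n = 1) (hlt : ‖w - 1‖ < 1) : w = 1 := by
  by_contra hne
  have hsum : ∑ i ∈ Finset.range n, w ^ i = 0 := by
    have := geom_sum_mul w n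
    rw [hw, sub_self] at this
    exact (mul_eq_zero.1 this).resolve_right (sub_ne_zero.2 hne)
  have hn0 : n ≠ 0 := fun h => hn (h ▸ dvd_zero _)
  have hw1 : ‖w‖ = 1 := (pow_eq_one_iff_of_nonneg (norm_nonneg w) hn0).1 (by
    rw [← norm_pow, hw, norm_one])
  have hterm : ∀ i : ℕ, ‖w ^ i - 1‖ < 1 := fun i => by
    induction i with
    | zero => simp
    | succ i ih =>
      rw [show w ^ (i + 1) - 1 = w ^ i * (w - 1) + (w ^ i - 1) by ring]
      refine lt_of_le_of_lt (IsUltrametricDist.norm_add_le_max _ _) (max_lt ?_ ih)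
      rw [norm_mul, norm_pow, hw1, one_pow, one_mul]
      exact hlt
  have h := norm_natCast_kq_eq_one (q := q) hn
  have e : (n : Kq q) = -∑ i ∈ Finset.range n, (w ^ i - 1) := by
    rw [Finset.sum_sub_distrib, hsum]
    simp
  obtain ⟨i, hi, hle⟩ := IsUltrametricDist.exists_norm_finsetSum_le_of_nonempty
    (Finset.nonempty_range_iff.2 hn0) (fun i => w ^ i - 1)
  rw [e, norm_neg] at h
  exact absurd (h ▸ hle) (not_le.2 (hterm i))

/-- The root level is residually faithful where `K` is unramified and the radicands are units. -/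
theorem resFaithful_rootLevel {K L : Level} (hLK : L.grp ≤ K.grp)
    {T : Finset Nat.Primes}
    (hLiff : ∀ t ∈ K.grp, t ∈ L.grp ↔
      ∀ B : QMul, p • B ∈ sUnit T ⊓ fixSub (A := QMul) K.grp → t • B = B)
    {q : Nat.Primes} (hqp : (q : ℕ) ≠ p) (hqT : q ∉ T) (hq : K.UnrAt q) : ResFaithful L q := by
  intro σ hσ
  obtain ⟨τ, hτ⟩ := exists_lift_locGal σ
  have hKL : K.fld ≤ L.fld := by
    have := L.fin; have := K.fin
    rw [← InfiniteGalois.fixedField_fixingSubgroup K.fld,
      ← InfiniteGalois.fixedField_fixingSubgroup L.fld]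
    exact fun x hx s => hx ⟨s.1, hLK s.2⟩
  have hres : ∀ x ∈ L.fld, ‖emb q x‖ ≤ 1 → ‖emb q (loc q τ x) - emb q x‖ < 1 := fun x hx h => by
    rw [emb_loc, hτ ⟨_, emb_mem_valField hx⟩]
    exact hσ ⟨_, emb_mem_valField hx⟩ h
  -- `loc q τ` fixes `K`
  have hK : loc q τ ∈ K.grp := by
    obtain ⟨τ', hτ'⟩ : ∃ τ' : LocGal K q, ∀ y : valField K q, (τ' y : Kq q) = τ y :=
      ⟨(τ : Kq q →ₐ[ℚ_[(q : ℕ)]] Kq q).restrictNormal (valField K q) |> fun h =>
          AlgEquiv.ofBijective h (Algebra.IsAlgebraic.algHom_bijective h),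
        fun y => AlgHom.restrictNormal_commutes _ (valField K q) y⟩
    have hval : valField K q ≤ valField L q := by
      have := K.fin
      unfold valField
      rw [IntermediateField.adjoin_le_iff]
      rintro _ ⟨i, rfl⟩
      exact emb_mem_valField (hKL (Module.finBasis ℚ K.fld i).2)
    have h1 : τ' = 1 := resFaithful_of_unrAt hq τ' fun y hy => by
      rw [hτ', hτ ⟨y, hval y.2⟩]
      exact hσ ⟨y, hval y.2⟩ hy
    refine (IntermediateField.mem_fixingSubgroup_iff _ _).2 fun x hx => ?_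
    apply (emb q).toRingHom.injective
    show emb q (loc q τ x) = emb q x
    have := hτ' ⟨_, emb_mem_valField hx⟩
    rw [h1] at this
    rw [emb_loc]
    exact this.symm
  have hL : loc q τ ∈ L.grp := by
    refine (hLiff _ hK).2 fun B hB => ?_
    set b := qval B
    have hbu : ‖emb q b‖ = 1 := by
      have h1 : ‖sval (comp q (principal (p • B))) 1‖ = 1 := hB.1 q hqT 1
      rw [sval_principal, qval_nsmul, AlgEquiv.one_apply, map_pow, norm_pow] at h1
      exact (pow_eq_one_iff_of_nonneg (norm_nonneg _) hp.out.ne_zero).1 h1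
    have hbL : b ∈ L.fld := by
      have := L.fin
      rw [← InfiniteGalois.fixedField_fixingSubgroup L.fld]
      intro s
      exact congrArg qval ((hLiff _ (hLK s.2)).1 s.2 B hB)
    have hlt := hres b hbL hbu.le
    set z := qval (loc q τ • B - B) with hz
    have hzb : loc q τ b = z * b := by
      rw [hz, ← qval_add, sub_add_cancel, qval_smul]
    rw [hzb, map_mul, ← sub_one_mul, norm_mul, hbu, mul_one] at hlt
    have h1 : emb q z = 1 := eq_one_of_norm_sub_one_lt
      (fun h => hqp ((Nat.prime_dvd_prime_iff_eq q.2 hp.out).1 h))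
      (by rw [← map_pow, hz, ← qval_nsmul, nsmul_smul_sub hB.2 hK, qval_zero, map_one]) hlt
    refine qmul_ext ?_
    rw [qval_smul, show loc q τ (qval B) = z * b from hzb,
      (emb q).toRingHom.injective (h1.trans (map_one (emb q)).symm), one_mul]
  -- so `τ` fixes the completion
  refine AlgEquiv.ext fun y => Subtype.ext ?_
  rw [← hτ y]
  have hall : valField L q ≤ IntermediateField.fixedField (Subgroup.zpowers τ) := by
    have := L.fin
    conv_lhs => unfold valField
    rw [IntermediateField.adjoin_le_iff]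
    rintro _ ⟨i, rfl⟩ ⟨_, n, rfl⟩
    refine MulAction.mem_stabilizer_iff.1 (Subgroup.zpow_mem (MulAction.stabilizer (Gq q) _)
      (MulAction.mem_stabilizer_iff.2 ?_) n)
    show τ (emb q _) = emb q _
    rw [← emb_loc, (IntermediateField.mem_fixingSubgroup_iff _ _).1 hL _
      (Module.finBasis ℚ L.fld i).2]
  exact hall y.2 ⟨τ, Subgroup.mem_zpowers τ⟩

/-- Kummer theory: the root level has degree at least the number of independent radicands. -/
theorem pow_card_le_relIndex {K L : Level} (hLK : L.grp ≤ K.grp) {ι : Type} [Fintype ι]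
    {A : ι → QMul} (hfix : ∀ i, ∀ t ∈ L.grp, t • A i = A i)
    (hind : ∀ j, ∃ u ∈ K.grp, (∀ i, i ≠ j → u • A i = A i) ∧ u • A j ≠ A j) {a : ℕ}
    (ha : L.grp.relIndex K.grp = p ^ a) : Fintype.card ι ≤ a := by
  classical
  suffices h : ∀ F : Finset ι, ∃ M : Subgroup GQ, L.grp ≤ M ∧ M ≤ K.grp ∧
      (∀ t ∈ K.grp, t ∈ M ↔ ∀ i ∈ F, t • A i = A i) ∧
      ∃ b, b + F.card ≤ a ∧ L.grp.relIndex M = p ^ b by
    obtain ⟨-, -, -, -, b, hb, -⟩ := h Finset.univ
    rw [Finset.card_univ] at hb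
    omega
  intro F
  induction F using Finset.induction_on with
  | empty => exact ⟨K.grp, hLK, le_rfl, by simp, a, by simp, ha⟩
  | insert j F hj ih =>
    obtain ⟨M, hLM, hMK, hM, b, hb, hMb⟩ := ih
    set M' := M ⊓ MulAction.stabilizer GQ (A j)
    have hLM' : L.grp ≤ M' := le_inf hLM fun t ht => hfix j t ht
    refine ⟨M', hLM', inf_le_left.trans hMK, fun t ht => ?_, ?_⟩
    · rw [Finset.forall_mem_insert, ← hM t ht, and_comm]
      rfl
    obtain ⟨u, hu, huA, huj⟩ := hind j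
    have hne : M'.relIndex M ≠ 1 := fun h => huj
      ((Subgroup.relIndex_eq_one.1 h ((hM u hu).2 fun i hi => huA i (ne_of_mem_of_not_mem hi hj))).2)
    have hmul := Subgroup.relIndex_mul_relIndex L.grp M' M hLM' inf_le_left
    rw [hMb] at hmul
    obtain ⟨c, -, hc⟩ := (Nat.dvd_prime_pow hp.out).1 (hmul ▸ dvd_mul_right _ _)
    obtain ⟨d, -, hd⟩ := (Nat.dvd_prime_pow hp.out).1 (hmul ▸ dvd_mul_left _ _)
    rw [hc, hd, ← pow_add] at hmul
    have hcd := Nat.pow_right_injective hp.out.two_le hmul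
    have hd1 : 1 ≤ d := Nat.one_le_iff_ne_zero.2 fun h => hne (by rw [hd, h, pow_zero])
    refine ⟨c, ?_, hc⟩
    rw [Finset.card_insert_of_notMem hj]
    omega

/-- A `T`-unit that is a `p`-th power at every place over `T` is a `p`-th power. -/
theorem exists_root_of_local (hp2 : p ≠ 2) (K : Level) (hμ : FixesMu p K.grp)
    {T : Finset Nat.Primes} (hpT : (⟨p, hp.out⟩ : Nat.Primes) ∈ T)
    (hT : ∀ x ∈ fixSub (A := Idele) K.grp, ∃ a ∈ fixSub (A := QMul) K.grp, x - principal a ∈ sIdele T)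
    {b : QMul} (hb : b ∈ sUnit T ⊓ fixSub (A := QMul) K.grp)
    (hbT : ∀ r ∈ T, ∃ y ∈ fixSub (A := Semi r) K.grp, p • y = comp r (principal b)) :
    ∃ B ∈ sUnit T ⊓ fixSub (A := QMul) K.grp, p • B = b := by
  classical
  obtain ⟨β, hβ⟩ := IsAlgClosed.exists_pow_nat_eq (qval b) hp.out.pos
  have hβ0 : β ≠ 0 := fun h => qval_ne_zero b (by rw [← hβ, h, zero_pow hp.out.ne_zero])
  have hBb : p • toQMul β hβ0 = b := qmul_ext (by rw [qval_nsmul, qval_toQMul, hβ])
  by_cases hBH : β ∈ fixField K.grp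
  · refine ⟨toQMul β hβ0, ⟨fun r hr g => ?_, mem_fixSub_qmul.2 hBH⟩, hBb⟩
    have h1 : ‖sval (comp r (principal b)) g‖ = 1 := hb.1 r hr g
    rw [← hBb, map_nsmul, map_nsmul, sval_nsmul, norm_pow] at h1
    exact (pow_eq_one_iff_of_nonneg (norm_nonneg _) hp.out.ne_zero).1 h1
  exfalso
  have hβp : β ^ p ∈ fixField K.grp := hβ ▸ mem_fixSub_qmul.1 hb.2
  obtain ⟨L', -, -, cb⟩ := exists_cStep_root K le_rfl hμ hβ0 hβp hBH
  have hroot : IsKummerRoot p K.grp (K.grp ⊓ stabRoot β) β :=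
    ⟨hβ0, hβp, fun t ht => ⟨fun h => ⟨ht, h⟩, fun h => h.2⟩⟩
  obtain ⟨s, hs, hsP⟩ := cb.exists_gen
  obtain ⟨c₀, hc₀, hne⟩ := cb.exists_class_not_norm hs hsP hp2
  obtain ⟨x, hx, rfl⟩ := exists_fix_toCl_eq K le_rfl hc₀
  obtain ⟨a₀, ha₀, hx'⟩ := hT x hx
  set z := x - principal a₀ with hz
  have hzf : z ∈ fixSub (A := Idele) K.grp := sub_mem hx (principal_mem_fixSub ha₀)
  have hbg : ∀ (r : Nat.Primes) (g : GQ),
      emb r (g (β ^ p)) = sval (comp r (principal b)) g := fun r g => by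
    rw [sval_principal, hβ]
  have hout : ∀ r ∉ T, ∃ y ∈ semiUnit r ⊓ fixSub (A := Semi r) (K.grp ⊓ stabRoot β),
      ∑ i ∈ Finset.range p, s ^ i • y = comp r z := by
    intro r hr
    refine cb.exists_norm_unit hs hsP hp2 (fun h => hr ?_) hroot
      (fun g => ⟨comp r (principal b), ⟨hb.1 r hr, comp_mem_fixSub (principal_mem_fixSub hb.2) r⟩,
        0, zero_mem _, by rw [sval_zero, one_pow, mul_one, hbg]⟩)
      ⟨hx' r hr, comp_mem_fixSub hzf r⟩
    rw [show r = ⟨p, hp.out⟩ from Subtype.ext h]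
    exact hpT
  have hloc : ∀ r, ∃ y ∈ fixSub (A := Semi r) (K.grp ⊓ stabRoot β),
      ∑ i ∈ Finset.range p, s ^ i • y = comp r z := by
    intro r
    by_cases hr : r ∈ T
    · obtain ⟨y, hy, hye⟩ := hbT r hr
      obtain ⟨u, hu, -, hue⟩ := cb.exists_norm_pow hs hsP hroot (fun g => ⟨y, hy, by
        rw [hbg, ← hye, sval_nsmul]⟩) (comp_mem_fixSub hzf r)
      exact ⟨u, hu, hue⟩
    · obtain ⟨y, hy, hye⟩ := hout r hr
      exact ⟨y, hy.2, hye⟩
  obtain ⟨u, hu, hue⟩ := cb.exists_norm_class hs hsP hloc (Q := T) hout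
  refine hne u hu ?_
  rw [hue, hz, map_sub, toCl_eq_zero_iff.2 ⟨a₀, rfl⟩, sub_zero]

/-- `T`-ideles that are `p`-th powers over `T`: modulo the `T`-units they have index at most the
degree of the root level. -/
theorem exists_powIdele (hp2 : p ≠ 2) (K : Level) (hμ : FixesMu p K.grp)
    {T : Finset Nat.Primes} (hpT : (⟨p, hp.out⟩ : Nat.Primes) ∈ T)
    (hT : ∀ x ∈ fixSub (A := Idele) K.grp, ∃ a ∈ fixSub (A := QMul) K.grp, x - principal a ∈ sIdele T)
    {d : ℕ} (hd : 2 * d = K.grp.index + 2 * ∑ r ∈ T, Nat.card (Places r K.grp)) :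
    ∃ E : AddSubgroup ↥(sIdele T ⊓ fixSub (A := Idele) K.grp), E.index ≠ 0 ∧ E.index ≤ p ^ d ∧
      ∀ x ∈ E, ∃ b ∈ sUnit T ⊓ fixSub (A := QMul) K.grp, ∀ r ∈ T,
        ∃ y ∈ fixSub (A := Semi r) K.grp, p • y = comp r (x.1 - principal b) := by
  classical
  set J := sIdele T ⊓ fixSub (A := Idele) K.grp
  let at_ : ∀ r : Nat.Primes, J →+ ↥(fixSub (A := Semi r) K.grp) := fun r =>
    ((comp r).comp J.subtype).codRestrict _ fun x => comp_mem_fixSub x.2.2 r
  let Φ : J →+ ∀ r : T, ↥(fixSub (A := Semi r.1) K.grp) ⧸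
      (nsmulAddMonoidHom p : _ →+ ↥(fixSub (A := Semi r.1) K.grp)).range :=
    AddMonoidHom.pi fun r => (QuotientAddGroup.mk' _).comp (at_ r.1)
  have hE₁ : ∀ x ∈ Φ.ker, ∀ r ∈ T, ∃ y ∈ fixSub (A := Semi r) K.grp, p • y = comp r x.1 := by
    intro x hx r hr
    have h := congrFun (AddMonoidHom.mem_ker.1 hx) ⟨r, hr⟩
    replace h : (QuotientAddGroup.mk (at_ r x) : ↥(fixSub (A := Semi r) K.grp) ⧸
      (nsmulAddMonoidHom p : _ →+ ↥(fixSub (A := Semi r) K.grp)).range) = 0 := h
    obtain ⟨y, hy⟩ := (QuotientAddGroup.eq_zero_iff _).1 h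
    exact ⟨y.1, y.2, congrArg Subtype.val hy⟩
  set U := sUnit T ⊓ fixSub (A := QMul) K.grp with hUdef
  let prin : ↥U →+ J :=
    (principal.comp U.subtype).codRestrict _ fun a => ⟨a.2.1, principal_mem_fixSub a.2.2⟩
  have hprin : ∀ b, ((prin b : J) : Idele) = principal b.1 := fun _ => rfl
  have hF : ∀ r : T, Finite (↥(fixSub (A := Semi r.1) K.grp) ⧸
      (nsmulAddMonoidHom p : _ →+ ↥(fixSub (A := Semi r.1) K.grp)).range) := fun r =>
    Nat.finite_of_card_ne_zero
      ((card_quot_nsmul_semi le_rfl hμ r.1).symm ▸ pow_ne_zero _ hp.out.ne_zero)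
  have hprod : ∏ r : T, Nat.card (↥(fixSub (A := Semi r.1) K.grp) ⧸
      (nsmulAddMonoidHom p : _ →+ ↥(fixSub (A := Semi r.1) K.grp)).range) = p ^ (2 * d) := by
    rw [Finset.prod_congr rfl fun r _ => card_quot_nsmul_semi le_rfl hμ r.1,
      Finset.prod_pow_eq_pow_sum]
    congr 1
    have hite : ∑ r ∈ T, (if (r : ℕ) = p then K.grp.index else 0) = K.grp.index := by
      refine (Finset.sum_eq_single (⟨p, hp.out⟩ : Nat.Primes) (fun r _ hr => if_neg fun h => hr
        (Subtype.ext h)) (fun h => absurd hpT h)).trans (if_pos rfl)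
    rw [Finset.sum_coe_sort T
      (fun r : Nat.Primes => 2 * Nat.card (Places r K.grp) + if (r : ℕ) = p then K.grp.index else 0),
      Finset.sum_add_distrib, ← Finset.mul_sum, hite]
    omega
  obtain ⟨ζ, hζ⟩ := exists_primitiveRoot p
  obtain ⟨-, -, hU⟩ := sUnit_structure K le_rfl hp.out hp2 hζ
    (fun u hu => hμ u hu ζ hζ.pow_eq_one) T
  have hUindex : (nsmulAddMonoidHom p : U →+ U).range.index = p ^ d := by
    refine Nat.pow_left_injective two_ne_zero ?_
    show (nsmulAddMonoidHom p : U →+ U).range.index ^ 2 = (p ^ d) ^ 2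
    rw [AddSubgroup.index, hU, ← pow_mul]
    congr 1
    omega
  have hker : Φ.ker.index ≤ p ^ (2 * d) := by
    rw [AddSubgroup.index_ker]
    refine (Finite.card_subtype_le _).trans ?_
    rw [Nat.card_pi, hprod]
  have hkne : Φ.ker.index ≠ 0 := by
    rw [AddSubgroup.index_ker]
    exact Nat.card_pos.ne'
  have hcomap : Φ.ker.comap prin ≤ (nsmulAddMonoidHom p : U →+ U).range := by
    intro b hb
    have hbT := hE₁ _ (AddSubgroup.mem_comap.1 hb)
    simp only [hprin] at hbT
    obtain ⟨B, hB, hBb⟩ := exists_root_of_local hp2 K hμ hpT hT b.2 hbT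
    exact ⟨⟨B, hB⟩, Subtype.ext hBb⟩
  have hsplit := index_sup_mul_le Φ.ker prin.range
  rw [← AddSubgroup.index_comap] at hsplit
  have hlow : p ^ d ≤ (Φ.ker.comap prin).index := by
    rw [← hUindex]
    exact Nat.le_of_dvd (Nat.pos_of_ne_zero fun h => hkne (by rw [← hsplit, h, mul_zero]))
      (AddSubgroup.index_dvd_of_le hcomap)
  refine ⟨Φ.ker ⊔ prin.range, fun h => hkne (by rw [← hsplit, h, zero_mul]), ?_, ?_⟩
  · refine Nat.le_of_mul_le_mul_right ?_ (pow_pos hp.out.pos d)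
    rw [← pow_add, ← two_mul]
    exact ((Nat.mul_le_mul_left _ hlow).trans_eq hsplit).trans hker
  · intro x hx
    obtain ⟨e, he, _, ⟨a, rfl⟩, rfl⟩ := AddSubgroup.mem_sup.1 hx
    refine ⟨a.1, a.2, fun r hr => ?_⟩
    have he' : ((e + prin a : J) : Idele) - principal a.1 = e.1 := by
      rw [show ((e + prin a : J) : Idele) = e.1 + ((prin a : J) : Idele) from rfl, hprin,
        add_sub_cancel_right]
    rw [he']
    exact hE₁ e he r hr

/-- A homomorphism on `K` unramified outside `T` vanishes on the root level. -/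
theorem vanish_rootLevel {K L : Level} (hμ : FixesMu p K.grp) {T : Finset Nat.Primes}
    (hT : ∀ x ∈ fixSub (A := Idele) K.grp, ∃ a ∈ fixSub (A := QMul) K.grp, x - principal a ∈ sIdele T)
    (hLK : L.grp ≤ K.grp)
    (hLiff : ∀ t ∈ K.grp, t ∈ L.grp ↔
      ∀ B : QMul, p • B ∈ sUnit T ⊓ fixSub (A := QMul) K.grp → t • B = B)
    {L' : Level} (hunr : ∀ q ∉ T, L'.UnrAt q) (hL'K : L'.grp ≤ K.grp) {f : GQ → ZMod p}
    (hf : ∀ g ∈ K.grp, ∀ h ∈ K.grp, f (g * h) = f g + f h) (hf0 : ∀ s ∈ L'.grp, f s = 0)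
    {t : GQ} (ht : t ∈ L.grp) : f t = 0 := by
  classical
  have hf1 : f 1 = 0 := by
    have := hf 1 K.grp.one_mem 1 K.grp.one_mem
    simpa using this
  by_contra hft
  let φ : K.grp →* Multiplicative (ZMod p) := MonoidHom.mk' (fun g => Multiplicative.ofAdd (f g.1))
    fun g h => congrArg Multiplicative.ofAdd (hf g.1 g.2 h.1 h.2)
  set P := φ.ker.map K.grp.subtype
  have hPmem : ∀ g ∈ K.grp, g ∈ P ↔ f g = 0 := fun g hg => by
    constructor
    · rintro ⟨x, hx, rfl⟩
      exact Multiplicative.ofAdd.injective (hx : φ x = 1)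
    · exact fun h => ⟨⟨g, hg⟩, congrArg Multiplicative.ofAdd h, rfl⟩
  have hPK : P ≤ K.grp := Subgroup.map_subtype_le _
  have hidx : P.relIndex K.grp = p := by
    rw [Subgroup.relIndex, Subgroup.subgroupOf,
      Subgroup.comap_map_eq_self_of_injective K.grp.subtype_injective, Subgroup.index_ker]
    have : Fact (Nat.card (Multiplicative (ZMod p))).Prime := ⟨by
      rw [Nat.card_congr Multiplicative.toAdd, Nat.card_zmod]; exact hp.out⟩
    rcases φ.range.eq_bot_or_eq_top_of_prime_card with h | h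
    · refine absurd ?_ hft
      exact Multiplicative.ofAdd.injective
        (Subgroup.mem_bot.1 (h ▸ ⟨⟨t, hLK ht⟩, rfl⟩ : φ ⟨t, hLK ht⟩ ∈ (⊥ : Subgroup _)))
    · rw [h, Subgroup.card_top, Nat.card_congr Multiplicative.toAdd, Nat.card_zmod]
  have hLP : L'.grp ≤ P := fun g hg => (hPmem g (hL'K hg)).2 (hf0 g hg)
  have hP : Lvl K.grp P := by
    refine ⟨hPK, fun g hg x hx => ?_, (L'.lvl hL'K).fin_quot hPK hLP⟩
    have hxK := hPK hx
    refine (hPmem _ (mul_mem (mul_mem (inv_mem hg) hxK) hg)).2 ?_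
    rw [hf _ (mul_mem (inv_mem hg) hxK) _ hg, hf _ (inv_mem hg) _ hxK, (hPmem x hxK).1 hx,
      add_zero, ← hf _ (inv_mem hg) _ hg, inv_mul_cancel, hf1]
  have c : CStep p L' K.grp P := ⟨hP, hLP, hidx, hμ⟩
  obtain ⟨α, hα⟩ := c.exists_isKummerRoot
  set A := toQMul α hα.ne
  have hpA : p • A ∈ fixSub (A := QMul) K.grp := mem_fixSub_qmul.2 (by
    rw [qval_nsmul, qval_toQMul]
    exact hα.pow_mem)
  have hAL' : A ∈ fixSub (A := QMul) L'.grp := fun g hg =>
    qmul_ext (by rw [qval_smul, qval_toQMul]; exact (hα.iff g (hL'K hg)).2 (hLP hg))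
  have hy : ∀ r ∉ T, ∃ y ∈ fixSub (A := Semi r) K.grp,
      comp r (principal A) - y ∈ semiUnit r := by
    intro r hr
    choose n hn using exists_sval_norm_eq L' r (hunr r hr)
      (comp_mem_fixSub (principal_mem_fixSub hAL') r)
    obtain ⟨y, hy, hyn⟩ := exists_qpow K r (fun g => -n g) (fun τ g => by
        refine neg_inj.2 (qzpow_inj (q := r) ?_)
        rw [← hn, ← hn, sval_loc, norm_gq])
      (fun g k hk => by
        refine neg_inj.2 (qzpow_inj (q := r) ?_)
        rw [← hn, ← hn, ← sval_smul, ← comp_smul, ← principal_smul,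
          show k • A = (k • A - A) + A by abel, map_add, map_add, sval_add, norm_mul]
        have h1 : ‖sval (comp r (principal (k • A - A))) g‖ = 1 := by
          refine (pow_eq_one_iff_of_nonneg (norm_nonneg _) hp.out.ne_zero).1 ?_
          rw [← norm_pow, ← sval_nsmul, ← map_nsmul, ← map_nsmul, nsmul_smul_sub hpA hk,
            map_zero, map_zero, sval_zero, norm_one]
        rw [h1, one_mul])
    refine ⟨y, hy, fun g => ?_⟩
    rw [sub_eq_add_neg, sval_add, sval_neg, norm_mul, norm_inv, hyn, hn, norm_zpow,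
      norm_natCast_self, inv_zpow', neg_neg, mul_inv_cancel₀]
    exact zpow_ne_zero _ (Nat.cast_ne_zero.2 r.2.ne_zero)
  have hy' : ∀ r, ∃ y ∈ fixSub (A := Semi r) K.grp,
      (r ∉ T → comp r (principal A) - y ∈ semiUnit r) ∧
      (comp r (principal A) ∈ semiUnit r → y = 0) := by
    intro r
    by_cases h : r ∈ T
    · exact ⟨0, zero_mem _, fun h' => absurd h h', fun _ => rfl⟩
    by_cases h2 : comp r (principal A) ∈ semiUnit r
    · exact ⟨0, zero_mem _, fun _ => by rwa [sub_zero], fun _ => rfl⟩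
    · obtain ⟨y, hy1, hy2⟩ := hy r h
      exact ⟨y, hy1, fun _ => hy2, fun h3 => absurd h3 h2⟩
  choose y hy1 hy2 hy3 using hy'
  set X := mkIdele K y hy1 ((principal A).2.2.subset fun r hr hu => hr (by
    rw [hy3 r hu]; exact zero_mem _))
  obtain ⟨a, ha, hXa⟩ := hT X (mkIdele_mem_fixSub _ _ _ _ hy1)
  have hBU : p • (A - a) ∈ sUnit T ⊓ fixSub (A := QMul) K.grp := by
    refine ⟨fun r hr => ?_, ?_⟩
    · rw [map_nsmul, map_nsmul]
      refine nsmul_mem ?_ p
      have h1 := hXa r hr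
      rw [map_sub, show comp r X = y r from rfl] at h1
      have := add_mem (hy2 r hr) h1
      rwa [sub_add_sub_cancel, ← map_sub, ← map_sub] at this
    · rw [nsmul_sub]
      exact AddSubgroup.sub_mem _ hpA (AddSubgroup.nsmul_mem _ ha p)
  have hAt : t • A = A := by
    have h1 := (hLiff t (hLK ht)).1 ht _ hBU
    rwa [smul_sub, ha t (hLK ht), sub_left_inj] at h1
  refine hft ((hPmem t (hLK ht)).1 ((hα.iff t (hLK ht)).1 ?_))
  have := congrArg qval hAt
  rwa [qval_smul, qval_toQMul] at this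

/-- Some root of a `T`-unit is not fixed. -/
lemma exists_unit_nonpow (hp2 : p ≠ 2) (K : Level) (hμ : FixesMu p K.grp) (T : Finset Nat.Primes) :
    ∃ A₀ : QMul, p • A₀ ∈ sUnit T ⊓ fixSub (A := QMul) K.grp ∧ A₀ ∉ fixSub (A := QMul) K.grp := by
  obtain ⟨ζ, hζ⟩ := exists_primitiveRoot p
  obtain ⟨-, -, hU⟩ := sUnit_structure K le_rfl hp.out hp2 hζ
    (fun u hu => hμ u hu ζ hζ.pow_eq_one) T
  by_contra h
  push Not at h
  have hone : (nsmulAddMonoidHom p : ↥(sUnit T ⊓ fixSub (A := QMul) K.grp) →+ _).range = ⊤ := by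
    refine eq_top_iff.2 fun v _ => ?_
    obtain ⟨z, hz⟩ := IsAlgClosed.exists_pow_nat_eq (qval v.1) hp.out.pos
    have hz0 : z ≠ 0 := fun h => qval_ne_zero v.1 (by rw [← hz, h, zero_pow hp.out.ne_zero])
    have e : p • toQMul z hz0 = v.1 := qmul_ext (by rw [qval_nsmul, qval_toQMul, hz])
    refine ⟨⟨toQMul z hz0, fun r hr g => ?_, h _ (e ▸ v.2)⟩, Subtype.ext e⟩
    have h1 : ‖sval (comp r (principal v.1)) g‖ = 1 := v.2.1 r hr g
    rw [← e, map_nsmul, map_nsmul, sval_nsmul, norm_pow] at h1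
    exact (pow_eq_one_iff_of_nonneg (norm_nonneg _) hp.out.ne_zero).1 h1
  have hi := AddSubgroup.index_eq_one.2 hone
  rw [AddSubgroup.index] at hi
  rw [hi, one_pow] at hU
  have h0 := (Nat.pow_eq_one.1 hU.symm).resolve_left hp.out.ne_one
  have := K.finite_quotient
  have hpos : K.grp.index ≠ 0 := Subgroup.index_ne_zero_of_finite
  omega

/-- Splitting of an idele that is a `p`-th power over `T` up to a `T`-unit. -/
lemma exists_decomp {K : Level} {T : Finset Nat.Primes} {x : Idele}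
    (hx : x ∈ sIdele T ⊓ fixSub (A := Idele) K.grp) {b : QMul}
    (hb : b ∈ sUnit T ⊓ fixSub (A := QMul) K.grp)
    (hy : ∀ r ∈ T, ∃ y ∈ fixSub (A := Semi r) K.grp, p • y = comp r (x - principal b)) :
    ∃ z ∈ fixSub (A := Idele) K.grp, ∃ w ∈ fixSub (A := Idele) K.grp,
      toCl x = toCl z + p • toCl w ∧ (∀ r ∈ T, comp r z = 0) ∧
      ∀ r ∉ T, comp r z ∈ semiUnit r := by
  classical
  have hy' : ∀ r, ∃ y ∈ fixSub (A := Semi r) K.grp,
      (r ∈ T → p • y = comp r (x - principal b)) ∧ (r ∉ T → y = 0) := fun r => by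
    by_cases h : r ∈ T
    · obtain ⟨y, hy1, hy2⟩ := hy r h
      exact ⟨y, hy1, fun _ => hy2, fun h' => absurd h h'⟩
    · exact ⟨0, zero_mem _, fun h' => absurd h' h, fun _ => rfl⟩
  choose y hy1 hy2 hy3 using hy'
  set w := mkIdele K y hy1 (T.finite_toSet.subset fun r hr => by_contra fun h => hr (by
    rw [hy3 r h]; exact zero_mem _))
  have hw : w ∈ fixSub (A := Idele) K.grp := mkIdele_mem_fixSub _ _ _ _ hy1
  refine ⟨x - principal b - p • w, AddSubgroup.sub_mem _ (AddSubgroup.sub_mem _ hx.2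
      (principal_mem_fixSub hb.2)) (AddSubgroup.nsmul_mem _ hw p), w, hw, ?_,
    fun r hr => ?_, fun r hr => ?_⟩
  · rw [map_sub, map_sub, toCl_eq_zero_iff.2 ⟨b, rfl⟩, sub_zero, map_nsmul, sub_add_cancel]
  · rw [map_sub, map_nsmul, show comp r w = y r from rfl, hy2 r hr, sub_self]
  · rw [map_sub, map_nsmul, show comp r w = y r from rfl, hy3 r hr, smul_zero, sub_zero, map_sub]
    exact sub_mem (hx.1 r hr) (hb.1 r hr)

/-- Idele units vanishing at `T` are norms from a level residually faithful outside `T`. -/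
lemma exists_norm_unit_idele {K L : Level} (hLK : L.grp ≤ K.grp) {T : Finset Nat.Primes}
    (hF : ∀ r ∉ T, ResFaithful L r) {z : Idele} (hz : z ∈ fixSub (A := Idele) K.grp)
    (hzT : ∀ r ∈ T, comp r z = 0) (hzu : ∀ r ∉ T, comp r z ∈ semiUnit r) :
    ∃ v ∈ fixSub (A := Cl) L.grp, normTo K.grp L.grp v = toCl z := by
  classical
  have hlvl : Lvl K.grp L.grp := L.lvl hLK
  have hv : ∀ r, ∃ v ∈ semiUnit r ⊓ fixSub (A := Semi r) L.grp,
      normTo K.grp L.grp v = comp r z := fun r => by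
    by_cases h : r ∈ T
    · refine ⟨0, zero_mem _, ?_⟩
      rw [hzT r h, normTo, csum_congr _ _ fun t _ => smul_zero t, csum_zero]
    · exact exists_normTo_semiUnit_of_faithful L r hLK (fun g => (hF r h).on _)
        ⟨hzu r h, comp_mem_fixSub hz r⟩
  choose v hv hve using hv
  set V := mkIdele L v (fun r => (hv r).2) ((Set.finite_empty).subset fun r hr => hr (hv r).1)
  have hV : V ∈ fixSub (A := Idele) L.grp := mkIdele_mem_fixSub _ _ _ _ fun r => (hv r).2
  refine ⟨toCl V, fun g hg => by rw [smul_toCl, hV g hg], ?_⟩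
  rw [← toCl_normTo hlvl.fin]
  exact congrArg toCl (idele_ext fun r => (comp_normTo hlvl.fin r V).trans (hve r))

/-- The root level: degree, exponent and separation by layers of degree `p`. -/
lemma rootLevel_layers {K L : Level} (hμ : FixesMu p K.grp) (hLK : L.grp ≤ K.grp)
    {T : Finset Nat.Primes}
    (hLiff : ∀ t ∈ K.grp, t ∈ L.grp ↔
      ∀ B : QMul, p • B ∈ sUnit T ⊓ fixSub (A := QMul) K.grp → t • B = B) :
    (∀ t ∈ K.grp, t ^ p ∈ L.grp) ∧ (∃ a, L.grp.relIndex K.grp = p ^ a) ∧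
      ∀ t ∈ K.grp, t ∉ L.grp →
        ∃ P, Lvl K.grp P ∧ L.grp ≤ P ∧ P.relIndex K.grp = p ∧ t ∉ P := by
  have hlvl : Lvl K.grp L.grp := L.lvl hLK
  have hexp : ∀ t ∈ K.grp, t ^ p ∈ L.grp := fun t ht => by
    refine (hLiff _ (pow_mem ht p)).2 fun B hB => ?_
    have hz := smul_of_nsmul_eq_zero hμ (nsmul_smul_sub hB.2 ht) ht
    have hn : ∀ n : ℕ, t ^ n • B = B + n • (t • B - B) := by
      intro n
      induction n with
      | zero => simp
      | succ n ih =>
        rw [pow_succ', mul_smul, ih, smul_add,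
          show t • (n • (t • B - B)) = n • (t • B - B) from
            (map_nsmul (DistribSMul.toAddMonoidHom QMul t) n _).trans (congrArg (n • ·) hz),
          succ_nsmul']
        abel
    rw [hn, nsmul_smul_sub hB.2 ht, add_zero]
  obtain ⟨a, ha⟩ : ∃ a, L.grp.relIndex K.grp = p ^ a := by
    have := normal_of_lvl hlvl
    have := hlvl.fin
    suffices h : IsPGroup p (↥K.grp ⧸ L.grp.subgroupOf K.grp) from h.exists_card_eq
    intro x
    obtain ⟨x, rfl⟩ := QuotientGroup.mk_surjective x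
    refine ⟨1, ?_⟩
    rw [pow_one, ← QuotientGroup.mk_pow, QuotientGroup.eq_one_iff, Subgroup.mem_subgroupOf]
    exact hexp _ x.2
  have hsep : ∀ t ∈ K.grp, t ∉ L.grp →
      ∃ P, Lvl K.grp P ∧ L.grp ≤ P ∧ P.relIndex K.grp = p ∧ t ∉ P := by
    intro t ht htL
    rw [hLiff t ht] at htL
    push Not at htL
    obtain ⟨B, hB, hBt⟩ := htL
    have hne : qval B ∉ fixField K.grp := fun h => hBt (mem_fixSub_qmul.2 h t ht)
    obtain ⟨L', -, -, cb⟩ := exists_cStep_root K le_rfl hμ (qval_ne_zero B)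
      (qval_nsmul p B ▸ mem_fixSub_qmul.1 hB.2) hne
    exact ⟨_, cb.hP, le_inf hLK fun g hg => congrArg qval ((hLiff g (hLK hg)).1 hg B hB), cb.idx,
      fun h => hBt (qmul_ext (by rw [qval_smul]; exact h.2))⟩
  exact ⟨hexp, ⟨a, ha⟩, hsep⟩

/-- The norm group of the maximal relevant Kummer extension: every homomorphism unramified outside
`S` factors through `L₀`, and norms from `L₀` are unit ideles outside `S` up to `p`-th powers. -/
theorem exists_norm_group (hp2 : p ≠ 2) (S : Finset Nat.Primes)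
    (hpS : (⟨p, Fact.out⟩ : Nat.Primes) ∈ S) (K : Level) (hμ : FixesMu p K.grp)
    (hK : ∀ q ∉ S, K.UnrAt q) :
    ∃ L₀ : Level, L₀.grp ≤ K.grp ∧
      (∀ L' : Level, (∀ q ∉ S, L'.UnrAt q) → L'.grp ≤ K.grp → ∀ f : GQ → ZMod p,
        (∀ g ∈ K.grp, ∀ h ∈ K.grp, f (g * h) = f g + f h) → (∀ s ∈ L'.grp, f s = 0) →
          ∀ s ∈ L₀.grp, f s = 0) ∧
      ∀ c ∈ fixSub (A := Cl) L₀.grp, ∃ x ∈ fixSub (A := Idele) K.grp, (∀ q ∉ S, comp q x ∈ semiUnit q) ∧
        ∃ c' ∈ fixSub (A := Cl) K.grp, normTo K.grp L₀.grp c = toCl x + p • c' := by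
  classical
  obtain ⟨T₀, hT₀⟩ := exists_finset_classGroup K (H := K.grp) le_rfl
  set T := S ∪ T₀ with hTdef
  have hpT : (⟨p, hp.out⟩ : Nat.Primes) ∈ T := Finset.mem_union_left _ hpS
  have hTcl : ∀ x ∈ fixSub (A := Idele) K.grp,
      ∃ a ∈ fixSub (A := QMul) K.grp, x - principal a ∈ sIdele T := fun x hx => by
    obtain ⟨a, ha, h⟩ := hT₀ x hx
    exact ⟨a, ha, fun r hr => h r fun h' => hr (Finset.mem_union_right _ h')⟩
  obtain ⟨L, hLK, hLiff⟩ := exists_rootLevel K hμ hp2 T
  refine ⟨L, hLK, fun L' hunr hL'K f hf hf0 t ht => vanish_rootLevel hμ hTcl hLK hLiff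
    (fun q hq => hunr q fun h => hq (Finset.mem_union_left _ h)) hL'K hf hf0 ht, ?_⟩
  have hμL : FixesMu p L.grp := hμ.mono hLK
  have hlvl : Lvl K.grp L.grp := L.lvl hLK
  obtain ⟨hexp, ⟨a, ha⟩, hsep⟩ := rootLevel_layers hμ hLK hLiff
  have hF : ∀ r ∉ T, ResFaithful L r := fun r hr => resFaithful_rootLevel hLK hLiff
    (fun h' => hr (by rw [show r = ⟨p, hp.out⟩ from Subtype.ext h']; exact hpT)) hr
    (hK r fun h' => hr (Finset.mem_union_left _ h'))
  obtain ⟨u, hC⟩ := exists_classModule_layer hp2 L hLK hμL ha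
  obtain ⟨R, hR, hRs⟩ := exists_reps_norms hp2 L hlvl le_rfl ha hμ
  obtain ⟨hge, -, hpow⟩ := hC.card_normQuot hsep hexp (hR.trans_eq ha.symm) hRs
  -- the number of radicands
  obtain ⟨A₀, hA₀, hA₀K⟩ := exists_unit_nonpow hp2 K hμ T
  obtain ⟨ι, hι, -, A, -, hA, hind, hd⟩ := exists_roots (L := K) le_rfl hμ hp2 T hA₀ hA₀K
  have hda : Fintype.card ι ≤ a :=
    pow_card_le_relIndex hLK (fun i t ht => (hLiff t (hLK ht)).1 ht (A i) (hA i)) hind ha
  obtain ⟨E, hE0, hEle, hEd⟩ := exists_powIdele hp2 K hμ hpT hTcl hd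
  let χ : ↥(sIdele T ⊓ fixSub (A := Idele) K.grp) →+ ↥(fixSub (A := Cl) K.grp) ⧸ normRange hlvl :=
    (QuotientAddGroup.mk' _).comp ((toCl.comp (sIdele T ⊓ fixSub (A := Idele) K.grp).subtype).codRestrict _ fun x g hg => by
      show g • toCl x.1 = toCl x.1
      rw [smul_toCl, x.2.2 g hg])
  have hχ : Function.Surjective χ := by
    intro z
    obtain ⟨⟨c, hc⟩, rfl⟩ := QuotientAddGroup.mk_surjective z
    obtain ⟨x, hx, hxc⟩ := exists_fix_toCl_eq K le_rfl hc
    obtain ⟨b, hb, hxb⟩ := hTcl x hx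
    refine ⟨⟨x - principal b, hxb, (fixSub (A := Idele) K.grp).sub_mem hx (principal_mem_fixSub hb)⟩,
      congrArg QuotientAddGroup.mk (Subtype.ext ?_)⟩
    show toCl (x - principal b) = c
    rw [map_sub, toCl_eq_zero_iff.2 ⟨b, rfl⟩, sub_zero, hxc]
  have key : ∀ x ∈ E, ∃ z ∈ fixSub (A := Idele) K.grp, ∃ w ∈ fixSub (A := Idele) K.grp,
      toCl x.1 = toCl z + p • toCl w ∧ (∀ r ∈ T, comp r z = 0) ∧
      ∀ r ∉ T, comp r z ∈ semiUnit r := fun x hx => by
    obtain ⟨b, hb, hy⟩ := hEd x hx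
    exact exists_decomp x.2 hb hy
  have hle : E ≤ χ.ker := by
    intro x hx
    obtain ⟨z, hz, w, hw, e, hzT, hzu⟩ := key x hx
    obtain ⟨v, hv, hve⟩ := exists_norm_unit_idele hLK hF hz hzT hzu
    have hwf : toCl w ∈ fixSub (A := Cl) K.grp := fun g hg => by rw [smul_toCl, hw g hg]
    obtain ⟨v', hv', hve'⟩ := mem_normRange.1 (hpow ⟨toCl w, hwf⟩)
    refine (QuotientAddGroup.eq_zero_iff _).2 (mem_normRange.2 ⟨v + v', add_mem hv hv', ?_⟩)
    rw [normTo_add hlvl, hve, hve']
    exact e.symm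
  have hkne : χ.ker.index ≠ 0 := fun h => hE0
    (Nat.eq_zero_of_zero_dvd (h ▸ AddSubgroup.index_dvd_of_le hle))
  have hEk : E = χ.ker := by
    refine le_antisymm hle ?_
    have h1 := AddSubgroup.relIndex_mul_index hle
    have h2 : p ^ a ≤ χ.ker.index := by
      rw [AddSubgroup.index_ker, AddMonoidHom.range_eq_top.2 hχ, AddSubgroup.card_top, ← ha]
      exact hge
    have h3 : E.index ≤ χ.ker.index :=
      (hEle.trans (Nat.pow_le_pow_right hp.out.pos hda)).trans h2
    rw [← AddSubgroup.relIndex_eq_one]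
    have h4 : E.relIndex χ.ker * χ.ker.index ≤ 1 * χ.ker.index := by rw [h1, one_mul]; exact h3
    have h5 := Nat.le_of_mul_le_mul_right h4 (Nat.pos_of_ne_zero hkne)
    have h6 : E.relIndex χ.ker ≠ 0 := fun h => hE0 (by rw [← h1, h, zero_mul])
    omega
  intro c hc
  obtain ⟨x, hx⟩ : ∃ x : ↥(sIdele T ⊓ fixSub (A := Idele) K.grp), toCl x.1 = normTo K.grp L.grp c := by
    obtain ⟨x, hx, hxc⟩ := exists_fix_toCl_eq K le_rfl
      (c := normTo K.grp L.grp c) (fun g hg => smul_normTo_of_lvl hlvl hc hg)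
    obtain ⟨b, hb, hxb⟩ := hTcl x hx
    refine ⟨⟨x - principal b, hxb, (fixSub (A := Idele) K.grp).sub_mem hx (principal_mem_fixSub hb)⟩, ?_⟩
    rw [map_sub, toCl_eq_zero_iff.2 ⟨b, rfl⟩, sub_zero, hxc]
  have hxE : x ∈ E := by
    rw [hEk]
    exact (QuotientAddGroup.eq_zero_iff _).2 (mem_normRange.2 ⟨c, hc, hx.symm⟩)
  obtain ⟨z, hz, w, hw, e, hzT, hzu⟩ := key x hxE
  refine ⟨z, hz, fun r _ => ?_, toCl w, fun g hg => by rw [smul_toCl, hw g hg], hx.symm.trans e⟩
  by_cases h : r ∈ T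
  · rw [hzT r h]
    exact zero_mem _
  · exact hzu r h

end FLTAgent.Global
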