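import Fermat.Agent.Global.CFT.Basic
import Fermat.Agent.Global.Herbrand

/-!
Tate quotients of the invariant submodules of a layer of prime degree.
-/

set_option autoImplicit false
set_option linter.unusedSectionVars false

noncomputable section

namespace FLTAgent.Global

section gen

variable {A : Type*} [AddCommGroup A] [DistribMulAction GQ A]

/-- A group element acting on a stable subgroup. -/
def subAct (s : GQ) (S : AddSubgroup A) (hS : ∀ a ∈ S, s • a ∈ S) : S →+ S where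
  toFun a := ⟨s • (a : A), hS _ a.2⟩
  map_zero' := Subtype.ext (smul_zero s)
  map_add' a b := Subtype.ext (smul_add s _ _)

lemma coe_subAct (s : GQ) (S : AddSubgroup A) (hS : ∀ a ∈ S, s • a ∈ S) (a : S) :
    (subAct s S hS a : A) = s • (a : A) := rfl

lemma coe_subAct_iterate (s : GQ) (S : AddSubgroup A) (hS : ∀ a ∈ S, s • a ∈ S) (i : ℕ) (a : S) :
    (((⇑(subAct s S hS))^[i] a : S) : A) = s ^ i • (a : A) := by
  induction i with
  | zero => simp
  | succ i ih => rw [Function.iterate_succ_apply', coe_subAct, ih, ← mul_smul, ← pow_succ']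

lemma coe_sigmaNorm_subAct (s : GQ) (S : AddSubgroup A) (hS : ∀ a ∈ S, s • a ∈ S) (n : ℕ) (a : S) :
    (sigmaNorm (subAct s S hS) n a : A) = ∑ i ∈ Finset.range n, s ^ i • (a : A) := by
  rw [sigmaNorm_apply, AddSubmonoidClass.coe_finsetSum]
  exact Finset.sum_congr rfl fun i _ => coe_subAct_iterate s S hS i a

lemma coe_sigmaSub_subAct (s : GQ) (S : AddSubgroup A) (hS : ∀ a ∈ S, s • a ∈ S) (a : S) :
    (sigmaSub (subAct s S hS) a : A) = s • (a : A) - a := rfl

lemma subsingleton_tate_norm {s : GQ} {S : AddSubgroup A} {hS : ∀ a ∈ S, s • a ∈ S} {n : ℕ}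
    (h : ∀ a ∈ S, s • a = a → ∃ b ∈ S, ∑ i ∈ Finset.range n, s ^ i • b = a) :
    Subsingleton (TateQuot (sigmaSub (subAct s S hS)) (sigmaNorm (subAct s S hS) n)) := by
  refine subsingleton_of_forall_eq 0 fun x => ?_
  obtain ⟨⟨a, ha⟩, rfl⟩ := QuotientAddGroup.mk_surjective x
  rw [QuotientAddGroup.eq_zero_iff]
  obtain ⟨b, hb, hba⟩ := h a.1 a.2 (sub_eq_zero.1 (congrArg Subtype.val ha))
  exact ⟨⟨b, hb⟩, Subtype.ext ((coe_sigmaNorm_subAct s S hS n _).trans hba)⟩

lemma subsingleton_tate_sub {s : GQ} {S : AddSubgroup A} {hS : ∀ a ∈ S, s • a ∈ S} {n : ℕ}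
    (h : ∀ a ∈ S, ∑ i ∈ Finset.range n, s ^ i • a = 0 → ∃ b ∈ S, s • b - b = a) :
    Subsingleton (TateQuot (sigmaNorm (subAct s S hS) n) (sigmaSub (subAct s S hS))) := by
  refine subsingleton_of_forall_eq 0 fun x => ?_
  obtain ⟨⟨a, ha⟩, rfl⟩ := QuotientAddGroup.mk_surjective x
  rw [QuotientAddGroup.eq_zero_iff]
  obtain ⟨b, hb, hba⟩ := h a.1 a.2
    ((coe_sigmaNorm_subAct s S hS n a).symm.trans (congrArg Subtype.val ha))
  exact ⟨⟨b, hb⟩, Subtype.ext hba⟩

lemma exists_norm_of_subsingleton {s : GQ} {S : AddSubgroup A} {hS : ∀ a ∈ S, s • a ∈ S} {n : ℕ}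
    (h : Subsingleton (TateQuot (sigmaSub (subAct s S hS)) (sigmaNorm (subAct s S hS) n)))
    {a : A} (ha : a ∈ S) (hfix : s • a = a) :
    ∃ b ∈ S, ∑ i ∈ Finset.range n, s ^ i • b = a := by
  have := Subsingleton.elim (QuotientAddGroup.mk (⟨⟨a, ha⟩, Subtype.ext (sub_eq_zero.2 hfix)⟩ :
    (sigmaSub (subAct s S hS)).ker) :
      TateQuot (sigmaSub (subAct s S hS)) (sigmaNorm (subAct s S hS) n)) 0
  rw [QuotientAddGroup.eq_zero_iff] at this
  obtain ⟨b, hb⟩ := this
  exact ⟨b, b.2, (coe_sigmaNorm_subAct s S hS n b).symm.trans (congrArg Subtype.val hb)⟩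

lemma exists_sub_of_subsingleton {s : GQ} {S : AddSubgroup A} {hS : ∀ a ∈ S, s • a ∈ S} {n : ℕ}
    (h : Subsingleton (TateQuot (sigmaNorm (subAct s S hS) n) (sigmaSub (subAct s S hS))))
    {a : A} (ha : a ∈ S) (h0 : ∑ i ∈ Finset.range n, s ^ i • a = 0) :
    ∃ b ∈ S, s • b - b = a := by
  have := Subsingleton.elim (QuotientAddGroup.mk (⟨⟨a, ha⟩,
    Subtype.ext ((coe_sigmaNorm_subAct s S hS n _).trans h0)⟩ :
    (sigmaNorm (subAct s S hS) n).ker) :
      TateQuot (sigmaNorm (subAct s S hS) n) (sigmaSub (subAct s S hS))) 0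
  rw [QuotientAddGroup.eq_zero_iff] at this
  obtain ⟨b, hb⟩ := this
  exact ⟨b, b.2, congrArg Subtype.val hb⟩

lemma hasHerbrand_one_of_subsingleton {X : Type*} [AddCommGroup X] {f g : X →+ X}
    (h1 : Subsingleton (TateQuot f g)) (h2 : Subsingleton (TateQuot g f)) :
    HasHerbrand f g 1 1 :=
  (hasHerbrand_iff one_ne_zero).2 ⟨inferInstance, inferInstance, by simp [Nat.card_unique]⟩

lemma subsingleton_sub_of_hasHerbrand {X : Type*} [AddCommGroup X] {f g : X →+ X}
    (h : HasHerbrand f g 1 1) (h1 : Subsingleton (TateQuot f g)) : Subsingleton (TateQuot g f) := by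
  obtain ⟨-, h2, h3⟩ := (hasHerbrand_iff one_ne_zero).1 h
  rw [one_mul, one_mul, Nat.card_unique (α := TateQuot f g)] at h3
  exact (Nat.card_eq_one_iff_unique.1 h3).1

lemma csum_mem {Γ : Type*} [Group Γ] {M : Type*} [AddCommMonoid M] (S : AddSubmonoid M)
    {H P : Subgroup Γ} {F : Γ → M} (h : ∀ g ∈ H, F g ∈ S) : csum H P F ∈ S :=
  finsum_induction (· ∈ S) S.zero_mem (fun _ _ => S.add_mem) fun k => h _ (rep_mem H P k)

lemma normTo_mem_fixSub {H N : Subgroup GQ} (hN : Lvl H N) {a : A}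
    (ha : a ∈ fixSub (A := A) N) : normTo H N a ∈ fixSub (A := A) H := by
  intro g hg
  have hlev : ∀ t ∈ H, ∀ u ∈ N, (t * u) • a = t • a := fun t _ u hu => by
    rw [mul_smul, ha u hu]
  rw [normTo, smul_csum hN]
  conv_rhs => rw [← csum_mul_left (F := fun t => t • a) hlev hg]
  exact csum_congr H N fun t _ => (mul_smul g t a).symm

lemma normTo_tower {H P N : Subgroup GQ} (hN : Lvl H N) (hP : P ≤ H) (hNP : N ≤ P) {a : A}
    (ha : a ∈ fixSub (A := A) N) : normTo H P (normTo P N a) = normTo H N a := by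
  have hlev : ∀ t ∈ H, ∀ u ∈ N, (t * u) • a = t • a := fun t _ u hu => by
    rw [mul_smul, ha u hu]
  conv_rhs => rw [normTo, ← csum_tower hN hP hNP (F := fun t => t • a) hlev]
  rw [normTo]
  refine csum_congr H P fun t _ => ?_
  rw [normTo, smul_csum (hN.sub_left hP hNP)]
  exact csum_congr P N fun r _ => (mul_smul t r a).symm

/-- A stable subgroup of finite index has the same Herbrand quotient; here it is one. -/
lemma hasHerbrand_one_of_finite_index {p : ℕ} {s : GQ} {U V : AddSubgroup A}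
    {hU : ∀ a ∈ U, s • a ∈ U} {hV : ∀ a ∈ V, s • a ∈ V} (hVU : V ≤ U)
    (hfin : Finite (U ⧸ (AddSubgroup.inclusion hVU).range))
    (hp : ∀ u : U, (⇑(subAct s U hU))^[p] u = u)
    (h : HasHerbrand (sigmaSub (subAct s V hV)) (sigmaNorm (subAct s V hV) p) 1 1) :
    HasHerbrand (sigmaSub (subAct s U hU)) (sigmaNorm (subAct s U hU) p) 1 1 := by
  set i : V →+ U := AddSubgroup.inclusion hVU
  let σC : U ⧸ i.range →+ U ⧸ i.range := QuotientAddGroup.map _ _ (subAct s U hU) (by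
    rintro _ ⟨a, rfl⟩
    exact ⟨subAct s V hV a, Subtype.ext rfl⟩)
  have hC : ∀ b, (⇑σC)^[p] b = b := by
    intro b
    obtain ⟨u, rfl⟩ := QuotientAddGroup.mk_surjective b
    have := (Function.Semiconj.iterate_right (f := (QuotientAddGroup.mk : U → U ⧸ i.range))
      (ga := ⇑(subAct s U hU)) (gb := ⇑σC) (fun _ => rfl) p u).symm
    rw [this, hp]
  have := hasHerbrand_of_exact_mid (subAct s V hV) (subAct s U hU) σC hp i
    (QuotientAddGroup.mk' _) (AddSubgroup.inclusion_injective hVU)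
    (QuotientAddGroup.mk'_surjective _)
    (AddMonoidHom.exact_iff.2 (QuotientAddGroup.ker_mk' _)) (fun _ => Subtype.ext rfl)
    (fun _ => rfl) h (hasHerbrand_of_finite σC hC)
  simpa using this

/-- An extension of stable subgroups both with Herbrand quotient one. -/
lemma hasHerbrand_one_of_extension {B : Type*} [AddCommGroup B] [DistribMulAction GQ B] {p : ℕ}
    {s : GQ} {K S : AddSubgroup A} {U : AddSubgroup B} {hK : ∀ a ∈ K, s • a ∈ K}
    {hS : ∀ a ∈ S, s • a ∈ S} {hU : ∀ a ∈ U, s • a ∈ U} (hKS : K ≤ S) (φ : A →+ B)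
    (hφ : ∀ a, φ (s • a) = s • φ a) (hmem : ∀ a ∈ S, φ a ∈ U)
    (hsurj : ∀ u ∈ U, ∃ a ∈ S, φ a = u) (hker : ∀ a ∈ S, φ a = 0 ↔ a ∈ K)
    (hp : ∀ u : S, (⇑(subAct s S hS))^[p] u = u)
    (h1 : HasHerbrand (sigmaSub (subAct s K hK)) (sigmaNorm (subAct s K hK) p) 1 1)
    (h2 : HasHerbrand (sigmaSub (subAct s U hU)) (sigmaNorm (subAct s U hU) p) 1 1) :
    HasHerbrand (sigmaSub (subAct s S hS)) (sigmaNorm (subAct s S hS) p) 1 1 := by
  let j : S →+ U := (φ.comp S.subtype).codRestrict U fun x => hmem x x.2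
  have hj : Function.Surjective j := fun u => by
    obtain ⟨a, ha, hau⟩ := hsurj u u.2
    exact ⟨⟨a, ha⟩, Subtype.ext hau⟩
  have hex : Function.Exact (AddSubgroup.inclusion hKS) j := fun x =>
    ⟨fun hx => ⟨⟨x, (hker x x.2).1 (congrArg Subtype.val hx)⟩, Subtype.ext rfl⟩,
      fun ⟨a, ha⟩ => ha ▸ Subtype.ext ((hker a (hKS a.2)).2 a.2)⟩
  have := hasHerbrand_of_exact_mid (subAct s K hK) (subAct s S hS) (subAct s U hU) hp
    (AddSubgroup.inclusion hKS) j (AddSubgroup.inclusion_injective hKS) hj hex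
    (fun _ => Subtype.ext rfl) (fun a => Subtype.ext (hφ a)) h1 h2
  simpa using this

end gen

namespace CStep

variable {p : ℕ} [hp : Fact p.Prime] {L : Level} {H P : Subgroup GQ} (c : CStep p L H P)
  {s : GQ} (hs : s ∈ H) (hsP : s ∉ P)
variable {A : Type*} [AddCommGroup A] [DistribMulAction GQ A]

include c hs hsP

lemma pow_p_mem : s ^ p ∈ P := (c.pow_mem_iff hs hsP).2 dvd_rfl

lemma iterate_subAct (S : AddSubgroup A) (hS : ∀ a ∈ S, s • a ∈ S) (hSP : S ≤ fixSub (A := A) P)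
    (a : S) : (⇑(subAct s S hS))^[p] a = a :=
  Subtype.ext ((coe_subAct_iterate s S hS p a).trans (hSP a.2 _ (c.pow_p_mem hs hsP)))

lemma mem_fixSub_of_gen {a : A} (ha : a ∈ fixSub (A := A) P) (hsa : s • a = a) :
    a ∈ fixSub (A := A) H := by
  intro g hg
  obtain ⟨i, -, hi⟩ := c.exists_pow_mul_mem hs hsP hg
  have hpow : ∀ n : ℕ, s ^ n • a = a := by
    intro n
    induction n with
    | zero => simp
    | succ n ih => rw [pow_succ', mul_smul, ih, hsa]
  have e : g = s ^ i * ((s ^ i)⁻¹ * g) := by group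
  rw [e, mul_smul, ha _ hi, hpow]

omit hsP in
lemma smul_mem_fixSub {a : A} (ha : a ∈ fixSub (A := A) P) : s • a ∈ fixSub (A := A) P :=
  fun t ht => by
    rw [← mul_smul, show t * s = s * (s⁻¹ * t * s) by group, mul_smul, ha _ (c.hP.conj s hs t ht)]

lemma sum_pow_mem_fixSub {a : A} (ha : a ∈ fixSub (A := A) P) :
    ∑ i ∈ Finset.range p, s ^ i • a ∈ fixSub (A := A) H := by
  rw [← c.normTo_eq_sum hs hsP ha]
  exact normTo_mem_fixSub c.hP ha

end CStep

end FLTAgent.Global
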